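import Fermat.Agent.CoxParry.Level
import Fermat.Agent.Torsion.RealisedBasic
import Fermat.Agent.Torsion.TwoTen

/-!
# Realising the torsion groups: generalities

A model over `k[T]` with coefficients of degrees `i m`, minimal everywhere, gives a curve of level
`m`; an embedded group is the whole torsion subgroup once the larger groups are excluded.
-/

set_option autoImplicit false
set_option linter.unusedSectionVars false
set_option linter.style.haveILetI false

noncomputable section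

open Polynomial WeierstrassCurve FA.SzpiroLine FA.LevinTorsion FA.NeronSpecialisation
open FA.LangNeron (not_constant_of_j)
open scoped Classical

namespace FA.CoxParry.Realise

variable {k : Type*} [Field k]

/-- Degree at most `i m`, with that coefficient. -/
def HasTop (m : ℕ) (p : k[X]) (i : ℕ) (a : k) : Prop :=
  p.natDegree ≤ i * m ∧ p.coeff (i * m) = a

namespace HasTop

variable {m i j : ℕ} {p q : k[X]} {a b : k}

theorem add (hp : HasTop m p i a) (hq : HasTop m q i b) : HasTop m (p + q) i (a + b) :=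
  ⟨natDegree_add_le_of_degree_le hp.1 hq.1, by rw [coeff_add, hp.2, hq.2]⟩

theorem neg (hp : HasTop m p i a) : HasTop m (-p) i (-a) :=
  ⟨by rw [natDegree_neg]; exact hp.1, by rw [coeff_neg, hp.2]⟩

theorem sub (hp : HasTop m p i a) (hq : HasTop m q i b) : HasTop m (p - q) i (a - b) := by
  rw [sub_eq_add_neg, sub_eq_add_neg]; exact hp.add hq.neg

theorem mul (hp : HasTop m p i a) (hq : HasTop m q j b) : HasTop m (p * q) (i + j) (a * b) := by
  refine ⟨?_, ?_⟩
  · rw [add_mul]; exact natDegree_mul_le_of_le hp.1 hq.1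
  · rw [add_mul, coeff_mul_add_eq_of_natDegree_le hp.1 hq.1, hp.2, hq.2]

theorem const_mul (c : k) (hp : HasTop m p i a) : HasTop m (C c * p) i (c * a) :=
  ⟨(natDegree_C_mul_le c p).trans hp.1, by rw [coeff_C_mul, hp.2]⟩

end HasTop

/-- The leading parts of `c₄`, `c₆` and `Δ`. -/
theorem hasTop_invariants {m : ℕ} {W : WeierstrassCurve k[X]} {V : WeierstrassCurve k}
    (h1 : HasTop m W.a₁ 1 V.a₁) (h2 : HasTop m W.a₂ 2 V.a₂) (h3 : HasTop m W.a₃ 3 V.a₃)
    (h4 : HasTop m W.a₄ 4 V.a₄) (h6 : HasTop m W.a₆ 6 V.a₆) :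
    HasTop m W.c₄ 4 V.c₄ ∧ HasTop m W.c₆ 6 V.c₆ ∧ HasTop m W.Δ 12 V.Δ := by
  have hn : ∀ n : ℕ, [NeZero n] → (n : k[X]) = C (n : k) := fun n _ => (map_natCast C n).symm
  have hb2 : HasTop m W.b₂ 2 V.b₂ := by
    have := (h1.mul h1).add ((h2.const_mul (4 : k)))
    simp only [map_ofNat, ← pow_two] at this
    simpa only [b₂] using this
  have hb4 : HasTop m W.b₄ 4 V.b₄ := by
    have := (h4.const_mul (2 : k)).add (h1.mul h3)
    simp only [map_ofNat] at this
    simpa only [b₄] using this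
  have hb6 : HasTop m W.b₆ 6 V.b₆ := by
    have := (h3.mul h3).add ((h6.const_mul (4 : k)))
    simp only [map_ofNat, ← pow_two] at this
    simpa only [b₆] using this
  have hb8 : HasTop m W.b₈ 8 V.b₈ := by
    have := ((((((h1.mul h1).mul h6)).add ((h2.mul h6).const_mul (4 : k))).sub
      ((h1.mul h3).mul h4)).add (h2.mul (h3.mul h3))).sub (h4.mul h4)
    simp only [map_ofNat, ← pow_two] at this
    have e : W.b₈ = W.a₁ ^ 2 * W.a₆ + 4 * (W.a₂ * W.a₆) - W.a₁ * W.a₃ * W.a₄ + W.a₂ * W.a₃ ^ 2 -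
        W.a₄ ^ 2 := by rw [b₈]; ring
    have e' : V.b₈ = V.a₁ ^ 2 * V.a₆ + 4 * (V.a₂ * V.a₆) - V.a₁ * V.a₃ * V.a₄ + V.a₂ * V.a₃ ^ 2 -
        V.a₄ ^ 2 := by rw [b₈]; ring
    rw [e, e']
    exact this
  refine ⟨?_, ?_, ?_⟩
  · have := (hb2.mul hb2).sub (hb4.const_mul (24 : k))
    simp only [map_ofNat, ← pow_two] at this
    simpa only [c₄] using this
  · have := (((hb2.mul hb2).mul hb2).neg.add ((hb2.mul hb4).const_mul (36 : k))).sub
      (hb6.const_mul (216 : k))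
    simp only [map_ofNat] at this
    have e : W.c₆ = -(W.b₂ * W.b₂ * W.b₂) + 36 * (W.b₂ * W.b₄) - 216 * W.b₆ := by rw [c₆]; ring
    have e' : V.c₆ = -(V.b₂ * V.b₂ * V.b₂) + 36 * (V.b₂ * V.b₄) - 216 * V.b₆ := by rw [c₆]; ring
    rw [e, e']
    exact this
  · have := ((((hb2.mul hb2).mul hb8).neg.sub (((hb4.mul hb4).mul hb4).const_mul (8 : k))).sub
      ((hb6.mul hb6).const_mul (27 : k))).add (((hb2.mul hb4).mul hb6).const_mul (9 : k))
    simp only [map_ofNat] at this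
    have e : W.Δ = -(W.b₂ * W.b₂ * W.b₈) - 8 * (W.b₄ * W.b₄ * W.b₄) - 27 * (W.b₆ * W.b₆) +
        9 * (W.b₂ * W.b₄ * W.b₆) := by rw [WeierstrassCurve.Δ]; ring
    have e' : V.Δ = -(V.b₂ * V.b₂ * V.b₈) - 8 * (V.b₄ * V.b₄ * V.b₄) - 27 * (V.b₆ * V.b₆) +
        9 * (V.b₂ * V.b₄ * V.b₆) := by rw [WeierstrassCurve.Δ]; ring
    rw [e, e']
    exact this

/-- A model over `k[T]` minimal of level `m`, with a multiplicative fibre. -/
structure Good (W : WeierstrassCurve k[X]) (m : ℕ) : Prop where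
  d4 : W.c₄.natDegree ≤ 4 * m
  d6 : W.c₆.natDegree ≤ 6 * m
  infty : ¬(W.c₄.natDegree + 4 ≤ 4 * m ∧ W.c₆.natDegree + 6 ≤ 6 * m)
  finite : ∀ t, W.c₄.eval t = 0 → W.Δ.eval t = 0 → False
  node : ∃ t, W.Δ.eval t = 0
  nz : W.Δ ≠ 0

variable {m : ℕ} {W : WeierstrassCurve k[X]}

theorem eval_c₄ (t : k) : W.c₄.eval t = (W.map (evalRingHom t)).c₄ :=
  (WeierstrassCurve.map_c₄ W (evalRingHom t)).symm

theorem eval_Δ (t : k) : W.Δ.eval t = (W.map (evalRingHom t)).Δ :=
  (WeierstrassCurve.map_Δ W (evalRingHom t)).symm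

variable [CharZero k]

/-- A good model from its values and its leading parts. -/
theorem good_of_top {V : WeierstrassCurve k} (h1 : HasTop m W.a₁ 1 V.a₁) (h2 : HasTop m W.a₂ 2 V.a₂) (h3 : HasTop m W.a₃ 3 V.a₃)
    (h4 : HasTop m W.a₄ 4 V.a₄) (h6 : HasTop m W.a₆ 6 V.a₆) (hV : V.c₄ ≠ 0)
    (hfin : ∀ t, (W.map (evalRingHom t)).c₄ = 0 → (W.map (evalRingHom t)).Δ = 0 → False)
    (hnode : ∃ t, (W.map (evalRingHom t)).Δ = 0) (hnz : ∃ t, (W.map (evalRingHom t)).Δ ≠ 0) :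
    Good W m := by
  obtain ⟨t₀, ht₀⟩ := hnz
  obtain ⟨⟨k4, e4⟩, ⟨k6, -⟩, -⟩ := hasTop_invariants h1 h2 h3 h4 h6
  refine ⟨k4, k6, fun h => hV ?_, fun t => ?_, ?_, fun e => ht₀ ?_⟩
  · rw [← e4]; exact coeff_eq_zero_of_natDegree_lt (by omega)
  · rw [eval_c₄, eval_Δ]; exact hfin t
  · obtain ⟨t, ht⟩ := hnode; exact ⟨t, by rw [eval_Δ, ht]⟩
  · rw [← eval_Δ, e, eval_zero]

/-- **Level `m`, with group `ℤ/a × ℤ/b`.** -/
def Occurs (k : Type*) [Field k] (a b m : ℕ) : Prop :=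
  ∃ (E : WeierstrassCurve (RatFunc k)) (_ : E.IsElliptic), NotConst E ∧
    (∃ (A B : k[X]) (C₀ : VariableChange (RatFunc k)), C₀ • E = shortEq A B ∧ Minimal A B m) ∧
    Nonempty (AddCommGroup.torsion E.toAffine.Point ≃+ ZMod a × ZMod b)

theorem isElliptic_of_model {E : WeierstrassCurve (RatFunc k)} {C₁ : VariableChange (RatFunc k)}
    (hC : C₁ • E = genW W) (hW : W.Δ ≠ 0) : E.IsElliptic := by
  haveI := genW_isElliptic hW
  rw [show E = C₁⁻¹ • genW W by rw [← hC, inv_smul_smul]]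
  infer_instance

/-- The minimal short equation and the invariant of a good model. -/
theorem short_of_good (hg : Good W m) {E : WeierstrassCurve (RatFunc k)} [E.IsElliptic]
    {C₁ : VariableChange (RatFunc k)} (hC : C₁ • E = genW W) :
    NotConst E ∧ 0 < m ∧ W.c₄ ^ 3 - W.c₆ ^ 2 = 1728 * W.Δ ∧ ∃ C₀ : VariableChange (RatFunc k),
      C₀ • E = shortEq W.c₄ W.c₆ ∧ Minimal W.c₄ W.c₆ m := by
  haveI := genW_isElliptic hg.nz
  set G := genW W with hG
  have e4 : algebraMap k[X] (RatFunc k) W.c₄ = G.c₄ := (WeierstrassCurve.map_c₄ _ _).symm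
  have e6 : algebraMap k[X] (RatFunc k) W.c₆ = G.c₆ := (WeierstrassCurve.map_c₆ _ _).symm
  have h0 : (⟨Units.mk0 (1 / 6 : RatFunc k) (by norm_num), -G.b₂ / 12, -G.a₁ / 2,
      G.a₁ * G.b₂ / 24 - G.a₃ / 2⟩ : VariableChange (RatFunc k)) • G = shortEq W.c₄ W.c₆ := by
    rw [shortEq, e4, e6]
    ext <;> simp only [variableChange_a₁, variableChange_a₂, variableChange_a₃, variableChange_a₄,
      variableChange_a₆, Units.val_inv_eq_inv_val, Units.val_mk0,
      WeierstrassCurve.c₄, WeierstrassCurve.c₆, WeierstrassCurve.b₂, WeierstrassCurve.b₄,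
      WeierstrassCurve.b₆]
    all_goals field_simp
    all_goals ring
  have hC₀ := h0
  rw [← hC, ← mul_smul] at hC₀
  have hrel : W.c₄ ^ 3 - W.c₆ ^ 2 = 1728 * W.Δ := W.c_relation.symm
  obtain ⟨t, ht⟩ := hg.node
  have h4t : W.c₄.eval t ≠ 0 := fun e => hg.finite t e ht
  have hm : 0 < m := by
    by_contra hm0
    refine hg.nz ?_
    have h4 : W.c₄ = C (W.c₄.coeff 0) := eq_C_of_natDegree_eq_zero (by have := hg.d4; omega)
    have h6 : W.c₆ = C (W.c₆.coeff 0) := eq_C_of_natDegree_eq_zero (by have := hg.d6; omega)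
    have h := congrArg (eval t) hrel
    rw [eval_mul, ht, mul_zero, h4, h6] at h
    simp only [eval_sub, eval_pow, eval_C] at h
    refine (mul_eq_zero.mp (?_ : (1728 : k[X]) * W.Δ = 0)).resolve_left (by norm_num)
    rw [← hrel, h4, h6, ← map_pow, ← map_pow, ← map_sub, h, map_zero]
  refine ⟨not_constant_of_j E fun c hc => h4t ?_, hm, hrel, _, hC₀, hg.d4, hg.d6, hg.infty,
    fun s hs => hg.finite s ?_ ?_⟩
  · have h := congrArg (eval t) (const_ratio_of_j E hC₀ hc)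
    rw [hrel, eval_pow, eval_mul, eval_mul, ht, mul_zero, mul_zero] at h
    exact pow_eq_zero_iff (three_ne_zero) |>.mp h
  · exact eval_eq_zero_of_dvd_of_eval_eq_zero
      ((dvd_pow_self (X - C s) four_ne_zero).trans hs.1) (by simp)
  · have h4 : W.c₄.eval s = 0 := eval_eq_zero_of_dvd_of_eval_eq_zero
      ((dvd_pow_self (X - C s) four_ne_zero).trans hs.1) (by simp)
    have h6 : W.c₆.eval s = 0 := eval_eq_zero_of_dvd_of_eval_eq_zero
      ((dvd_pow_self (X - C s) (by norm_num : 6 ≠ 0)).trans hs.2) (by simp)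
    have h := congrArg (eval s) hrel
    rw [eval_sub, eval_pow, eval_pow, h4, h6, eval_mul] at h
    norm_num at h
    exact h

/-! ### From an embedding to the torsion subgroup -/

/-- A subgroup `ℤ/a × ℤ/b` of `ℤ/p × ℤ/q`. -/
theorem dvd_of_injective {a b p q : ℕ} (hab : a ∣ b) (hb : 0 < b) (hpq : p ∣ q) (hq : 0 < q)
    (g : ZMod a × ZMod b →+ ZMod p × ZMod q) (hg : Function.Injective g) : a ∣ p ∧ b ∣ q := by
  have ha : 0 < a := Nat.pos_of_dvd_of_pos hab hb
  haveI : NeZero a := ⟨ha.ne'⟩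
  haveI : NeZero q := ⟨hq.ne'⟩
  haveI : NeZero p := ⟨(Nat.pos_of_dvd_of_pos hpq hq).ne'⟩
  refine ⟨?_, ?_⟩
  · obtain ⟨f, hf⟩ := exists_injective_zmod hab hb
    set g' := g.comp ((AddMonoidHom.id (ZMod a)).prodMap f)
    have hg' : Function.Injective g' := hg.comp (Function.Injective.prodMap Function.injective_id hf)
    have hkill : ∀ x, a • g' x = 0 := fun x => by
      rw [← map_nsmul, ← map_zero g']; congr 1; ext <;> simp
    set s := Finset.univ.filter fun x : ZMod p => Nat.gcd a p • x = 0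
    set s' := Finset.univ.filter fun x : ZMod q => a • x = 0
    have hsub : Finset.univ.image g' ⊆ s ×ˢ s' := fun y hy => by
      obtain ⟨x, -, rfl⟩ := Finset.mem_image.1 hy
      refine Finset.mem_product.2 ⟨Finset.mem_filter.2 ⟨Finset.mem_univ _, ?_⟩,
        Finset.mem_filter.2 ⟨Finset.mem_univ _, congrArg Prod.snd (hkill x)⟩⟩
      rw [← addOrderOf_dvd_iff_nsmul_eq_zero]
      exact Nat.dvd_gcd (addOrderOf_dvd_of_nsmul_eq_zero (congrArg Prod.fst (hkill x)))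
        (addOrderOf_dvd_of_nsmul_eq_zero (by simp))
    have h := Finset.card_le_card hsub
    rw [Finset.card_image_of_injective _ hg', Finset.card_univ, Fintype.card_prod, ZMod.card,
      Finset.card_product] at h
    have h1 : s.card ≤ Nat.gcd a p := IsAddCyclic.card_nsmul_eq_zero_le (Nat.gcd_pos_of_pos_left _ ha)
    have h2 : s'.card ≤ a := IsAddCyclic.card_nsmul_eq_zero_le ha
    have h3 : a ≤ Nat.gcd a p := Nat.le_of_mul_le_mul_right (h.trans (Nat.mul_le_mul h1 h2)) ha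
    rw [Nat.le_antisymm h3 (Nat.le_of_dvd ha (Nat.gcd_dvd_left a p))]
    exact Nat.gcd_dvd_right a p
  · have h01 : addOrderOf ((0 : ZMod a), (1 : ZMod b)) = b := by
      rw [Prod.addOrderOf_mk, addOrderOf_zero, Nat.lcm_one_left, ZMod.addOrderOf_one]
    conv_lhs => rw [← h01, ← addOrderOf_injective g hg (0, 1)]
    refine addOrderOf_dvd_of_nsmul_eq_zero (Prod.ext ?_ (by simp))
    rw [Prod.smul_fst, nsmul_eq_mul, (ZMod.natCast_eq_zero_iff _ _).2 hpq, zero_mul, Prod.fst_zero]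

/-- The candidates at any level. -/
theorem exact_of_excluded {E : WeierstrassCurve (RatFunc k)} [E.IsElliptic] {l : List (ℕ × ℕ)}
    (hl : ∃ p ∈ l, Nonempty (AddCommGroup.torsion E.toAffine.Point ≃+ ZMod p.1 × ZMod p.2))
    {a b : ℕ} (hab : a ∣ b) (hb : 0 < b) (φ : ZMod a × ZMod b →+ E.toAffine.Point)
    (hφ : Function.Injective φ) (bad : List (ℕ × ℕ))
    (hbad : ∀ q ∈ bad, ∀ ψ : ZMod q.1 × ZMod q.2 →+ E.toAffine.Point, ¬Function.Injective ψ)
    (hchk : ∀ p ∈ l, p.1 ∣ p.2 ∧ 0 < p.2 ∧ (a ∣ p.1 → b ∣ p.2 →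
      p = (a, b) ∨ ∃ q ∈ bad, q.1 ∣ p.1 ∧ q.2 ∣ p.2)) :
    Nonempty (AddCommGroup.torsion E.toAffine.Point ≃+ ZMod a × ZMod b) := by
  obtain ⟨⟨p, q⟩, hp, ⟨e⟩⟩ := hl
  obtain ⟨hpq, hq, hc⟩ := hchk _ hp
  haveI : NeZero a := ⟨(Nat.pos_of_dvd_of_pos hab hb).ne'⟩
  haveI : NeZero b := ⟨hb.ne'⟩
  set φ' := φ.codRestrict (AddCommGroup.torsion E.toAffine.Point) fun x =>
    (AddCommGroup.mem_torsion (φ x)).mpr (φ.isOfFinAddOrder (isOfFinAddOrder_of_finite x))
  have hφ' : Function.Injective φ' := fun x y h => hφ (congrArg Subtype.val h)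
  obtain ⟨h1, h2⟩ := dvd_of_injective hab hb hpq hq (e.toAddMonoidHom.comp φ')
    (e.injective.comp hφ')
  rcases hc h1 h2 with h | ⟨⟨c, d⟩, hcd, hc1, hd⟩
  · obtain ⟨rfl, rfl⟩ : p = a ∧ q = b := Prod.mk.inj h
    exact ⟨e⟩
  · obtain ⟨f, hf⟩ := exists_injective_zmod hc1 (Nat.pos_of_dvd_of_pos hpq hq)
    obtain ⟨f', hf'⟩ := exists_injective_zmod hd hq
    exact absurd (Subtype.val_injective.comp (e.symm.injective.comp (hf.prodMap hf')))
      (hbad _ hcd ((AddCommGroup.torsion E.toAffine.Point).subtype.comp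
        (e.symm.toAddMonoidHom.comp (f.prodMap f'))))

end FA.CoxParry.Realise
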