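import Mathlib.Tactic.LinearCombination
import Mathlib.Tactic.NormNum
import Mathlib.Algebra.CharZero.Defs
import Mathlib.Algebra.Field.Basic
import Mathlib.Tactic.FieldSimp

/-!
# `c₄` and the discriminant of Kubert's families have no common root

Bezout identities with the factors of the discriminant.
-/

set_option autoImplicit false
set_option linter.unusedSimpArgs false

namespace FA.CoxParry.Realise

theorem coprime_five_one {k : Type*} [Field k] [CharZero k] {t : k}
    (h4 : t^4 - 12 * t^3 + 14 * t^2 + 12 * t + 1 = 0)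
    (hD : (t) ^ 5 * (t^2 - 11 * t - 1) ^ 1 = 0) :
    False := by
  simp only [mul_eq_zero, pow_eq_zero_iff, ne_eq, OfNat.ofNat_ne_zero, not_false_eq_true, or_assoc] at hD
  rcases hD with f0 | f1
  · exact absurd (show (1 : k) = 0 by
      linear_combination (1) * h4 +
        (-t^3 + 12 * t^2 - 14 * t - 12) * f0) (by norm_num)
  · exact absurd (show (5 : k) = 0 by
      linear_combination (-11 * t + 122) * h4 +
        (11 * t^3 - 133 * t^2 + 166 * t + 117) * f1) (by norm_num)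

theorem coprime_five_two {k : Type*} [Field k] [CharZero k] {t : k}
    (h4 : t^8 - 12 * t^6 + 14 * t^4 + 12 * t^2 + 1 = 0)
    (hD : (t) ^ 10 * (t^4 - 11 * t^2 - 1) ^ 1 = 0) :
    False := by
  simp only [mul_eq_zero, pow_eq_zero_iff, ne_eq, OfNat.ofNat_ne_zero, not_false_eq_true, or_assoc] at hD
  rcases hD with f0 | f1
  · exact absurd (show (1 : k) = 0 by
      linear_combination (1) * h4 +
        (-t^7 + 12 * t^5 - 14 * t^3 - 12 * t) * f0) (by norm_num)
  · exact absurd (show (5 : k) = 0 by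
      linear_combination (-11 * t^2 + 122) * h4 +
        (11 * t^6 - 133 * t^4 + 166 * t^2 + 117) * f1) (by norm_num)

theorem coprime_six_one {k : Type*} [Field k] [CharZero k] {t : k}
    (h4 : 9 * t^4 + 12 * t^3 + 30 * t^2 + 12 * t + 1 = 0)
    (hD : (t) ^ 6 * (t + 1) ^ 3 * (9 * t + 1) ^ 1 = 0) :
    False := by
  simp only [mul_eq_zero, pow_eq_zero_iff, ne_eq, OfNat.ofNat_ne_zero, not_false_eq_true, or_assoc] at hD
  rcases hD with f0 | f1 | f2
  · exact absurd (show (1 : k) = 0 by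
      linear_combination (1) * h4 +
        (-9 * t^3 - 12 * t^2 - 30 * t - 12) * f0) (by norm_num)
  · exact absurd (show (16 : k) = 0 by
      linear_combination (1) * h4 +
        (-9 * t^3 - 3 * t^2 - 27 * t + 15) * f1) (by norm_num)
  · exact absurd (show (16 : k) = 0 by
      linear_combination (729) * h4 +
        (-729 * t^3 - 891 * t^2 - 2331 * t - 713) * f2) (by norm_num)

theorem coprime_six_two {k : Type*} [Field k] [CharZero k] {t : k}
    (h4 : 9 * t^8 + 12 * t^6 + 30 * t^4 + 12 * t^2 + 1 = 0)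
    (hD : (t) ^ 12 * (9 * t^2 + 1) ^ 1 * (t^2 + 1) ^ 3 = 0) :
    False := by
  simp only [mul_eq_zero, pow_eq_zero_iff, ne_eq, OfNat.ofNat_ne_zero, not_false_eq_true, or_assoc] at hD
  rcases hD with f0 | f1 | f2
  · exact absurd (show (1 : k) = 0 by
      linear_combination (1) * h4 +
        (-9 * t^7 - 12 * t^5 - 30 * t^3 - 12 * t) * f0) (by norm_num)
  · exact absurd (show (16 : k) = 0 by
      linear_combination (729) * h4 +
        (-729 * t^6 - 891 * t^4 - 2331 * t^2 - 713) * f1) (by norm_num)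
  · exact absurd (show (16 : k) = 0 by
      linear_combination (1) * h4 +
        (-9 * t^6 - 3 * t^4 - 27 * t^2 + 15) * f2) (by norm_num)

theorem coprime_seven {k : Type*} [Field k] [CharZero k] {t : k}
    (h4 : t^8 - 12 * t^7 + 42 * t^6 - 56 * t^5 + 35 * t^4 - 14 * t^2 + 4 * t + 1 = 0)
    (hD : (t) ^ 7 * (t - 1) ^ 7 * (t^3 - 8 * t^2 + 5 * t + 1) ^ 1 = 0) :
    False := by
  simp only [mul_eq_zero, pow_eq_zero_iff, ne_eq, OfNat.ofNat_ne_zero, not_false_eq_true, or_assoc] at hD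
  rcases hD with f0 | f1 | f2
  · exact absurd (show (1 : k) = 0 by
      linear_combination (1) * h4 +
        (-t^7 + 12 * t^6 - 42 * t^5 + 56 * t^4 - 35 * t^3 + 14 * t - 4) * f0) (by norm_num)
  · exact absurd (show (1 : k) = 0 by
      linear_combination (1) * h4 +
        (-t^7 + 11 * t^6 - 31 * t^5 + 25 * t^4 - 10 * t^3 - 10 * t^2 + 4 * t) * f1) (by norm_num)
  · exact absurd (show (49 : k) = 0 by
      linear_combination (-444 * t^2 + 3005 * t + 1710) * h4 +
        (444 * t^7 - 4781 * t^6 + 12530 * t^5 - 6853 * t^4 - 693 * t^3 + 6776 * t^2 - 1540 * t - 1661) * f2) (by norm_num)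

theorem coprime_eight {k : Type*} [Field k] [CharZero k] {t : k}
    (h4 : 16 * t^8 - 64 * t^7 + 224 * t^6 - 448 * t^5 + 480 * t^4 - 288 * t^3 + 96 * t^2 - 16 * t + 1 = 0)
    (hD : (t) ^ 8 * (t - 1) ^ 8 * (2 * t - 1) ^ 4 * (8 * t^2 - 8 * t + 1) ^ 1 = 0) :
    False := by
  simp only [mul_eq_zero, pow_eq_zero_iff, ne_eq, OfNat.ofNat_ne_zero, not_false_eq_true, or_assoc] at hD
  rcases hD with f0 | f1 | f2 | f3
  · exact absurd (show (1 : k) = 0 by
      linear_combination (1) * h4 +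
        (-16 * t^7 + 64 * t^6 - 224 * t^5 + 448 * t^4 - 480 * t^3 + 288 * t^2 - 96 * t + 16) * f0) (by norm_num)
  · exact absurd (show (1 : k) = 0 by
      linear_combination (1) * h4 +
        (-16 * t^7 + 48 * t^6 - 176 * t^5 + 272 * t^4 - 208 * t^3 + 80 * t^2 - 16 * t) * f1) (by norm_num)
  · exact absurd (show (1 : k) = 0 by
      linear_combination (16) * h4 +
        (-128 * t^7 + 448 * t^6 - 1568 * t^5 + 2800 * t^4 - 2440 * t^3 + 1084 * t^2 - 226 * t + 15) * f2) (by norm_num)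
  · exact absurd (show (1 : k) = 0 by
      linear_combination (256) * h4 +
        (-512 * t^6 + 1536 * t^5 - 5568 * t^4 + 8576 * t^3 - 6088 * t^2 + 2056 * t - 255) * f3) (by norm_num)

theorem coprime_nine {k : Type*} [Field k] [CharZero k] {t : k}
    (h4 : t^12 - 12 * t^11 + 54 * t^10 - 128 * t^9 + 189 * t^8 - 180 * t^7 + 114 * t^6 - 36 * t^5 - 18 * t^4 + 28 * t^3 - 12 * t^2 + 1 = 0)
    (hD : (t) ^ 9 * (t - 1) ^ 9 * (t^3 - 6 * t^2 + 3 * t + 1) ^ 1 * (t^2 - t + 1) ^ 3 = 0) :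
    False := by
  simp only [mul_eq_zero, pow_eq_zero_iff, ne_eq, OfNat.ofNat_ne_zero, not_false_eq_true, or_assoc] at hD
  rcases hD with f0 | f1 | f2 | f3
  · exact absurd (show (1 : k) = 0 by
      linear_combination (1) * h4 +
        (-t^11 + 12 * t^10 - 54 * t^9 + 128 * t^8 - 189 * t^7 + 180 * t^6 - 114 * t^5 + 36 * t^4 + 18 * t^3 - 28 * t^2 + 12 * t) * f0) (by norm_num)
  · exact absurd (show (1 : k) = 0 by
      linear_combination (1) * h4 +
        (-t^11 + 11 * t^10 - 43 * t^9 + 85 * t^8 - 104 * t^7 + 76 * t^6 - 38 * t^5 - 2 * t^4 + 16 * t^3 - 12 * t^2) * f1) (by norm_num)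
  · exact absurd (show (9 : k) = 0 by
      linear_combination (-377 * t^2 + 1925 * t + 623) * h4 +
        (377 * t^11 - 4187 * t^10 + 16582 * t^9 - 33054 * t^8 + 40128 * t^7 - 28593 * t^6 + 12843 * t^5 + 1827 * t^4 - 7482 * t^3 + 4418 * t^2 - 83 * t - 614) * f2) (by norm_num)
  · exact absurd (show (9 : k) = 0 by
      linear_combination (-t) * h4 +
        (t^11 - 11 * t^10 + 42 * t^9 - 75 * t^8 + 72 * t^7 - 33 * t^6 + 9 * t^5 + 6 * t^4 - 21 * t^3 + t^2 + 10 * t + 9) * f3) (by norm_num)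

theorem coprime_ten {k : Type*} [Field k] [CharZero k] {t : k}
    (h4 : 16 * t^12 - 128 * t^11 + 416 * t^10 - 720 * t^9 + 720 * t^8 - 288 * t^7 - 256 * t^6 + 432 * t^5 - 240 * t^4 + 40 * t^3 + 16 * t^2 - 8 * t + 1 = 0)
    (hD : (t) ^ 10 * (t - 1) ^ 10 * (2 * t - 1) ^ 5 * (4 * t^2 - 2 * t - 1) ^ 1 * (t^2 - 3 * t + 1) ^ 2 = 0) :
    False := by
  simp only [mul_eq_zero, pow_eq_zero_iff, ne_eq, OfNat.ofNat_ne_zero, not_false_eq_true, or_assoc] at hD
  rcases hD with f0 | f1 | f2 | f3 | f4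
  · exact absurd (show (1 : k) = 0 by
      linear_combination (1) * h4 +
        (-16 * t^11 + 128 * t^10 - 416 * t^9 + 720 * t^8 - 720 * t^7 + 288 * t^6 + 256 * t^5 - 432 * t^4 + 240 * t^3 - 40 * t^2 - 16 * t + 8) * f0) (by norm_num)
  · exact absurd (show (1 : k) = 0 by
      linear_combination (1) * h4 +
        (-16 * t^11 + 112 * t^10 - 304 * t^9 + 416 * t^8 - 304 * t^7 - 16 * t^6 + 240 * t^5 - 192 * t^4 + 48 * t^3 + 8 * t^2 - 8 * t) * f1) (by norm_num)
  · exact absurd (show (1 : k) = 0 by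
      linear_combination (256) * h4 +
        (-2048 * t^11 + 15360 * t^10 - 45568 * t^9 + 69376 * t^8 - 57472 * t^7 + 8128 * t^6 + 36832 * t^5 - 36880 * t^4 + 12280 * t^3 + 1020 * t^2 - 1538 * t + 255) * f2) (by norm_num)
  · exact absurd (show (5 : k) = 0 by
      linear_combination (4096 * t + 1280) * h4 +
        (-16384 * t^11 + 117760 * t^10 - 330240 * t^9 + 468480 * t^8 - 355200 * t^7 + 4032 * t^6 + 267520 * t^5 - 225680 * t^4 + 61560 * t^3 + 10200 * t^2 - 8694 * t + 1275) * f3) (by norm_num)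
  · exact absurd (show (5 : k) = 0 by
      linear_combination (-2584 * t + 6765) * h4 +
        (41344 * t^11 - 314960 * t^10 + 954640 * t^9 - 1495840 * t^8 + 1289120 * t^7 - 251792 * t^6 - 757680 * t^5 + 826880 * t^4 - 304320 * t^3 - 12880 * t^2 + 36424 * t - 6760) * f4) (by norm_num)

theorem coprime_twelve {k : Type*} [Field k] [CharZero k] {t : k}
    (h4 : 144 * t^16 - 1152 * t^15 + 7200 * t^14 - 30240 * t^13 + 84048 * t^12 - 163584 * t^11 + 234000 * t^10 - 253920 * t^9 + 212880 * t^8 - 139008 * t^7 + 70656 * t^6 - 27696 * t^5 + 8208 * t^4 - 1776 * t^3 + 264 * t^2 - 24 * t + 1 = 0)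
    (hD : (t) ^ 12 * (t - 1) ^ 12 * (2 * t - 1) ^ 6 * (6 * t^2 - 6 * t + 1) ^ 1 * (2 * t^2 - 2 * t + 1) ^ 3 * (3 * t^2 - 3 * t + 1) ^ 4 = 0) :
    False := by
  simp only [mul_eq_zero, pow_eq_zero_iff, ne_eq, OfNat.ofNat_ne_zero, not_false_eq_true, or_assoc] at hD
  rcases hD with f0 | f1 | f2 | f3 | f4 | f5
  · exact absurd (show (1 : k) = 0 by
      linear_combination (1) * h4 +
        (-144 * t^15 + 1152 * t^14 - 7200 * t^13 + 30240 * t^12 - 84048 * t^11 + 163584 * t^10 - 234000 * t^9 + 253920 * t^8 - 212880 * t^7 + 139008 * t^6 - 70656 * t^5 + 27696 * t^4 - 8208 * t^3 + 1776 * t^2 - 264 * t + 24) * f0) (by norm_num)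
  · exact absurd (show (1 : k) = 0 by
      linear_combination (1) * h4 +
        (-144 * t^15 + 1008 * t^14 - 6192 * t^13 + 24048 * t^12 - 60000 * t^11 + 103584 * t^10 - 130416 * t^9 + 123504 * t^8 - 89376 * t^7 + 49632 * t^6 - 21024 * t^5 + 6672 * t^4 - 1536 * t^3 + 240 * t^2 - 24 * t) * f1) (by norm_num)
  · exact absurd (show (1 : k) = 0 by
      linear_combination (4096) * h4 +
        (-294912 * t^15 + 2211840 * t^14 - 13639680 * t^13 + 55111680 * t^12 - 144574464 * t^11 + 262732800 * t^10 - 347865600 * t^9 + 346095360 * t^8 - 262930560 * t^7 + 153223104 * t^6 - 68091936 * t^5 + 22675440 * t^4 - 5472264 * t^3 + 901116 * t^2 - 90114 * t + 4095) * f2) (by norm_num)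
  · exact absurd (show (1 : k) = 0 by
      linear_combination (11664) * h4 +
        (-279936 * t^14 + 1959552 * t^13 - 11990592 * t^12 + 46469376 * t^11 - 114921504 * t^10 + 195340896 * t^9 - 240401520 * t^8 + 220662144 * t^7 - 153109656 * t^6 + 80344872 * t^5 - 31492116 * t^4 + 8958096 * t^3 - 1749570 * t^2 + 209958 * t - 11663) * f3) (by norm_num)
  · exact absurd (show (1 : k) = 0 by
      linear_combination (16) * h4 +
        (-1152 * t^14 + 8064 * t^13 - 48960 * t^12 + 188928 * t^11 - 458976 * t^10 + 755232 * t^9 - 887280 * t^8 + 766464 * t^7 - 492936 * t^6 + 235896 * t^5 - 82884 * t^4 + 20736 * t^3 - 3486 * t^2 + 354 * t - 15) * f4) (by norm_num)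
  · exact absurd (show (1 : k) = 0 by
      linear_combination (729) * h4 +
        (-34992 * t^14 + 244944 * t^13 - 1492992 * t^12 + 5773680 * t^11 - 14152320 * t^10 + 23674032 * t^9 - 28470528 * t^8 + 25340688 * t^7 - 16898976 * t^6 + 8433072 * t^5 - 3103344 * t^4 + 815760 * t^3 - 144336 * t^2 + 15312 * t - 728) * f5) (by norm_num)

theorem coprime_two_six {k : Type*} [Field k] [CharZero k] {t : k}
    (h4 : t^8 - 24 * t^7 + 204 * t^6 - 648 * t^5 - 330 * t^4 + 6552 * t^3 + 2604 * t^2 - 86904 * t + 144081 = 0)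
    (hD : (t - 1) ^ 6 * (t - 3) ^ 2 * (t + 3) ^ 2 * (t - 5) ^ 6 * (t - 9) ^ 2 = 0) :
    False := by
  simp only [mul_eq_zero, pow_eq_zero_iff, ne_eq, OfNat.ofNat_ne_zero, not_false_eq_true, or_assoc] at hD
  rcases hD with f0 | f1 | f2 | f3 | f4
  · exact absurd (show (65536 : k) = 0 by
      linear_combination (1) * h4 +
        (-t^7 + 23 * t^6 - 181 * t^5 + 467 * t^4 + 797 * t^3 - 5755 * t^2 - 8359 * t + 78545) * f0) (by norm_num)
  · exact absurd (show (2304 : k) = 0 by
      linear_combination (1) * h4 +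
        (-t^7 + 21 * t^6 - 141 * t^5 + 225 * t^4 + 1005 * t^3 - 3537 * t^2 - 13215 * t + 47259) * f1) (by norm_num)
  · exact absurd (show (589824 : k) = 0 by
      linear_combination (1) * h4 +
        (-t^7 + 27 * t^6 - 285 * t^5 + 1503 * t^4 - 4179 * t^3 + 5985 * t^2 - 20559 * t + 148581) * f2) (by norm_num)
  · exact absurd (show (65536 : k) = 0 by
      linear_combination (1) * h4 +
        (-t^7 + 19 * t^6 - 109 * t^5 + 103 * t^4 + 845 * t^3 - 2327 * t^2 - 14239 * t + 15709) * f3) (by norm_num)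
  · exact absurd (show (589824 : k) = 0 by
      linear_combination (1) * h4 +
        (-t^7 + 15 * t^6 - 69 * t^5 + 27 * t^4 + 573 * t^3 - 1395 * t^2 - 15159 * t - 49527) * f4) (by norm_num)

theorem coprime_two_eight {k : Type*} [Field k] [CharZero k] {t : k}
    (h4 : 16777216 * t^16 + 67108864 * t^15 + 117440512 * t^14 + 117440512 * t^13 + 72351744 * t^12 + 26214400 * t^11 + 3276800 * t^10 - 1900544 * t^9 - 1183744 * t^8 - 237568 * t^7 + 51200 * t^6 + 51200 * t^5 + 17664 * t^4 + 3584 * t^3 + 448 * t^2 + 32 * t + 1 = 0)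
    (hD : (t) ^ 8 * (2 * t + 1) ^ 8 * (4 * t + 1) ^ 8 * (64 * t^4 + 64 * t^3 - 8 * t - 1) ^ 2 * (8 * t^2 + 4 * t + 1) ^ 4 = 0) :
    False := by
  simp only [mul_eq_zero, pow_eq_zero_iff, ne_eq, OfNat.ofNat_ne_zero, not_false_eq_true, or_assoc] at hD
  rcases hD with f0 | f1 | f2 | f3 | f4
  · exact absurd (show (1 : k) = 0 by
      linear_combination (1) * h4 +
        (-16777216 * t^15 - 67108864 * t^14 - 117440512 * t^13 - 117440512 * t^12 - 72351744 * t^11 - 26214400 * t^10 - 3276800 * t^9 + 1900544 * t^8 + 1183744 * t^7 + 237568 * t^6 - 51200 * t^5 - 51200 * t^4 - 17664 * t^3 - 3584 * t^2 - 448 * t - 32) * f0) (by norm_num)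
  · exact absurd (show (1 : k) = 0 by
      linear_combination (1) * h4 +
        (-8388608 * t^15 - 29360128 * t^14 - 44040192 * t^13 - 36700160 * t^12 - 17825792 * t^11 - 4194304 * t^10 + 458752 * t^9 + 720896 * t^8 + 231424 * t^7 + 3072 * t^6 - 27136 * t^5 - 12032 * t^4 - 2816 * t^3 - 384 * t^2 - 32 * t) * f1) (by norm_num)
  · exact absurd (show (1 : k) = 0 by
      linear_combination (256) * h4 +
        (-1073741824 * t^15 - 4026531840 * t^14 - 6509559808 * t^13 - 5888802816 * t^12 - 3158310912 * t^11 - 888143872 * t^10 + 12320768 * t^9 + 118554624 * t^8 + 46120960 * t^7 + 3674112 * t^6 - 4195328 * t^5 - 2227968 * t^4 - 573504 * t^3 - 86000 * t^2 - 7172 * t - 255) * f2) (by norm_num)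
  · exact absurd (show (1 : k) = 0 by
      linear_combination (-3264 * t^2 - 1632 * t + 985) * h4 +
        (855638016 * t^14 + 2994733056 * t^13 + 4447797248 * t^12 + 3610509312 * t^11 + 1654390784 * t^10 + 322797568 * t^9 - 79941632 * t^8 - 73670656 * t^7 - 19396608 * t^6 + 1396736 * t^5 + 2917120 * t^4 + 1080320 * t^3 + 209664 * t^2 + 22016 * t + 984) * f3) (by norm_num)
  · exact absurd (show (1 : k) = 0 by
      linear_combination (1) * h4 +
        (-2097152 * t^14 - 7340032 * t^13 - 10747904 * t^12 - 8388608 * t^11 - 3506176 * t^10 - 475136 * t^9 + 266240 * t^8 + 163840 * t^7 + 32768 * t^6 - 7168 * t^5 - 6912 * t^4 - 2048 * t^3 - 320 * t^2 - 32 * t) * f4) (by norm_num)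

theorem coprime_three_six {k : Type*} [Field k] [CharZero k] {t : k}
    (h4 : 9 * t^12 + 72 * t^9 + 2160 * t^6 + 4176 * t^3 + 144 = 0)
    (hD : (t) ^ 3 * (t - 1) ^ 6 * (t + 2) ^ 3 * (t^2 - 2 * t + 4) ^ 3 * (t^2 + t + 1) ^ 6 = 0) :
    False := by
  simp only [mul_eq_zero, pow_eq_zero_iff, ne_eq, OfNat.ofNat_ne_zero, not_false_eq_true, or_assoc] at hD
  rcases hD with f0 | f1 | f2 | f3 | f4
  · exact absurd (show (144 : k) = 0 by
      linear_combination (1) * h4 +
        (-9 * t^11 - 72 * t^8 - 2160 * t^5 - 4176 * t^2) * f0) (by norm_num)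
  · exact absurd (show (6561 : k) = 0 by
      linear_combination (1) * h4 +
        (-9 * t^11 - 9 * t^10 - 9 * t^9 - 81 * t^8 - 81 * t^7 - 81 * t^6 - 2241 * t^5 - 2241 * t^4 - 2241 * t^3 - 6417 * t^2 - 6417 * t - 6417) * f1) (by norm_num)
  · exact absurd (show (104976 : k) = 0 by
      linear_combination (1) * h4 +
        (-9 * t^11 + 18 * t^10 - 36 * t^9 - 2160 * t^5 + 4320 * t^4 - 8640 * t^3 + 13104 * t^2 - 26208 * t + 52416) * f2) (by norm_num)
  · exact absurd (show (104976 : k) = 0 by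
      linear_combination (1) * h4 +
        (-9 * t^10 - 18 * t^9 - 2160 * t^4 - 4320 * t^3 + 13104 * t + 26208) * f3) (by norm_num)
  · exact absurd (show (6561 : k) = 0 by
      linear_combination (1) * h4 +
        (-9 * t^10 + 9 * t^9 - 81 * t^7 + 81 * t^6 - 2241 * t^4 + 2241 * t^3 - 6417 * t + 6417) * f4) (by norm_num)

theorem coprime_five_five {k : Type*} [Field k] [CharZero k] {t : k}
    (h4 : 625 * t^20 - 142500 * t^15 + 308750 * t^10 + 142500 * t^5 + 625 = 0)
    (hD : (t) ^ 5 * (t^10 + 11 * t^5 - 1) ^ 5 = 0) :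
    False := by
  simp only [mul_eq_zero, pow_eq_zero_iff, ne_eq, OfNat.ofNat_ne_zero, not_false_eq_true, or_assoc] at hD
  rcases hD with f0 | f1
  · exact absurd (show (625 : k) = 0 by
      linear_combination (1) * h4 +
        (-625 * t^19 + 142500 * t^14 - 308750 * t^9 - 142500 * t^4) * f0) (by norm_num)
  · exact absurd (show (1953125 : k) = 0 by
      linear_combination (11 * t^5 + 122) * h4 +
        (-6875 * t^15 + 1566875 * t^10 - 3253750 * t^5 - 1876875) * f1) (by norm_num)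

end FA.CoxParry.Realise
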