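import Fermat.Agent.CoxParry.Realise.Basic
import Fermat.Agent.CoxParry.Realise.Coprime

/-!
# Polynomial models of Kubert's families

Each is minimal of its level: Tate's normal form cleared of denominators.
-/

set_option autoImplicit false
set_option linter.unusedSectionVars false
set_option linter.style.longLine false
set_option linter.unusedSimpArgs false
set_option linter.flexible false
set_option linter.unreachableTactic false
set_option linter.unusedTactic false
set_option linter.unnecessarySeqFocus false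

noncomputable section

open Polynomial WeierstrassCurve
open scoped Classical

namespace FA.CoxParry.Realise

variable (k : Type*) [Field k]

/-- The family `five_one`. -/
def modelFiveOne : WeierstrassCurve k[X] :=
  ⟨-X + 1, -X, -X, 0, 0⟩

theorem good_five_one [CharZero k] : Good (modelFiveOne k) 1 := by
  refine good_of_top (V := ⟨-1, 0, 0, 0, 0⟩) ?_ ?_ ?_ ?_ ?_ ?_ (fun t h4 hD => ?_)
    ⟨0, ?_⟩ ⟨2, ?_⟩
  iterate 5
    · refine ⟨?_, ?_⟩ <;> simp only [modelFiveOne]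
      · refine le_trans (b := _) (by compute_degree!) (by norm_num)
      · simp [coeff_one, coeff_X]
  · simp [WeierstrassCurve.c₄, b₂, b₄] <;> norm_num
  · refine coprime_five_one (t := t) ?_ ?_
    · simp [modelFiveOne, WeierstrassCurve.map, WeierstrassCurve.c₄, b₂, b₄] at h4
      linear_combination h4
    · simp [modelFiveOne, WeierstrassCurve.map, WeierstrassCurve.Δ, b₂, b₄, b₆, b₈] at hD
      linear_combination hD
  · simp [modelFiveOne, WeierstrassCurve.map, WeierstrassCurve.Δ, b₂, b₄, b₆, b₈] <;> norm_num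
  · simp [modelFiveOne, WeierstrassCurve.map, WeierstrassCurve.Δ, b₂, b₄, b₆, b₈]
    norm_num

/-- The family `five_two`. -/
def modelFiveTwo : WeierstrassCurve k[X] :=
  ⟨-X^2 + 1, -X^2, -X^2, 0, 0⟩

theorem good_five_two [CharZero k] : Good (modelFiveTwo k) 2 := by
  refine good_of_top (V := ⟨-1, 0, 0, 0, 0⟩) ?_ ?_ ?_ ?_ ?_ ?_ (fun t h4 hD => ?_)
    ⟨0, ?_⟩ ⟨2, ?_⟩
  iterate 5
    · refine ⟨?_, ?_⟩ <;> simp only [modelFiveTwo]
      · refine le_trans (b := _) (by compute_degree!) (by norm_num)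
      · simp [coeff_one, coeff_X]
  · simp [WeierstrassCurve.c₄, b₂, b₄] <;> norm_num
  · refine coprime_five_two (t := t) ?_ ?_
    · simp [modelFiveTwo, WeierstrassCurve.map, WeierstrassCurve.c₄, b₂, b₄] at h4
      linear_combination h4
    · simp [modelFiveTwo, WeierstrassCurve.map, WeierstrassCurve.Δ, b₂, b₄, b₆, b₈] at hD
      linear_combination hD
  · simp [modelFiveTwo, WeierstrassCurve.map, WeierstrassCurve.Δ, b₂, b₄, b₆, b₈] <;> norm_num
  · simp [modelFiveTwo, WeierstrassCurve.map, WeierstrassCurve.Δ, b₂, b₄, b₆, b₈]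
    norm_num

/-- The family `six_one`. -/
def modelSixOne : WeierstrassCurve k[X] :=
  ⟨-X + 1, -X^2 - X, -X^2 - X, 0, 0⟩

theorem good_six_one [CharZero k] : Good (modelSixOne k) 1 := by
  refine good_of_top (V := ⟨-1, -1, 0, 0, 0⟩) ?_ ?_ ?_ ?_ ?_ ?_ (fun t h4 hD => ?_)
    ⟨0, ?_⟩ ⟨2, ?_⟩
  iterate 5
    · refine ⟨?_, ?_⟩ <;> simp only [modelSixOne]
      · refine le_trans (b := _) (by compute_degree!) (by norm_num)
      · simp [coeff_one, coeff_X]
  · simp [WeierstrassCurve.c₄, b₂, b₄] <;> norm_num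
  · refine coprime_six_one (t := t) ?_ ?_
    · simp [modelSixOne, WeierstrassCurve.map, WeierstrassCurve.c₄, b₂, b₄] at h4
      linear_combination h4
    · simp [modelSixOne, WeierstrassCurve.map, WeierstrassCurve.Δ, b₂, b₄, b₆, b₈] at hD
      linear_combination hD
  · simp [modelSixOne, WeierstrassCurve.map, WeierstrassCurve.Δ, b₂, b₄, b₆, b₈] <;> norm_num
  · simp [modelSixOne, WeierstrassCurve.map, WeierstrassCurve.Δ, b₂, b₄, b₆, b₈]
    norm_num

/-- The family `six_two`. -/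
def modelSixTwo : WeierstrassCurve k[X] :=
  ⟨-X^2 + 1, -X^4 - X^2, -X^4 - X^2, 0, 0⟩

theorem good_six_two [CharZero k] : Good (modelSixTwo k) 2 := by
  refine good_of_top (V := ⟨-1, -1, 0, 0, 0⟩) ?_ ?_ ?_ ?_ ?_ ?_ (fun t h4 hD => ?_)
    ⟨0, ?_⟩ ⟨2, ?_⟩
  iterate 5
    · refine ⟨?_, ?_⟩ <;> simp only [modelSixTwo]
      · refine le_trans (b := _) (by compute_degree!) (by norm_num)
      · simp [coeff_one, coeff_X]
  · simp [WeierstrassCurve.c₄, b₂, b₄] <;> norm_num
  · refine coprime_six_two (t := t) ?_ ?_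
    · simp [modelSixTwo, WeierstrassCurve.map, WeierstrassCurve.c₄, b₂, b₄] at h4
      linear_combination h4
    · simp [modelSixTwo, WeierstrassCurve.map, WeierstrassCurve.Δ, b₂, b₄, b₆, b₈] at hD
      linear_combination hD
  · simp [modelSixTwo, WeierstrassCurve.map, WeierstrassCurve.Δ, b₂, b₄, b₆, b₈] <;> norm_num
  · simp [modelSixTwo, WeierstrassCurve.map, WeierstrassCurve.Δ, b₂, b₄, b₆, b₈]
    norm_num

/-- The family `seven`. -/
def modelSeven : WeierstrassCurve k[X] :=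
  ⟨-X^2 + X + 1, -X^3 + X^2, -X^3 + X^2, 0, 0⟩

theorem good_seven [CharZero k] : Good (modelSeven k) 2 := by
  refine good_of_top (V := ⟨-1, 0, 0, 0, 0⟩) ?_ ?_ ?_ ?_ ?_ ?_ (fun t h4 hD => ?_)
    ⟨0, ?_⟩ ⟨2, ?_⟩
  iterate 5
    · refine ⟨?_, ?_⟩ <;> simp only [modelSeven]
      · refine le_trans (b := _) (by compute_degree!) (by norm_num)
      · simp [coeff_one, coeff_X]
  · simp [WeierstrassCurve.c₄, b₂, b₄] <;> norm_num
  · refine coprime_seven (t := t) ?_ ?_
    · simp [modelSeven, WeierstrassCurve.map, WeierstrassCurve.c₄, b₂, b₄] at h4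
      linear_combination h4
    · simp [modelSeven, WeierstrassCurve.map, WeierstrassCurve.Δ, b₂, b₄, b₆, b₈] at hD
      linear_combination hD
  · simp [modelSeven, WeierstrassCurve.map, WeierstrassCurve.Δ, b₂, b₄, b₆, b₈] <;> norm_num
  · simp [modelSeven, WeierstrassCurve.map, WeierstrassCurve.Δ, b₂, b₄, b₆, b₈]
    norm_num

/-- The family `eight`. -/
def modelEight : WeierstrassCurve k[X] :=
  ⟨-2 * X^2 + 4 * X - 1, -2 * X^4 + 3 * X^3 - X^2, -2 * X^5 + 3 * X^4 - X^3, 0, 0⟩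

theorem good_eight [CharZero k] : Good (modelEight k) 2 := by
  refine good_of_top (V := ⟨-2, -2, 0, 0, 0⟩) ?_ ?_ ?_ ?_ ?_ ?_ (fun t h4 hD => ?_)
    ⟨0, ?_⟩ ⟨2, ?_⟩
  iterate 5
    · refine ⟨?_, ?_⟩ <;> simp only [modelEight]
      · refine le_trans (b := _) (by compute_degree!) (by norm_num)
      · simp [coeff_one, coeff_X]
  · simp [WeierstrassCurve.c₄, b₂, b₄] <;> norm_num
  · refine coprime_eight (t := t) ?_ ?_
    · simp [modelEight, WeierstrassCurve.map, WeierstrassCurve.c₄, b₂, b₄] at h4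
      linear_combination h4
    · simp [modelEight, WeierstrassCurve.map, WeierstrassCurve.Δ, b₂, b₄, b₆, b₈] at hD
      linear_combination hD
  · simp [modelEight, WeierstrassCurve.map, WeierstrassCurve.Δ, b₂, b₄, b₆, b₈] <;> norm_num
  · simp [modelEight, WeierstrassCurve.map, WeierstrassCurve.Δ, b₂, b₄, b₆, b₈]
    norm_num

/-- The family `nine`. -/
def modelNine : WeierstrassCurve k[X] :=
  ⟨-X^3 + X^2 + 1, -X^5 + 2 * X^4 - 2 * X^3 + X^2, -X^5 + 2 * X^4 - 2 * X^3 + X^2, 0, 0⟩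

theorem good_nine [CharZero k] : Good (modelNine k) 3 := by
  refine good_of_top (V := ⟨-1, 0, 0, 0, 0⟩) ?_ ?_ ?_ ?_ ?_ ?_ (fun t h4 hD => ?_)
    ⟨0, ?_⟩ ⟨2, ?_⟩
  iterate 5
    · refine ⟨?_, ?_⟩ <;> simp only [modelNine]
      · refine le_trans (b := _) (by compute_degree!) (by norm_num)
      · simp [coeff_one, coeff_X]
  · simp [WeierstrassCurve.c₄, b₂, b₄] <;> norm_num
  · refine coprime_nine (t := t) ?_ ?_
    · simp [modelNine, WeierstrassCurve.map, WeierstrassCurve.c₄, b₂, b₄] at h4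
      linear_combination h4
    · simp [modelNine, WeierstrassCurve.map, WeierstrassCurve.Δ, b₂, b₄, b₆, b₈] at hD
      linear_combination hD
  · simp [modelNine, WeierstrassCurve.map, WeierstrassCurve.Δ, b₂, b₄, b₆, b₈] <;> norm_num
  · simp [modelNine, WeierstrassCurve.map, WeierstrassCurve.Δ, b₂, b₄, b₆, b₈]
    norm_num

/-- The family `ten`. -/
def modelTen : WeierstrassCurve k[X] :=
  ⟨-2 * X^3 + 2 * X^2 + 2 * X - 1, -2 * X^5 + 3 * X^4 - X^3, 2 * X^7 - 9 * X^6 + 12 * X^5 - 6 * X^4 + X^3, 0, 0⟩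

theorem good_ten [CharZero k] : Good (modelTen k) 3 := by
  refine good_of_top (V := ⟨-2, 0, 0, 0, 0⟩) ?_ ?_ ?_ ?_ ?_ ?_ (fun t h4 hD => ?_)
    ⟨0, ?_⟩ ⟨2, ?_⟩
  iterate 5
    · refine ⟨?_, ?_⟩ <;> simp only [modelTen]
      · refine le_trans (b := _) (by compute_degree!) (by norm_num)
      · simp [coeff_one, coeff_X]
  · simp [WeierstrassCurve.c₄, b₂, b₄] <;> norm_num
  · refine coprime_ten (t := t) ?_ ?_
    · simp [modelTen, WeierstrassCurve.map, WeierstrassCurve.c₄, b₂, b₄] at h4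
      linear_combination h4
    · simp [modelTen, WeierstrassCurve.map, WeierstrassCurve.Δ, b₂, b₄, b₆, b₈] at hD
      linear_combination hD
  · simp [modelTen, WeierstrassCurve.map, WeierstrassCurve.Δ, b₂, b₄, b₆, b₈] <;> norm_num
  · simp [modelTen, WeierstrassCurve.map, WeierstrassCurve.Δ, b₂, b₄, b₆, b₈]
    norm_num

/-- The family `twelve`. -/
def modelTwelve : WeierstrassCurve k[X] :=
  ⟨6 * X^4 - 8 * X^3 + 2 * X^2 + 2 * X - 1, -12 * X^8 + 54 * X^7 - 106 * X^6 + 119 * X^5 - 83 * X^4 + 36 * X^3 - 9 * X^2 + X, -12 * X^11 + 90 * X^10 - 304 * X^9 + 611 * X^8 - 812 * X^7 + 748 * X^6 - 485 * X^5 + 219 * X^4 - 66 * X^3 + 12 * X^2 - X, 0, 0⟩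

theorem good_twelve [CharZero k] : Good (modelTwelve k) 4 := by
  refine good_of_top (V := ⟨6, -12, 0, 0, 0⟩) ?_ ?_ ?_ ?_ ?_ ?_ (fun t h4 hD => ?_)
    ⟨0, ?_⟩ ⟨2, ?_⟩
  iterate 5
    · refine ⟨?_, ?_⟩ <;> simp only [modelTwelve]
      · refine le_trans (b := _) (by compute_degree!) (by norm_num)
      · simp [coeff_one, coeff_X]
  · simp [WeierstrassCurve.c₄, b₂, b₄] <;> norm_num
  · refine coprime_twelve (t := t) ?_ ?_
    · simp [modelTwelve, WeierstrassCurve.map, WeierstrassCurve.c₄, b₂, b₄] at h4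
      linear_combination h4
    · simp [modelTwelve, WeierstrassCurve.map, WeierstrassCurve.Δ, b₂, b₄, b₆, b₈] at hD
      linear_combination hD
  · simp [modelTwelve, WeierstrassCurve.map, WeierstrassCurve.Δ, b₂, b₄, b₆, b₈] <;> norm_num
  · simp [modelTwelve, WeierstrassCurve.map, WeierstrassCurve.Δ, b₂, b₄, b₆, b₈]
    norm_num

/-- The family `two_six`. -/
def modelTwoSix : WeierstrassCurve k[X] :=
  ⟨X^2 + 2 * X - 19, 2 * X^3 - 14 * X^2 + 22 * X - 10, 2 * X^5 - 14 * X^4 + 4 * X^3 + 116 * X^2 - 198 * X + 90, 0, 0⟩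

theorem good_two_six [CharZero k] : Good (modelTwoSix k) 2 := by
  refine good_of_top (V := ⟨1, 0, 0, 0, 0⟩) ?_ ?_ ?_ ?_ ?_ ?_ (fun t h4 hD => ?_)
    ⟨1, ?_⟩ ⟨2, ?_⟩
  iterate 5
    · refine ⟨?_, ?_⟩ <;> simp only [modelTwoSix]
      · refine le_trans (b := _) (by compute_degree!) (by norm_num)
      · simp [coeff_one, coeff_X]
  · simp [WeierstrassCurve.c₄, b₂, b₄] <;> norm_num
  · refine coprime_two_six (t := t) ?_ ?_
    · simp [modelTwoSix, WeierstrassCurve.map, WeierstrassCurve.c₄, b₂, b₄] at h4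
      linear_combination h4
    · simp [modelTwoSix, WeierstrassCurve.map, WeierstrassCurve.Δ, b₂, b₄, b₆, b₈] at hD
      linear_combination hD / 64
  · simp [modelTwoSix, WeierstrassCurve.map, WeierstrassCurve.Δ, b₂, b₄, b₆, b₈] <;> norm_num
  · simp [modelTwoSix, WeierstrassCurve.map, WeierstrassCurve.Δ, b₂, b₄, b₆, b₈]
    norm_num

/-- The family `two_eight`. -/
def modelTwoEight : WeierstrassCurve k[X] :=
  ⟨64 * X^4 - 24 * X^2 - 8 * X - 1, -1024 * X^7 - 1536 * X^6 - 960 * X^5 - 320 * X^4 - 56 * X^3 - 4 * X^2, -65536 * X^11 - 114688 * X^10 - 77824 * X^9 - 21504 * X^8 + 2048 * X^7 + 3328 * X^6 + 1024 * X^5 + 144 * X^4 + 8 * X^3, 0, 0⟩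

theorem good_two_eight [CharZero k] : Good (modelTwoEight k) 4 := by
  refine good_of_top (V := ⟨64, 0, 0, 0, 0⟩) ?_ ?_ ?_ ?_ ?_ ?_ (fun t h4 hD => ?_)
    ⟨0, ?_⟩ ⟨2, ?_⟩
  iterate 5
    · refine ⟨?_, ?_⟩ <;> simp only [modelTwoEight]
      · refine le_trans (b := _) (by compute_degree!) (by norm_num)
      · simp [coeff_one, coeff_X]
  · simp [WeierstrassCurve.c₄, b₂, b₄] <;> norm_num
  · refine coprime_two_eight (t := t) ?_ ?_
    · simp [modelTwoEight, WeierstrassCurve.map, WeierstrassCurve.c₄, b₂, b₄] at h4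
      linear_combination h4
    · simp [modelTwoEight, WeierstrassCurve.map, WeierstrassCurve.Δ, b₂, b₄, b₆, b₈] at hD
      linear_combination hD / 256
  · simp [modelTwoEight, WeierstrassCurve.map, WeierstrassCurve.Δ, b₂, b₄, b₆, b₈] <;> norm_num
  · simp [modelTwoEight, WeierstrassCurve.map, WeierstrassCurve.Δ, b₂, b₄, b₆, b₈]
    norm_num

/-- The family `three_six`. -/
def modelThreeSix : WeierstrassCurve k[X] :=
  ⟨-X^3 + 10, -X^6 - 7 * X^3 + 8, -9 * X^6 - 63 * X^3 + 72, 0, 0⟩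

theorem good_three_six [CharZero k] : Good (modelThreeSix k) 3 := by
  refine good_of_top (V := ⟨-1, -1, 0, 0, 0⟩) ?_ ?_ ?_ ?_ ?_ ?_ (fun t h4 hD => ?_)
    ⟨1, ?_⟩ ⟨2, ?_⟩
  iterate 5
    · refine ⟨?_, ?_⟩ <;> simp only [modelThreeSix]
      · refine le_trans (b := _) (by compute_degree!) (by norm_num)
      · simp [coeff_one, coeff_X]
  · simp [WeierstrassCurve.c₄, b₂, b₄] <;> norm_num
  · refine coprime_three_six (t := t) ?_ ?_
    · simp [modelThreeSix, WeierstrassCurve.map, WeierstrassCurve.c₄, b₂, b₄] at h4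
      linear_combination h4
    · simp [modelThreeSix, WeierstrassCurve.map, WeierstrassCurve.Δ, b₂, b₄, b₆, b₈] at hD
      linear_combination hD / 729
  · simp [modelThreeSix, WeierstrassCurve.map, WeierstrassCurve.Δ, b₂, b₄, b₆, b₈] <;> norm_num
  · simp [modelThreeSix, WeierstrassCurve.map, WeierstrassCurve.Δ, b₂, b₄, b₆, b₈]
    norm_num

/-- The family `five_five`. -/
def modelFiveFive : WeierstrassCurve k[X] :=
  ⟨5 * X^5 - 10 * X^4 + 30 * X^3 + 10 * X^2 + 20 * X + 5, 25 * X^9 - 25 * X^8 + 50 * X^7 - 75 * X^6 + 125 * X^5 + 75 * X^4 + 50 * X^3 + 25 * X^2 + 25 * X, 125 * X^13 + 125 * X^12 + 500 * X^11 + 625 * X^9 + 750 * X^8 + 2625 * X^7 + 3625 * X^6 + 3125 * X^5 + 1875 * X^4 + 1125 * X^3 + 500 * X^2 + 125 * X, 0, 0⟩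

theorem good_five_five [CharZero k] : Good (modelFiveFive k) 5 := by
  refine good_of_top (V := ⟨5, 0, 0, 0, 0⟩) ?_ ?_ ?_ ?_ ?_ ?_ (fun t h4 hD => ?_)
    ⟨0, ?_⟩ ⟨2, ?_⟩
  iterate 5
    · refine ⟨?_, ?_⟩ <;> simp only [modelFiveFive]
      · refine le_trans (b := _) (by compute_degree!) (by norm_num)
      · simp [coeff_one, coeff_X]
  · simp [WeierstrassCurve.c₄, b₂, b₄] <;> norm_num
  · refine coprime_five_five (t := t) ?_ ?_
    · simp [modelFiveFive, WeierstrassCurve.map, WeierstrassCurve.c₄, b₂, b₄] at h4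
      linear_combination h4
    · simp [modelFiveFive, WeierstrassCurve.map, WeierstrassCurve.Δ, b₂, b₄, b₆, b₈] at hD
      linear_combination hD / -244140625
  · simp [modelFiveFive, WeierstrassCurve.map, WeierstrassCurve.Δ, b₂, b₄, b₆, b₈] <;> norm_num
  · simp [modelFiveFive, WeierstrassCurve.map, WeierstrassCurve.Δ, b₂, b₄, b₆, b₈]
    norm_num

end FA.CoxParry.Realise
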