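import Fermat.Agent.CoxParry.Realise.Orders
import Fermat.Agent.CoxParry.Realise.Models

/-!
# Kubert's families at their levels

`ℤ/5`, `ℤ/6` at levels one and two, `ℤ/7`, `ℤ/8`, `ℤ/2 × ℤ/6` at two, `ℤ/9`, `ℤ/10` at three,
`ℤ/12`, `ℤ/2 × ℤ/8` at four: no larger group is possible there.
-/

set_option autoImplicit false
set_option linter.unusedSimpArgs false
set_option linter.unusedSectionVars false
set_option linter.style.haveILetI false

noncomputable section

open Polynomial WeierstrassCurve FA.SzpiroLine FA.LevinTorsion FA.NeronSpecialisation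
open FA.Thirteen (tateCurve)
open scoped Classical

namespace FA.CoxParry.Realise

variable {k : Type*} [Field k]

local notation "ι" => algebraMap k[X] (RatFunc k)

/-- A nonzero element of `k(T)`. -/
theorem ne_of_eval {x : RatFunc k} (q : k[X]) (a : k) (h : q.eval a ≠ 0) (hx : ι q = x) : x ≠ 0 :=
  hx ▸ RatFunc.algebraMap_ne_zero fun e => h (by rw [e, eval_zero])

/-- Clearing the denominators of Tate's normal form. -/
theorem scale_model {b c D : RatFunc k} {W : WeierstrassCurve k[X]} (hD : D ≠ 0)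
    (h1 : ι W.a₁ = (1 - c) * D) (h2 : ι W.a₂ = -b * D ^ 2) (h3 : ι W.a₃ = -b * D ^ 3)
    (h4 : W.a₄ = 0) (h6 : W.a₆ = 0) :
    (⟨Units.mk0 D⁻¹ (inv_ne_zero hD), 0, 0, 0⟩ : VariableChange (RatFunc k)) • tateCurve b c =
      genW W := by
  ext <;> simp only [variableChange_a₁, variableChange_a₂, variableChange_a₃, variableChange_a₄,
    variableChange_a₆, Units.val_inv_eq_inv_val, Units.val_mk0, inv_inv, tateCurve, genW,
    WeierstrassCurve.map, h1, h2, h3, h4, h6, map_zero] <;> ring

variable [CharZero k] [IsAlgClosed k]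

theorem occurs_one_five_one : Occurs k 1 5 1 := by
  set t : RatFunc k := RatFunc.X with ht
  have hC := scale_model (b := t) (c := t) (D := 1) (W := modelFiveOne k) one_ne_zero
    (by simp [modelFiveOne, ht, RatFunc.algebraMap_X, map_ofNat]; ring)
    (by simp [modelFiveOne, ht, RatFunc.algebraMap_X, map_ofNat])
    (by simp [modelFiveOne, ht, RatFunc.algebraMap_X, map_ofNat]) rfl rfl
  haveI := isElliptic_of_model hC (good_five_one k).nz
  obtain ⟨φ, hφ⟩ := exists_hom_cyclic (order_five (h0 := tate_origin t t) rfl) (by norm_num)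
  exact occurs_of_level (good_five_one k) hC (one_dvd _) (by norm_num) hφ [] (by simp)
    (by decide +kernel)

theorem occurs_one_five_two : Occurs k 1 5 2 := by
  set t : RatFunc k := RatFunc.X with ht
  have hC := scale_model (b := t ^ 2) (c := t ^ 2) (D := 1) (W := modelFiveTwo k) one_ne_zero
    (by simp [modelFiveTwo, ht, RatFunc.algebraMap_X, map_ofNat]; ring)
    (by simp [modelFiveTwo, ht, RatFunc.algebraMap_X, map_ofNat])
    (by simp [modelFiveTwo, ht, RatFunc.algebraMap_X, map_ofNat]) rfl rfl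
  haveI := isElliptic_of_model hC (good_five_two k).nz
  obtain ⟨φ, hφ⟩ := exists_hom_cyclic (order_five (h0 := tate_origin (t ^ 2) (t ^ 2)) rfl)
    (by norm_num)
  exact occurs_of_level (good_five_two k) hC (one_dvd _) (by norm_num) hφ [] (by simp)
    (by decide +kernel)

theorem occurs_one_six_one : Occurs k 1 6 1 := by
  set t : RatFunc k := RatFunc.X with ht
  have hC := scale_model (b := t + t ^ 2) (c := t) (D := 1) (W := modelSixOne k) one_ne_zero
    (by simp [modelSixOne, ht, RatFunc.algebraMap_X, map_ofNat]; ring)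
    (by simp [modelSixOne, ht, RatFunc.algebraMap_X, map_ofNat]; ring)
    (by simp [modelSixOne, ht, RatFunc.algebraMap_X, map_ofNat]; ring) rfl rfl
  haveI := isElliptic_of_model hC (good_six_one k).nz
  obtain ⟨φ, hφ⟩ := exists_hom_cyclic (order_six (h0 := tate_origin (t + t ^ 2) t) rfl)
    (by norm_num)
  exact occurs_of_level (good_six_one k) hC (one_dvd _) (by norm_num) hφ [] (by simp)
    (by decide +kernel)

theorem occurs_one_six_two : Occurs k 1 6 2 := by
  set t : RatFunc k := RatFunc.X with ht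
  have hC := scale_model (b := t ^ 2 + (t ^ 2) ^ 2) (c := t ^ 2) (D := 1) (W := modelSixTwo k)
    one_ne_zero
    (by simp [modelSixTwo, ht, RatFunc.algebraMap_X, map_ofNat]; ring)
    (by simp [modelSixTwo, ht, RatFunc.algebraMap_X, map_ofNat]; ring)
    (by simp [modelSixTwo, ht, RatFunc.algebraMap_X, map_ofNat]; ring) rfl rfl
  haveI := isElliptic_of_model hC (good_six_two k).nz
  obtain ⟨φ, hφ⟩ := exists_hom_cyclic
    (order_six (h0 := tate_origin (t ^ 2 + (t ^ 2) ^ 2) (t ^ 2)) rfl) (by norm_num)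
  refine occurs_of_level (good_six_two k) hC (one_dvd _) (by norm_num) hφ [(2, 2)] ?_
    (by decide +kernel)
  intro q hq
  obtain rfl : q = (2, 2) := List.mem_singleton.mp hq
  refine no_two_two fun ⟨r, hr⟩ => ?_
  obtain ⟨i, hi⟩ := IsAlgClosed.exists_pow_nat_eq (-1 : k) two_pos
  have hi0 : i ≠ 0 := fun e => by rw [e] at hi; norm_num at hi
  have h1 : t ^ 2 + 1 ≠ 0 := ne_of_eval (X ^ 2 + 1) 1 (by norm_num)
    (by simp [ht, RatFunc.algebraMap_X, map_ofNat])
  have h0 : t ≠ 0 := RatFunc.X_ne_zero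
  refine not_isSquare_of_simple_root (q := (X ^ 2 + 1) * (C 9 * X ^ 2 + 1)) (t := i)
    (by simp [hi]) ?_ ⟨r / ((t ^ 2) ^ 3 * (t ^ 2 + 1)), ?_⟩
  · simp [hi, derivative_mul, hi0]; norm_num
  · have hd : (t ^ 2) ^ 3 * (t ^ 2 + 1) ≠ 0 := mul_ne_zero (pow_ne_zero _ (pow_ne_zero _ h0)) h1
    rw [FA.Thirteen.Δ_tateCurve] at hr
    simp [ht, RatFunc.algebraMap_X, map_ofNat]
    rw [ht] at hr h1 h0
    field_simp
    linear_combination hr

theorem occurs_one_seven : Occurs k 1 7 2 := by
  set t : RatFunc k := RatFunc.X with ht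
  have hC := scale_model (b := t * (t - 1) * t) (c := t * (t - 1)) (D := 1) (W := modelSeven k)
    one_ne_zero
    (by simp [modelSeven, ht, RatFunc.algebraMap_X, map_ofNat]; ring)
    (by simp [modelSeven, ht, RatFunc.algebraMap_X, map_ofNat]; ring)
    (by simp [modelSeven, ht, RatFunc.algebraMap_X, map_ofNat]; ring) rfl rfl
  haveI := isElliptic_of_model hC (good_seven k).nz
  have h0 : t ≠ 0 := RatFunc.X_ne_zero
  have h1 : t - 1 ≠ 0 := ne_of_eval (X - 1) 0 (by norm_num) (by simp [ht, RatFunc.algebraMap_X, map_ofNat])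
  obtain ⟨φ, hφ⟩ := exists_hom_cyclic
    (order_seven (h0 := tate_origin (t * (t - 1) * t) (t * (t - 1))) rfl rfl (mul_ne_zero h0 h1))
    (by norm_num)
  exact occurs_of_level (good_seven k) hC (one_dvd _) (by norm_num) hφ [] (by simp)
    (by decide +kernel)

theorem occurs_one_eight : Occurs k 1 8 2 := by
  set t : RatFunc k := RatFunc.X with ht
  have h0 : t ≠ 0 := RatFunc.X_ne_zero
  have h1 : t - 1 ≠ 0 := ne_of_eval (X - 1) 0 (by norm_num) (by simp [ht, RatFunc.algebraMap_X, map_ofNat])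
  have h2 : 2 * t - 1 ≠ 0 :=
    ne_of_eval (2 * X - 1) 0 (by norm_num) (by simp [ht, RatFunc.algebraMap_X, map_ofNat])
  set b := (2 * t - 1) * (t - 1) with hb
  set c := b / t with hc
  have hC := scale_model (b := b) (c := c) (D := t) (W := modelEight k) h0
    (by rw [hc, hb]; field_simp; simp [modelEight, ht, RatFunc.algebraMap_X, map_ofNat]; ring)
    (by simp [modelEight, hb, ht, RatFunc.algebraMap_X, map_ofNat]; ring)
    (by simp [modelEight, hb, ht, RatFunc.algebraMap_X, map_ofNat]; ring) rfl rfl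
  haveI := isElliptic_of_model hC (good_eight k).nz
  obtain ⟨φ, hφ⟩ := exists_hom_cyclic
    (order_eight (h0 := tate_origin b c) (d := t) (div_mul_cancel₀ b h0).symm hb
      (div_ne_zero (mul_ne_zero h2 h1) h0)) (by norm_num)
  exact occurs_of_level (good_eight k) hC (one_dvd _) (by norm_num) hφ [] (by simp)
    (by decide +kernel)

theorem occurs_one_nine : Occurs k 1 9 3 := by
  set t : RatFunc k := RatFunc.X with ht
  have h0 : t ≠ 0 := RatFunc.X_ne_zero
  have h1 : t - 1 ≠ 0 := ne_of_eval (X - 1) 0 (by norm_num) (by simp [ht, RatFunc.algebraMap_X, map_ofNat])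
  set d := t * (t - 1) + 1 with hd
  set c := t * (d - 1) with hc
  set b := c * d with hb
  have hC := scale_model (b := b) (c := c) (D := 1) (W := modelNine k) one_ne_zero
    (by simp [modelNine, hc, hd, ht, RatFunc.algebraMap_X, map_ofNat]; ring)
    (by simp [modelNine, hb, hc, hd, ht, RatFunc.algebraMap_X, map_ofNat]; ring)
    (by simp [modelNine, hb, hc, hd, ht, RatFunc.algebraMap_X, map_ofNat]; ring) rfl rfl
  haveI := isElliptic_of_model hC (good_nine k).nz
  have hd1 : d - 1 ≠ 0 := by rw [hd, add_sub_cancel_right]; exact mul_ne_zero h0 h1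
  obtain ⟨φ, hφ⟩ := exists_hom_cyclic
    (order_nine (h0 := tate_origin b c) hb hc hd (mul_ne_zero h0 hd1) hd1) (by norm_num)
  exact occurs_of_level (good_nine k) hC (one_dvd _) (by norm_num) hφ [] (by simp)
    (by decide +kernel)

theorem occurs_one_ten : Occurs k 1 10 3 := by
  set t : RatFunc k := RatFunc.X with ht
  have h0 : t ≠ 0 := RatFunc.X_ne_zero
  set g := t - (t - 1) ^ 2 with hg
  have hg0 : g ≠ 0 := ne_of_eval (X - (X - 1) ^ 2) 0 (by norm_num)
    (by simp [hg, ht, RatFunc.algebraMap_X, map_ofNat])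
  have hh : (t - 1) * (2 * t - 1) ≠ 0 := ne_of_eval ((X - 1) * (2 * X - 1)) 0 (by norm_num)
    (by simp [ht, RatFunc.algebraMap_X, map_ofNat])
  set d := t ^ 2 / g with hd
  set c := t * (d - 1) with hc
  set b := c * d with hb
  have hd1 : d - 1 = (t - 1) * (2 * t - 1) / g := by
    rw [hd, div_sub_one hg0]; congr 1; rw [hg]; ring
  have hC := scale_model (b := b) (c := c) (D := g) (W := modelTen k) hg0
    (by rw [hc, hd1]; simp [modelTen, hg, ht, RatFunc.algebraMap_X, map_ofNat]
        rw [hg, ht] at hg0; field_simp; ring)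
    (by rw [hb, hc, hd1, hd]; simp [modelTen, hg, ht, RatFunc.algebraMap_X, map_ofNat]
        rw [hg, ht] at hg0; field_simp; ring)
    (by rw [hb, hc, hd1, hd]; simp [modelTen, hg, ht, RatFunc.algebraMap_X, map_ofNat]
        rw [hg, ht] at hg0; field_simp; ring) rfl rfl
  haveI := isElliptic_of_model hC (good_ten k).nz
  have hd10 : d - 1 ≠ 0 := hd1 ▸ div_ne_zero hh hg0
  obtain ⟨φ, hφ⟩ := exists_hom_cyclic
    (order_ten (h0 := tate_origin b c) hb hc (by rw [hd, ← hg, div_mul_cancel₀ _ hg0])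
      (mul_ne_zero h0 hd10) hd10) (by norm_num)
  exact occurs_of_level (good_ten k) hC (one_dvd _) (by norm_num) hφ [] (by simp)
    (by decide +kernel)

theorem occurs_one_twelve : Occurs k 1 12 4 := by
  set t : RatFunc k := RatFunc.X with ht
  have hu : t - 1 ≠ 0 := ne_of_eval (X - 1) 0 (by norm_num) (by simp [ht, RatFunc.algebraMap_X, map_ofNat])
  have hq : 3 * t ^ 2 - 3 * t + 1 ≠ 0 := ne_of_eval (3 * X ^ 2 - 3 * X + 1) 0 (by norm_num)
    (by simp [ht, RatFunc.algebraMap_X, map_ofNat])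
  have hs : t * (2 * t - 1) ≠ 0 := ne_of_eval (X * (2 * X - 1)) 1 (by norm_num)
    (by simp [ht, RatFunc.algebraMap_X, map_ofNat])
  set f := (3 * t ^ 2 - 3 * t + 1) / (t - 1) ^ 2 with hf
  set d := (-2 * t ^ 2 + 2 * t - 1) / (t - 1) with hd
  set c := f * (d - 1) with hc
  set b := c * d with hb
  have hd1 : d - 1 = -(t * (2 * t - 1)) / (t - 1) := by
    rw [hd, div_sub_one hu]; congr 1; ring
  have hf1 : f - 1 = t * (2 * t - 1) / (t - 1) ^ 2 := by
    rw [hf, div_sub_one (pow_ne_zero _ hu)]; congr 1; ring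
  have hC := scale_model (b := b) (c := c) (D := (t - 1) ^ 3) (W := modelTwelve k)
    (pow_ne_zero _ hu)
    (by rw [hc, hd1, hf]; simp [modelTwelve, ht, RatFunc.algebraMap_X, map_ofNat]
        rw [ht] at hu; field_simp; ring)
    (by rw [hb, hc, hd1, hd, hf]; simp [modelTwelve, ht, RatFunc.algebraMap_X, map_ofNat]
        rw [ht] at hu; field_simp; ring)
    (by rw [hb, hc, hd1, hd, hf]; simp [modelTwelve, ht, RatFunc.algebraMap_X, map_ofNat]
        rw [ht] at hu; field_simp; ring) rfl rfl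
  haveI := isElliptic_of_model hC (good_twelve k).nz
  have hd10 : d - 1 ≠ 0 := hd1 ▸ div_ne_zero (neg_ne_zero.mpr hs) hu
  have hf0 : f ≠ 0 := div_ne_zero hq (pow_ne_zero _ hu)
  have hf10 : f - 1 ≠ 0 := hf1 ▸ div_ne_zero hs (pow_ne_zero _ hu)
  obtain ⟨φ, hφ⟩ := exists_hom_cyclic
    (order_twelve (h0 := tate_origin b c) (τ := t) hb hc
      (by rw [hd, hf]; field_simp; ring) (mul_ne_zero hf0 hd10) hd10 hf10 hf0
      (fun x y hx hy => by
        subst hy hx
        rw [hb, hc, hd, hf]
        field_simp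
        ring)) (by norm_num)
  exact occurs_of_level (good_twelve k) hC (one_dvd _) (by norm_num) hφ [] (by simp)
    (by decide +kernel)

theorem occurs_two_six : Occurs k 2 6 2 := by
  set t : RatFunc k := RatFunc.X with ht
  have h3 : t + 3 ≠ 0 := ne_of_eval (X + 3) 0 (by norm_num) (by simp [ht, RatFunc.algebraMap_X, map_ofNat])
  have hg0 : t ^ 2 - 9 ≠ 0 :=
    ne_of_eval (X ^ 2 - 9) 0 (by norm_num) (by simp [ht, RatFunc.algebraMap_X, map_ofNat])
  set c := (10 - 2 * t) / (t ^ 2 - 9) with hc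
  set b := c + c ^ 2 with hb
  have hC := scale_model (b := b) (c := c) (D := t ^ 2 - 9) (W := modelTwoSix k) hg0
    (by simp [modelTwoSix, hc, ht, RatFunc.algebraMap_X, map_ofNat]; rw [ht] at hg0; field_simp; ring)
    (by simp [modelTwoSix, hb, hc, ht, RatFunc.algebraMap_X, map_ofNat]; rw [ht] at hg0; field_simp; ring)
    (by simp [modelTwoSix, hb, hc, ht, RatFunc.algebraMap_X, map_ofNat]; rw [ht] at hg0; field_simp; ring)
    rfl rfl
  haveI := isElliptic_of_model hC (good_two_six k).nz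
  set h0 := tate_origin b c
  obtain ⟨h3', e3⟩ := FA.Torsion.tate_three (h0 := h0)
  set x := -2 * (1 + c) / (t + 3) with hx
  set y := -((1 - c) * x - b) / 2 with hy
  have hT : (tateCurve b c).toAffine.Nonsingular x y := equation_of (by
    simp only [tateCurve, hy, hx, hb, hc]; field_simp; ring)
  obtain ⟨φ, hφ⟩ := exists_hom_prime Nat.prime_two (T := Affine.Point.some x y hT) (b := 3)
    (two_nsmul_eq_zero (by simp only [tateCurve, hy]; ring)) (order_six (h0 := h0) hb)
    (by norm_num) (fun i hi => by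
      interval_cases i
      · rw [zero_nsmul]; exact Affine.Point.some_ne_zero hT
      rw [one_nsmul, e3, Ne, Affine.Point.some.injEq]
      rintro ⟨h, -⟩
      refine (by norm_num : (32 : RatFunc k) ≠ 0) ?_
      rw [hx, div_eq_iff h3, hc] at h
      field_simp at h
      linear_combination (-1) * h)
  exact occurs_of_level (good_two_six k) hC (by norm_num) (by norm_num) hφ [] (by simp)
    (by decide +kernel)

theorem occurs_two_eight : Occurs k 2 8 4 := by
  set t : RatFunc k := RatFunc.X with ht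
  have h0' : t ≠ 0 := RatFunc.X_ne_zero
  have he : 4 * t + 1 ≠ 0 :=
    ne_of_eval (4 * X + 1) 0 (by norm_num) (by simp [ht, RatFunc.algebraMap_X, map_ofNat])
  have hg : 8 * t ^ 2 - 1 ≠ 0 :=
    ne_of_eval (8 * X ^ 2 - 1) 0 (by norm_num) (by simp [ht, RatFunc.algebraMap_X, map_ofNat])
  have hqr : (8 * t ^ 2 + 4 * t + 1) * (2 * t + 1) ≠ 0 :=
    ne_of_eval ((8 * X ^ 2 + 4 * X + 1) * (2 * X + 1)) 0 (by norm_num)
      (by simp [ht, RatFunc.algebraMap_X, map_ofNat])
  have hD : 2 * t * (4 * t + 1) * (8 * t ^ 2 - 1) ≠ 0 :=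
    mul_ne_zero (mul_ne_zero (mul_ne_zero two_ne_zero h0') he) hg
  have he' : t * 4 + 1 ≠ 0 := by rwa [mul_comm]
  have hg' : t ^ 2 * 8 - 1 ≠ 0 := by rwa [mul_comm]
  set d := 2 * t * (4 * t + 1) / (8 * t ^ 2 - 1) with hd
  set b := (8 * t ^ 2 + 4 * t + 1) * (2 * t + 1) / (8 * t ^ 2 - 1) ^ 2 with hb
  set c := b / d with hc
  have hd0 : d ≠ 0 := div_ne_zero (mul_ne_zero (mul_ne_zero two_ne_zero h0') he) hg
  have hC := scale_model (b := b) (c := c) (D := 2 * t * (4 * t + 1) * (8 * t ^ 2 - 1))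
    (W := modelTwoEight k) hD
    (by rw [hc, hb, hd]; field_simp; simp [modelTwoEight, ht, RatFunc.algebraMap_X, map_ofNat]; ring)
    (by rw [hb]; field_simp; simp [modelTwoEight, ht, RatFunc.algebraMap_X, map_ofNat]; ring)
    (by rw [hb]; field_simp; simp [modelTwoEight, ht, RatFunc.algebraMap_X, map_ofNat]; ring) rfl rfl
  haveI := isElliptic_of_model hC (good_two_eight k).nz
  set h0 := tate_origin b c
  have hc0 : c ≠ 0 := div_ne_zero (div_ne_zero hqr (pow_ne_zero _ hg)) hd0
  obtain ⟨h4, e4⟩ := FA.Torsion.tate_four (h0 := h0) hc0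
  set x := (4 * t + 1) * (8 * t ^ 2 + 4 * t + 1) / (16 * t ^ 2 * (8 * t ^ 2 - 1)) with hx
  set y := -((1 - c) * x - b) / 2 with hy
  have hT : (tateCurve b c).toAffine.Nonsingular x y := equation_of (by
    simp only [tateCurve, hy, hx, hc, hb, hd]; field_simp; ring)
  have hbd : b = (2 * d - 1) * (d - 1) := by rw [hb, hd]; field_simp; ring
  obtain ⟨φ, hφ⟩ := exists_hom_prime Nat.prime_two (T := Affine.Point.some x y hT) (b := 4)
    (two_nsmul_eq_zero (by simp only [tateCurve, hy]; ring))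
    (order_eight (h0 := h0) (div_mul_cancel₀ b hd0).symm hbd hc0) (by norm_num) (fun i hi => by
      interval_cases i
      · rw [zero_nsmul]; exact Affine.Point.some_ne_zero hT
      rw [one_nsmul, e4, Ne, Affine.Point.some.injEq]
      rintro ⟨h, -⟩
      rw [show b / c = d by rw [div_eq_iff hc0, mul_comm d c, hc, div_mul_cancel₀ _ hd0],
        hx, hd] at h
      field_simp at h
      exact he (by linear_combination -h))
  exact occurs_of_level (good_two_eight k) hC (by norm_num) (by norm_num) hφ [] (by simp)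
    (by decide +kernel)

end FA.CoxParry.Realise
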