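import Fermat.Agent.CoxParry.Realise.Tools

/-!
# The second point of Klein's level five family

On Tate's normal form of the Rogers–Ramanujan parameter a point `R z` depends on a primitive fifth
root of unity `z`, with `2 R z = R (z²)` and `R (z⁴) = - R z`, so it has order five.
-/

set_option autoImplicit false
set_option linter.unusedSimpArgs false
set_option linter.style.longLine false

noncomputable section

open WeierstrassCurve
open scoped Classical

namespace FA.CoxParry.Realise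

section Defs

variable {K : Type*} [CommRing K]

/-- The numerator of the parameter. -/
def fiveNum (t : K) : K := -t^5 + 3 * t^4 - 4 * t^3 + 2 * t^2 - t

/-- The denominator of the parameter. -/
def fiveDen (t : K) : K := t^4 + 2 * t^3 + 4 * t^2 + 3 * t + 1

/-- The curve. -/
def fiveW (t : K) : WeierstrassCurve K :=
  ⟨5 * (fiveDen t - fiveNum t), -25 * (fiveNum t * fiveDen t), -125 * (fiveNum t * fiveDen t ^ 2),
    0, 0⟩

/-- The abscissa. -/
def fiveX (z t : K) : K := (5 * z^3 + 5 * z^2 - 10)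
      + (-25) * t
      + (-50) * t ^ 2
      + (-75) * t ^ 3
      + (-125) * t ^ 4
      + (-55 * z^3 - 55 * z^2 - 90) * t ^ 5
      + (-50) * t ^ 6
      + (25) * t ^ 7
      + (-25) * t ^ 8
      + (-5 * z^3 - 5 * z^2 - 15) * t ^ 10

/-- The ordinate. -/
def fiveY (z t : K) : K := (25 * z^2 + 50 * z + 50)
      + (-50 * z^3 - 50 * z^2 + 100) * t
      + (-25 * z^3 - 25 * z^2 + 175) * t ^ 2
      + (-75 * z^3 - 75 * z^2 + 400) * t ^ 3
      + (25 * z^3 + 25 * z^2 + 700) * t ^ 4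
      + (-50 * z^3 - 275 * z^2 - 575 * z + 650) * t ^ 5
      + (550 * z^3 + 550 * z^2 + 775) * t ^ 6
      + (275 * z^3 + 275 * z^2 + 1200) * t ^ 7
      + (825 * z^3 + 825 * z^2 + 600) * t ^ 8
      + (-275 * z^3 - 275 * z^2 + 425) * t ^ 9
      + (550 * z^3 - 25 * z^2 + 225 * z - 125) * t ^ 10
      + (50 * z^3 + 50 * z^2 + 525) * t ^ 11
      + (25 * z^3 + 25 * z^2 - 175) * t ^ 12
      + (75 * z^3 + 75 * z^2 + 225) * t ^ 13
      + (-25 * z^3 - 25 * z^2 - 75) * t ^ 14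
      + (50 * z^3 + 25 * z + 50) * t ^ 15

/-- The slope of the tangent. -/
def fiveL (z t : K) : K := (-4 * z^3 - 3 * z^2 - 7 * z - 6)
      + (-10) * t
      + (-5) * t ^ 2
      + (-15) * t ^ 3
      + (5) * t ^ 4
      + (-3 * z^3 + 4 * z^2 + z - 2) * t ^ 5

variable {z : K} (hz : z ^ 4 + z ^ 3 + z ^ 2 + z + 1 = 0) (t : K)
include hz

theorem five_equation :
    fiveY z t ^ 2 + (fiveW t).a₁ * fiveX z t * fiveY z t + (fiveW t).a₃ * fiveY z t =
      fiveX z t ^ 3 + (fiveW t).a₂ * fiveX z t ^ 2 + (fiveW t).a₄ * fiveX z t + (fiveW t).a₆ := by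
  simp only [fiveW, fiveX, fiveY, fiveL, fiveNum, fiveDen, Affine.addX, Affine.addY, Affine.negAddY, Affine.negY]
  linear_combination (
      (-125 * z^5 - 250 * z^4 + 1000 * z^2 + 1500 * z + 1000)
      + (4125 * z^5 + 8250 * z^4 - 23625 * z^2 - 33875 * z - 23625) * t ^ 5
      + (-45000 * z^5 - 90000 * z^4 + 156875 * z^2 + 196250 * z + 156875) * t ^ 10
      + (158125 * z^5 + 316250 * z^4 - 218125 * z^2 - 38125 * z - 218125) * t ^ 15
      + (45000 * z^5 + 90000 * z^4 + 218125 * z^2 - 196250 * z + 218125) * t ^ 20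
      + (4125 * z^5 + 8250 * z^4 + 45125 * z^2 - 33875 * z + 45125) * t ^ 25
      + (125 * z^5 + 250 * z^4 + 2125 * z^2 - 1500 * z + 2125) * t ^ 30) * hz

theorem five_slope :
    fiveL z t * (2 * fiveY z t + (fiveW t).a₁ * fiveX z t + (fiveW t).a₃) =
      3 * fiveX z t ^ 2 + 2 * (fiveW t).a₂ * fiveX z t + (fiveW t).a₄ - (fiveW t).a₁ * fiveY z t := by
  simp only [fiveW, fiveX, fiveY, fiveL, fiveNum, fiveDen, Affine.addX, Affine.addY, Affine.negAddY, Affine.negY]
  linear_combination (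
      (-175 * z^2 - 350 * z - 350)
      + (2975 * z^2 + 4450 * z + 3700) * t ^ 5
      + (-11075 * z^2 - 6775 * z + 2475) * t ^ 10
      + (-4350 * z^2 + 5175 * z - 5075) * t ^ 15
      + (-300 * z^2 + 525 * z - 475) * t ^ 20) * hz

theorem five_addX :
    (fiveW t).toAffine.addX (fiveX z t) (fiveX z t) (fiveL z t) = fiveX (z ^ 2) t := by
  simp only [fiveW, fiveX, fiveY, fiveL, fiveNum, fiveDen, Affine.addX, Affine.addY, Affine.negAddY, Affine.negY]
  linear_combination (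
      (11 * z^2 + 13 * z + 36)
      + (79 * z^2 - 93 * z + 79) * t ^ 5
      + (14 * z^2 - 38 * z + 39) * t ^ 10) * hz

theorem five_addY :
    (fiveW t).toAffine.addY (fiveX z t) (fiveX z t) (fiveY z t) (fiveL z t) = fiveY (z ^ 2) t := by
  simp only [fiveW, fiveX, fiveY, fiveL, fiveNum, fiveDen, Affine.addX, Affine.addY, Affine.negAddY, Affine.negY]
  linear_combination (
      (64 * z^5 + 80 * z^4 + 300 * z^3 + 155 * z^2 + 265 * z - 14)
      + (-110 * z^2 - 130 * z - 360) * t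
      + (-55 * z^2 - 65 * z - 180) * t ^ 2
      + (-165 * z^2 - 195 * z - 540) * t ^ 3
      + (55 * z^2 + 65 * z + 180) * t ^ 4
      + (144 * z^5 - 120 * z^4 + 225 * z^3 + 70 * z^2 + 385 * z + 546) * t ^ 5
      + (-790 * z^2 + 930 * z - 790) * t ^ 6
      + (-395 * z^2 + 465 * z - 395) * t ^ 7
      + (-1185 * z^2 + 1395 * z - 1185) * t ^ 8
      + (395 * z^2 - 465 * z + 395) * t ^ 9
      + (108 * z^5 - 315 * z^4 + 300 * z^3 - 430 * z^2 + 435 * z - 423) * t ^ 10
      + (-140 * z^2 + 380 * z - 390) * t ^ 11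
      + (-70 * z^2 + 190 * z - 195) * t ^ 12
      + (-210 * z^2 + 570 * z - 585) * t ^ 13
      + (70 * z^2 - 190 * z + 195) * t ^ 14
      + (27 * z^5 - 135 * z^4 + 225 * z^3 - 150 * z^2 + 75 * z - 142) * t ^ 15) * hz

theorem five_negX :
    fiveX (z ^ 4) t = fiveX z t := by
  simp only [fiveW, fiveX, fiveY, fiveL, fiveNum, fiveDen, Affine.addX, Affine.addY, Affine.negAddY, Affine.negY]
  linear_combination (
      (5 * z^8 - 5 * z^7 + 5 * z^4 - 5 * z^2)
      + (-55 * z^8 + 55 * z^7 - 55 * z^4 + 55 * z^2) * t ^ 5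
      + (-5 * z^8 + 5 * z^7 - 5 * z^4 + 5 * z^2) * t ^ 10) * hz

theorem five_negY :
    fiveY (z ^ 4) t = (fiveW t).toAffine.negY (fiveX z t) (fiveY z t) := by
  simp only [fiveW, fiveX, fiveY, fiveL, fiveNum, fiveDen, Affine.addX, Affine.addY, Affine.negAddY, Affine.negY]
  linear_combination (
      (25 * z^4 - 25 * z^3 + 50)
      + (-50 * z^8 + 50 * z^7 - 50 * z^4 + 50 * z^2) * t
      + (-25 * z^8 + 25 * z^7 - 25 * z^4 + 25 * z^2) * t ^ 2
      + (-75 * z^8 + 75 * z^7 - 75 * z^4 + 75 * z^2) * t ^ 3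
      + (25 * z^8 - 25 * z^7 + 25 * z^4 - 25 * z^2) * t ^ 4
      + (-50 * z^8 + 50 * z^7 - 275 * z^4 + 225 * z^3 + 50 * z^2 - 575) * t ^ 5
      + (550 * z^8 - 550 * z^7 + 550 * z^4 - 550 * z^2) * t ^ 6
      + (275 * z^8 - 275 * z^7 + 275 * z^4 - 275 * z^2) * t ^ 7
      + (825 * z^8 - 825 * z^7 + 825 * z^4 - 825 * z^2) * t ^ 8
      + (-275 * z^8 + 275 * z^7 - 275 * z^4 + 275 * z^2) * t ^ 9
      + (550 * z^8 - 550 * z^7 - 25 * z^4 + 575 * z^3 - 550 * z^2 + 225) * t ^ 10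
      + (50 * z^8 - 50 * z^7 + 50 * z^4 - 50 * z^2) * t ^ 11
      + (25 * z^8 - 25 * z^7 + 25 * z^4 - 25 * z^2) * t ^ 12
      + (75 * z^8 - 75 * z^7 + 75 * z^4 - 75 * z^2) * t ^ 13
      + (-25 * z^8 + 25 * z^7 - 25 * z^4 + 25 * z^2) * t ^ 14
      + (50 * z^8 - 50 * z^7 + 50 * z^3 - 50 * z^2 + 25) * t ^ 15) * hz

end Defs

variable {K : Type*} [Field K] [DecidableEq K]

theorem five_nonsingular {z : K} (hz : z ^ 4 + z ^ 3 + z ^ 2 + z + 1 = 0) (t : K)
    [(fiveW t).IsElliptic] :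
    (fiveW t).toAffine.Nonsingular (fiveX z t) (fiveY z t) :=
  equation_of (five_equation hz t)

/-- `2 R z = R (z ^ 2)`. -/
theorem five_double {z : K} (hz : z ^ 4 + z ^ 3 + z ^ 2 + z + 1 = 0) (t : K)
    [(fiveW t).IsElliptic] {h : (fiveW t).toAffine.Nonsingular (fiveX z t) (fiveY z t)} :
    ∃ h', 2 • Affine.Point.some _ _ h =
      (Affine.Point.some (fiveX (z ^ 2) t) (fiveY (z ^ 2) t) h' : (fiveW t).toAffine.Point) := by
  refine two_nsmul_eq_some (fun hV => ?_) (five_slope hz t) (five_addX hz t) (five_addY hz t)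
  have hs := five_slope hz t
  rw [hV, mul_zero] at hs
  rcases ((Affine.nonsingular_iff' _ _).mp h).2 with hX | hY
  · exact hX (by linear_combination hs)
  · exact hY (by linear_combination hV)

/-- **The point has order five.** -/
theorem five_nsmul {z : K} (hz : z ^ 4 + z ^ 3 + z ^ 2 + z + 1 = 0) (t : K)
    [(fiveW t).IsElliptic] {h : (fiveW t).toAffine.Nonsingular (fiveX z t) (fiveY z t)} :
    5 • Affine.Point.some _ _ h = 0 := by
  have hz2 : (z ^ 2) ^ 4 + (z ^ 2) ^ 3 + (z ^ 2) ^ 2 + z ^ 2 + 1 = 0 := by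
    linear_combination (z ^ 4 - z ^ 3 + z ^ 2 - z + 1) * hz
  obtain ⟨h2, e2⟩ := five_double hz t (h := h)
  obtain ⟨h4, e4⟩ := five_double hz2 t (h := h2)
  rw [show 5 = 2 * 2 + 1 from rfl, succ_nsmul, mul_nsmul, e2, e4, ← eq_neg_iff_add_eq_zero,
    Affine.Point.neg_some, Affine.Point.some.injEq]
  simp only [← pow_mul]
  exact ⟨five_negX hz t, five_negY hz t⟩

end FA.CoxParry.Realise
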