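import Fermat.Agent.CoxParry.Realise.Families
import Fermat.Agent.CoxParry.Realise.FivePoint

/-!
# `ℤ/5 × ℤ/5` at level five
-/

set_option autoImplicit false
set_option linter.unusedSectionVars false
set_option linter.style.haveILetI false

noncomputable section

open Polynomial WeierstrassCurve FA.SzpiroLine FA.LevinTorsion FA.NeronSpecialisation
open FA.Thirteen (tateCurve)
open scoped Classical

namespace FA.CoxParry.Realise

variable {k : Type*} [Field k] [CharZero k] [IsAlgClosed k]

local notation "ι" => algebraMap k[X] (RatFunc k)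

theorem occurs_five_five : Occurs k 5 5 5 := by
  obtain ⟨z₀, hz₀⟩ : ∃ z : k, z ^ 4 + z ^ 3 + z ^ 2 + z + 1 = 0 := by
    obtain ⟨z, hz⟩ := IsAlgClosed.exists_root (X ^ 4 + X ^ 3 + X ^ 2 + X + 1 : k[X])
      (by rw [show (X ^ 4 + X ^ 3 + X ^ 2 + X + 1 : k[X]).degree = 4 by compute_degree!]; decide)
    exact ⟨z, by simpa using hz⟩
  set z : RatFunc k := ι (C z₀) with hzdef
  have hz : z ^ 4 + z ^ 3 + z ^ 2 + z + 1 = 0 := by
    simpa [hzdef] using congrArg (fun x => ι (C x)) hz₀
  set t : RatFunc k := RatFunc.X with ht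
  have hgen : genW (modelFiveFive k) = fiveW t := by
    ext <;> simp [genW, modelFiveFive, fiveW, fiveNum, fiveDen, WeierstrassCurve.map, ht,
      RatFunc.algebraMap_X, map_ofNat] <;> ring
  have hD0 : fiveDen t ≠ 0 := ne_of_eval (fiveDen (X : k[X])) 0 (by simp [fiveDen])
    (by simp [fiveDen, ht, RatFunc.algebraMap_X, map_ofNat])
  set b := fiveNum t / fiveDen t with hb
  have hC := scale_model (b := b) (c := b) (D := 5 * fiveDen t) (W := modelFiveFive k)
    (mul_ne_zero (by norm_num) hD0)
    ((congrArg WeierstrassCurve.a₁ hgen).trans (by simp only [fiveW, hb]; field_simp))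
    ((congrArg WeierstrassCurve.a₂ hgen).trans (by simp only [fiveW, hb]; field_simp; ring))
    ((congrArg WeierstrassCurve.a₃ hgen).trans (by simp only [fiveW, hb]; field_simp; ring))
    rfl rfl
  haveI := isElliptic_of_model hC (good_five_five k).nz
  rw [hgen] at hC
  haveI : (fiveW t).IsElliptic := hgen ▸ genW_isElliptic (good_five_five k).nz
  set e := FA.Frob.vcEquiv _ hC
  have hR := five_nonsingular hz t
  set R := e (Affine.Point.some _ _ hR) with hRdef
  have h5 : 5 • R = 0 := by rw [hRdef, ← map_nsmul, five_nsmul hz t, map_zero]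
  have hR0 : R ≠ 0 := by
    rw [hRdef, Ne, AddEquiv.map_eq_zero_iff]
    exact Affine.Point.some_ne_zero hR
  set h0 := tate_origin b b
  have hP := order_five (h0 := h0) rfl
  obtain ⟨h2, e2⟩ := FA.Torsion.tate_two (h0 := h0)
  obtain ⟨h3, e3⟩ := FA.Torsion.tate_three (h0 := h0)
  have hx0 : z ^ 2 + z ^ 3 - 2 ≠ 0 := fun h => (by norm_num : (5 : RatFunc k) ≠ 0) (by
    linear_combination (z ^ 2 + z - 1) * hz - (z ^ 2 + z ^ 3 + 3) * h)
  have hne : ∀ q : RatFunc k, (q = 0 ∨ q = fiveNum t * fiveDen t * 25) → fiveX z t ≠ q := by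
    intro q hq
    refine sub_ne_zero.mp ?_
    have hq0 : z₀ ^ 2 + z₀ ^ 3 - 2 ≠ 0 := fun h => hx0 (by
      simpa [hzdef, map_ofNat] using congrArg (fun x => ι (C x)) h)
    rcases hq with rfl | rfl
    · refine ne_of_eval (fiveX (C z₀) (X : k[X])) 0 ?_
        (by simp [fiveX, hzdef, ht, RatFunc.algebraMap_X, map_ofNat])
      simp [fiveX]
      intro h
      exact hq0 (by linear_combination h / 5)
    · refine ne_of_eval (fiveX (C z₀) (X : k[X]) - fiveNum X * fiveDen X * 25) 0 ?_
        (by simp [fiveX, fiveNum, fiveDen, hzdef, ht, RatFunc.algebraMap_X, map_ofNat])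
      simp [fiveX, fiveNum]
      intro h
      exact hq0 (by linear_combination h / 5)
  obtain ⟨φ, hφ⟩ := exists_hom_prime (by norm_num : (5 : ℕ).Prime) h5
    (show addOrderOf (Affine.Point.some 0 0 h0) = 5 * 1 from hP) one_pos (fun i hi => by
      rw [one_nsmul]
      interval_cases i
      · rw [zero_nsmul]; exact hR0
      · rw [one_nsmul, hRdef, FA.Frob.vcEquiv_some, Ne, Affine.Point.some.injEq]
        rintro ⟨h, -⟩
        simp [FA.Frob.vcX, hD0] at h
        exact hne 0 (Or.inl rfl) h
      · rw [e2, hRdef, FA.Frob.vcEquiv_some, Ne, Affine.Point.some.injEq]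
        rintro ⟨h, -⟩
        refine hne _ (Or.inr rfl) ?_
        simp only [FA.Frob.vcX, Units.val_mk0, hb] at h
        field_simp at h
        linear_combination h
      · rw [e3, hRdef, FA.Frob.vcEquiv_some, Ne, Affine.Point.some.injEq]
        rintro ⟨h, -⟩
        refine hne _ (Or.inr rfl) ?_
        simp only [FA.Frob.vcX, Units.val_mk0, hb] at h
        field_simp at h
        linear_combination h
      · have e4 : 4 • Affine.Point.some 0 0 h0 = -Affine.Point.some 0 0 h0 := by
          rw [eq_neg_iff_add_eq_zero, ← succ_nsmul]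
          have := addOrderOf_nsmul_eq_zero (Affine.Point.some 0 0 h0)
          rwa [hP] at this
        rw [e4, hRdef, FA.Frob.vcEquiv_some, Affine.Point.neg_some, Ne, Affine.Point.some.injEq]
        rintro ⟨h, -⟩
        simp [FA.Frob.vcX, hD0] at h
        exact hne 0 (Or.inl rfl) h)
  exact occurs_of_level (good_five_five k) (hC.trans hgen.symm) (by norm_num) (by norm_num) hφ []
    (by simp) (by decide +kernel)

end FA.CoxParry.Realise
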