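import Fermat.Agent.CoxParry.Realise.Tools

/-!
# The trivial group, `ℤ/2`, `ℤ/3`, `ℤ/4` and `ℤ/2 × ℤ/2` at every level

Models additive at infinity, with parameter a power of `T` of degree prime to two or three.
-/

set_option autoImplicit false
set_option linter.unusedSectionVars false
set_option linter.style.haveILetI false

noncomputable section

open Polynomial WeierstrassCurve FA.SzpiroLine FA.LevinTorsion FA.NeronSpecialisation
open FA.Thirteen (tateCurve)
open FA.Torsion.TwoTen (root_of_two_nsmul isSquare_Δ_of_two_roots)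
open scoped Classical

namespace FA.CoxParry.Realise

variable {k : Type*} [Field k] [CharZero k]

local notation "ι" => algebraMap k[X] (RatFunc k)

theorem natDegree_le_of_coeff {p : k[X]} {n : ℕ} (h : ∀ N, n < N → p.coeff N = 0) :
    p.natDegree ≤ n := natDegree_le_iff_coeff_eq_zero.mpr h

theorem genW_nonsingular {W : WeierstrassCurve k[X]} (hW : W.Δ ≠ 0) (u v : k[X])
    (h : v ^ 2 + W.a₁ * u * v + W.a₃ * v = u ^ 3 + W.a₂ * u ^ 2 + W.a₄ * u + W.a₆) :
    (genW W).toAffine.Nonsingular (ι u) (ι v) := by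
  haveI := genW_isElliptic hW
  refine equation_of ?_
  simp only [genW, map_a₁, map_a₂, map_a₃, map_a₄, map_a₆, ← map_mul, ← map_pow, ← map_add]
  rw [h]

theorem point_ne_zero_cases {F : Type*} [Field F] {W : WeierstrassCurve F} {P : W.toAffine.Point}
    (hP : P ≠ 0) : ∃ x y h, P = .some x y h := by
  rcases P with _ | ⟨x, y, h⟩
  · exact absurd rfl hP
  · exact ⟨x, y, h, rfl⟩

variable [IsAlgClosed k]

/-- `y² = x³ + x + T^(6m-5)`. -/
theorem occurs_one_one {m : ℕ} (hm : 0 < m) : Occurs k 1 1 m := by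
  set d := 6 * m - 5 with hd
  set W : WeierstrassCurve k[X] := ⟨0, 0, 0, 1, X ^ d⟩ with hW
  have h4 : W.c₄ = C (-48) := by simp [hW, c₄, b₂, b₄, map_neg, map_ofNat]; ring
  have h6 : W.c₆ = C (-864) * X ^ d := by simp [hW, c₆, b₂, b₄, b₆, map_neg, map_ofNat]; ring
  have h6d : W.c₆.natDegree = d := by rw [h6]; exact natDegree_C_mul_X_pow d _ (by norm_num)
  have hg : Good W m := by
    refine ⟨by rw [h4, natDegree_C]; omega, by omega, by omega,
      fun t ht => absurd ht (by rw [h4, eval_C]; norm_num), ?_, fun e => ?_⟩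
    · obtain ⟨t, ht⟩ := IsAlgClosed.exists_pow_nat_eq (-(4 : k) / 27) (show 0 < 2 * d by omega)
      refine ⟨t, ?_⟩
      rw [eval_Δ]
      simp [hW, WeierstrassCurve.Δ, b₂, b₄, b₆, b₈, WeierstrassCurve.map]
      have h : 27 * (t ^ (2 * d)) = -4 := by rw [ht]; field_simp
      rw [mul_comm 2 d, pow_mul] at h
      linear_combination -16 * h
    · have h := congrArg (eval (0 : k)) e
      rw [eval_zero, eval_Δ] at h
      simp [hW, WeierstrassCurve.Δ, b₂, b₄, b₆, b₈, WeierstrassCurve.map,
        zero_pow (show d ≠ 0 by omega)] at h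
  haveI := genW_isElliptic hg.nz
  refine occurs_of_additive hg (C₁ := 1) (by rw [h4, natDegree_C]; omega) (by omega) (one_smul _ _)
    (one_dvd 1) one_pos (φ := 0) (Function.injective_of_subsingleton _)
    [(1, 2), (1, 3)] ?_ (by decide +kernel)
  intro q hq
  simp only [List.mem_cons, List.not_mem_nil, or_false] at hq
  rcases hq with rfl | rfl <;> refine no_point (by norm_num) fun P hP => by_contra fun hP0 => ?_
  · obtain ⟨x, y, h, rfl⟩ := point_ne_zero_cases hP0
    have hr := (root_of_two_nsmul hP).2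
    simp only [genW, hW, WeierstrassCurve.map, b₂, b₄, b₆, map_zero, map_one, map_pow] at hr
    obtain ⟨u, rfl⟩ := exists_polynomial_root (x := x)
      (p := Polynomial.X ^ 3 + (Polynomial.X + Polynomial.C (X ^ d)))
      (monic_X_pow_add (by rw [degree_X_add_C]; norm_num))
      (by simp only [eval₂_add, eval₂_X_pow, eval₂_X, eval₂_C]
          simp only [map_pow]
          linear_combination hr / 4)
    have hu : u ^ 3 + u = -X ^ d := RatFunc.algebraMap_injective k (by
      simp only [map_add, map_pow, map_neg]; linear_combination hr / 4)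
    have hdeg := congrArg natDegree hu
    rw [natDegree_neg, natDegree_X_pow] at hdeg
    rcases Nat.eq_zero_or_pos u.natDegree with h0 | h0
    · rw [eq_C_of_natDegree_eq_zero h0, ← map_pow, ← map_add, natDegree_C] at hdeg
      omega
    · rw [natDegree_add_eq_left_of_natDegree_lt (by rw [natDegree_pow]; omega), natDegree_pow]
        at hdeg
      omega
  · obtain ⟨x, y, h, rfl⟩ := point_ne_zero_cases hP0
    have hr := root_of_three_nsmul hP
    simp only [genW, hW, WeierstrassCurve.map, b₂, b₄, b₆, b₈, map_zero, map_one, map_pow] at hr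
    obtain ⟨u, hu'⟩ := exists_polynomial_root (x := 3 * x)
      (p := Polynomial.X ^ 4 + (Polynomial.C 18 * Polynomial.X ^ 2 +
        Polynomial.C (108 * X ^ d) * Polynomial.X - Polynomial.C 27))
      (monic_X_pow_add (lt_of_le_of_lt (b := ((2 : ℕ) : WithBot ℕ)) (by compute_degree!)
        (by norm_num)))
      (by simp only [eval₂_add, eval₂_sub, eval₂_mul, eval₂_X_pow, eval₂_X, eval₂_C]
          simp only [map_ofNat, map_mul, map_pow]
          linear_combination 27 * hr)
    have hu : u * (u ^ 3 + 18 * u + 108 * X ^ d) = C 27 := RatFunc.algebraMap_injective k (by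
      simp only [map_add, map_mul, map_pow, map_ofNat, hu']; linear_combination 27 * hr)
    have hu0 : IsUnit u := isUnit_of_dvd_unit (hu ▸ dvd_mul_right _ _)
      (isUnit_C.mpr (isUnit_iff_ne_zero.mpr (by norm_num)))
    obtain ⟨c, hc, rfl⟩ := Polynomial.isUnit_iff.mp hu0
    have h := congrArg (coeff · d) hu
    simp only [mul_add, coeff_add, ← map_pow, ← map_ofNat C, ← map_mul, ← mul_assoc, coeff_C,
      coeff_C_mul, coeff_X_pow, show d ≠ 0 by omega, if_false, if_true, zero_add, mul_one] at h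
    exact hc.ne_zero ((mul_eq_zero.mp h).resolve_right (by norm_num))

/-- `y² = x (x² + x + T^(4m-1))`. -/
theorem occurs_one_two {m : ℕ} (hm : 0 < m) : Occurs k 1 2 m := by
  set d := 4 * m - 1 with hd
  set W : WeierstrassCurve k[X] := ⟨0, 1, 0, X ^ d, 0⟩ with hW
  have h4 : W.c₄ = C 16 - C 48 * X ^ d := by simp [hW, c₄, b₂, b₄, map_ofNat]; ring
  have h6 : W.c₆ = C 288 * X ^ d - C 64 := by simp [hW, c₆, b₂, b₄, b₆, map_ofNat]; ring
  have hΔ : W.Δ = C 16 * (X ^ (2 * d) * (1 - C 4 * X ^ d)) := by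
    simp [hW, WeierstrassCurve.Δ, b₂, b₄, b₆, b₈, map_ofNat]; ring
  have h4d : W.c₄.natDegree = d := by
    rw [h4, natDegree_sub_eq_right_of_natDegree_lt] <;>
      rw [natDegree_C_mul_X_pow d _ (by norm_num)]
    rw [natDegree_C]; omega
  have h6d : W.c₆.natDegree = d := by
    rw [h6, natDegree_sub_eq_left_of_natDegree_lt] <;>
      rw [natDegree_C_mul_X_pow d _ (by norm_num)]
    rw [natDegree_C]; omega
  have hΔd : W.Δ.natDegree = 3 * d := by
    have h1 : (1 - C (4 : k) * X ^ d).natDegree = d := by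
      rw [natDegree_sub_eq_right_of_natDegree_lt] <;>
        rw [natDegree_C_mul_X_pow d _ (by norm_num)]
      rw [natDegree_one]; omega
    rw [hΔ, natDegree_C_mul (by norm_num), natDegree_mul (pow_ne_zero _ X_ne_zero)
      (fun e => by rw [e, natDegree_zero] at h1; omega), natDegree_X_pow, h1]
    omega
  have hg : Good W m := by
    refine ⟨by omega, by omega, by omega, fun t ht hΔt => ?_, ⟨0, ?_⟩, fun e => ?_⟩
    · rw [h4] at ht
      rw [hΔ, mul_comm 2 d, pow_mul] at hΔt
      simp only [eval_mul, eval_sub, eval_pow, eval_C, eval_X, eval_one, mul_eq_zero,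
        pow_eq_zero_iff two_ne_zero] at ht hΔt
      rcases hΔt with h | h | h
      · norm_num at h
      · rw [h] at ht; norm_num at ht
      · exact absurd (show (4 : k) = 0 by linear_combination ht - 12 * h) (by norm_num)
    · rw [hΔ]; simp [zero_pow (show 2 * d ≠ 0 by omega)]
    · rw [e, natDegree_zero] at hΔd; omega
  haveI := genW_isElliptic hg.nz
  have hsq : ¬IsSquare (genW W).Δ := by
    rw [genW, WeierstrassCurve.map_Δ]
    exact not_isSquare_of_odd ⟨6 * m - 2, by omega⟩
  have h0 : (genW W).toAffine.Nonsingular 0 0 := by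
    have := genW_nonsingular (W := W) hg.nz 0 0 (by simp [hW])
    simpa using this
  haveI := Fact.mk Nat.prime_two
  have hP : addOrderOf (Affine.Point.some 0 0 h0) = 2 :=
    addOrderOf_eq_prime (two_nsmul_eq_zero (by simp [genW, hW])) (Affine.Point.some_ne_zero h0)
  obtain ⟨φ, hφ⟩ := exists_hom_cyclic hP two_pos
  refine occurs_of_additive hg (C₁ := 1) (by omega) (by omega) (one_smul _ _) (one_dvd 2) two_pos
    hφ [(2, 2), (1, 4)] ?_ (by decide +kernel)
  intro q hq
  simp only [List.mem_cons, List.not_mem_nil, or_false] at hq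
  rcases hq with rfl | rfl
  · exact no_two_two hsq
  intro ψ hψ
  have hq0 : 2 • ψ (0, 1) ≠ 0 := fun e => by
    rw [← map_nsmul, ← map_zero ψ] at e
    exact absurd (hψ e) (by decide)
  obtain ⟨x, y, h, hxy⟩ := point_ne_zero_cases hq0
  have h2 : 2 • Affine.Point.some x y h = 0 := by
    rw [← hxy, smul_smul, ← map_nsmul, show (2 * 2) • ((0, 1) : ZMod 1 × ZMod 4) = 0 by decide,
      map_zero]
  obtain ⟨hy, hr⟩ := root_of_two_nsmul h2
  have hx : x = 0 := by_contra fun hx => hsq
    (isSquare_Δ_of_two_roots hx hr (by simp [genW, hW, b₆]))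
  have hy0 : y = 0 := by simpa [genW, hW, hx] using hy
  subst hx hy0
  have := isSquare_of_halved (by simp [genW, hW]) (by simp [genW, hW]) hxy
  simp only [genW, hW, WeierstrassCurve.map, zero_pow two_ne_zero, mul_zero, zero_add] at this
  exact not_isSquare_of_odd ⟨2 * m - 1, by rw [natDegree_X_pow]; omega⟩ this

/-- `y² + x y + T^(3m-1) y = x³`. -/
theorem occurs_one_three {m : ℕ} (hm : 0 < m) : Occurs k 1 3 m := by
  set d := 3 * m - 1 with hd
  set W : WeierstrassCurve k[X] := ⟨1, 0, X ^ d, 0, 0⟩ with hW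
  have h4 : W.c₄ = 1 - C 24 * X ^ d := by simp [hW, c₄, b₂, b₄, map_ofNat] <;> ring
  have h6 : W.c₆ = C 36 * X ^ d - C 216 * X ^ (2 * d) - 1 := by
    simp [hW, c₆, b₂, b₄, b₆, map_ofNat]; ring
  have hΔ : W.Δ = X ^ (3 * d) * (1 - C 27 * X ^ d) := by
    simp [hW, WeierstrassCurve.Δ, b₂, b₄, b₆, b₈, map_ofNat]; ring
  have h4d : W.c₄.natDegree = d := by
    rw [h4, natDegree_sub_eq_right_of_natDegree_lt] <;>
      rw [natDegree_C_mul_X_pow d _ (by norm_num)]
    rw [natDegree_one]; omega
  have h6d : W.c₆.natDegree = 2 * d := by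
    refine le_antisymm (natDegree_le_of_coeff fun N hN => ?_)
      (le_natDegree_of_ne_zero (n := 2 * d) ?_) <;>
      simp only [h6, coeff_sub, coeff_C_mul, coeff_X_pow, coeff_one]
    · simp [show N ≠ d by omega, show N ≠ 2 * d by omega, show N ≠ 0 by omega]
    · simp [show 2 * d ≠ d by omega, show d ≠ 0 by omega]
  have hg : Good W m := by
    refine ⟨by omega, by omega, by omega, fun t ht hΔt => ?_, ⟨0, ?_⟩, fun e => ?_⟩
    · rw [h4] at ht
      rw [hΔ, mul_comm 3 d, pow_mul] at hΔt
      simp only [eval_mul, eval_sub, eval_pow, eval_C, eval_X, eval_one, mul_eq_zero,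
        pow_eq_zero_iff three_ne_zero] at ht hΔt
      rcases hΔt with h | h
      · rw [h] at ht; norm_num at ht
      · exact absurd (show (3 : k) = 0 by linear_combination 27 * ht - 24 * h) (by norm_num)
    · rw [hΔ]; simp [zero_pow (show 3 * d ≠ 0 by omega)]
    · have h := congrArg (fun p : k[X] => p.coeff (4 * d)) e
      rw [hΔ, mul_sub, mul_one, mul_left_comm, ← pow_add, show 3 * d + d = 4 * d by ring] at h
      simp [show d ≠ 0 by omega] at h
  haveI := genW_isElliptic hg.nz
  have h0 : (genW W).toAffine.Nonsingular 0 0 := by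
    have := genW_nonsingular (W := W) hg.nz 0 0 (by simp [hW])
    simpa using this
  have hP : addOrderOf (Affine.Point.some 0 0 h0) = 3 :=
    addOrderOf_eq_prime (hp := ⟨Nat.prime_three⟩) (three_nsmul_origin (by simp [genW, hW]) (by simp [genW, hW])
      (by simp [genW, hW]; exact fun e => absurd e RatFunc.X_ne_zero))
      (Affine.Point.some_ne_zero h0)
  obtain ⟨φ, hφ⟩ := exists_hom_cyclic hP (by norm_num)
  refine occurs_of_additive hg (C₁ := 1) (by omega) (by omega) (one_smul _ _) (one_dvd 3)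
    (by norm_num) hφ [(3, 3)] ?_ (by decide +kernel)
  intro q hq
  obtain rfl : q = (3, 3) := List.mem_singleton.mp hq
  intro ψ hψ
  have key : ∀ z : ZMod 3 × ZMod 3, z ≠ 0 → ∃ y h, ψ z = .some 0 y h := by
    intro z hz
    obtain ⟨x, y, h, hxy⟩ := point_ne_zero_cases
      (P := ψ z) fun e => hz (hψ (e.trans (map_zero ψ).symm))
    have h3 : 3 • Affine.Point.some x y h = 0 := by
      rw [← hxy, ← map_nsmul, (by decide : ∀ w : ZMod 3 × ZMod 3, 3 • w = 0) z, map_zero]
    suffices hx : x = 0 by subst hx; exact ⟨y, h, hxy⟩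
    have hr := root_of_three_nsmul h3
    simp only [genW, hW, WeierstrassCurve.map, b₂, b₄, b₆, b₈, map_zero, map_one, map_pow,
      RatFunc.algebraMap_X] at hr
    by_contra hx
    have hr' : 3 * x ^ 3 + x ^ 2 + 3 * RatFunc.X ^ d * x + 3 * (RatFunc.X ^ d) ^ 2 = 0 :=
      mul_left_cancel₀ hx (by linear_combination hr)
    obtain ⟨u, hu'⟩ := exists_polynomial_root (x := 3 * x)
      (p := Polynomial.X ^ 3 + (Polynomial.X ^ 2 +
        Polynomial.C (9 * X ^ d) * Polynomial.X + Polynomial.C (27 * (X ^ d) ^ 2)))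
      (monic_X_pow_add (lt_of_le_of_lt (b := ((2 : ℕ) : WithBot ℕ)) (by compute_degree!)
        (by norm_num)))
      (by simp only [eval₂_add, eval₂_mul, eval₂_X_pow, eval₂_X, eval₂_C]
          simp only [map_ofNat, map_mul, map_pow, RatFunc.algebraMap_X]
          linear_combination 9 * hr')
    have hu : u ^ 3 + u ^ 2 + C 9 * (X ^ d * u) + C 27 * X ^ (2 * d) = 0 :=
      RatFunc.algebraMap_injective k (by
        simp only [map_add, map_mul, map_pow, map_ofNat, RatFunc.algebraMap_X, map_zero, hu']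
        linear_combination 9 * hr')
    set e := u.natDegree with he
    have k2 : (u ^ 2).natDegree ≤ 2 * e := natDegree_pow_le
    have kd : (X ^ d * u).natDegree ≤ d + e := natDegree_mul_le.trans (by rw [natDegree_X_pow])
    rcases lt_trichotomy (3 * e) (2 * d) with hlt | heq | hgt
    · have h := congrArg (coeff · (2 * d)) hu
      simp only [coeff_add, coeff_C_mul, coeff_X_pow, if_pos, coeff_zero, mul_one,
        coeff_eq_zero_of_natDegree_lt (show (u ^ 3).natDegree < 2 * d from
          lt_of_le_of_lt natDegree_pow_le hlt),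
        coeff_eq_zero_of_natDegree_lt (show (u ^ 2).natDegree < 2 * d by omega),
        coeff_eq_zero_of_natDegree_lt (show (X ^ d * u).natDegree < 2 * d by omega)] at h
      norm_num at h
    · omega
    · have h := congrArg (coeff · (3 * e)) hu
      simp only [coeff_add, coeff_C_mul, coeff_X_pow, coeff_zero, mul_zero, add_zero,
        show 3 * e ≠ 2 * d by omega, if_false,
        coeff_eq_zero_of_natDegree_lt (show (u ^ 2).natDegree < 3 * e by omega),
        coeff_eq_zero_of_natDegree_lt (show (X ^ d * u).natDegree < 3 * e by omega)] at h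
      rw [show 3 * e = (u ^ 3).natDegree by rw [natDegree_pow], ← leadingCoeff,
        leadingCoeff_eq_zero] at h
      rw [eq_zero_of_pow_eq_zero h] at he
      simp at he; omega
  obtain ⟨y, hy, e⟩ := key (1, 0) (by decide)
  obtain ⟨y', hy', e'⟩ := key (0, 1) (by decide)
  rcases FA.Thirteen.eq_or_eq_neg_of_X_eq (h₁ := hy) (h₂ := hy') with he | he
  · exact absurd (hψ ((e.trans he).trans e'.symm)) (by decide)
  · rw [← e, ← e', ← map_neg] at he
    exact absurd (hψ he) (by decide)

/-- The Tate curve `b = T^(2m-1)`, `c = 0`. -/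
theorem occurs_one_four {m : ℕ} (hm : 0 < m) : Occurs k 1 4 m := by
  set d := 2 * m - 1 with hd
  set W : WeierstrassCurve k[X] := ⟨1, -X ^ d, -X ^ d, 0, 0⟩ with hW
  have h4 : W.c₄ = C 16 * X ^ (2 * d) + C 16 * X ^ d + 1 := by
    simp [hW, c₄, b₂, b₄, map_ofNat]; ring
  have h6 : W.c₆ = C 64 * X ^ (3 * d) - C 120 * X ^ (2 * d) - C 24 * X ^ d - 1 := by
    simp [hW, c₆, b₂, b₄, b₆, map_ofNat]; ring
  have hΔ : W.Δ = X ^ (4 * d) * (1 + C 16 * X ^ d) := by
    simp [hW, WeierstrassCurve.Δ, b₂, b₄, b₆, b₈, map_ofNat]; ring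
  have h4d : W.c₄.natDegree = 2 * d := by
    refine le_antisymm (natDegree_le_of_coeff fun N hN => ?_)
      (le_natDegree_of_ne_zero (n := 2 * d) ?_) <;>
      simp only [h4, coeff_add, coeff_C_mul, coeff_X_pow, coeff_one]
    · simp [show N ≠ d by omega, show N ≠ 2 * d by omega, show N ≠ 0 by omega]
    · simp [show 2 * d ≠ d by omega, show d ≠ 0 by omega]
  have h6d : W.c₆.natDegree ≤ 3 * d := natDegree_le_of_coeff fun N hN => by
    simp [h6, coeff_X_pow, coeff_one, show N ≠ d by omega, show N ≠ 2 * d by omega,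
      show N ≠ 3 * d by omega, show N ≠ 0 by omega]
  have hΔd : W.Δ.natDegree = 5 * d := by
    have h1 : (1 + C (16 : k) * X ^ d).natDegree = d := by
      rw [natDegree_add_eq_right_of_natDegree_lt] <;>
        rw [natDegree_C_mul_X_pow d _ (by norm_num)]
      rw [natDegree_one]; omega
    rw [hΔ, natDegree_mul (pow_ne_zero _ X_ne_zero)
      (fun e => by rw [e, natDegree_zero] at h1; omega), natDegree_X_pow, h1]
    omega
  have hg : Good W m := by
    refine ⟨by omega, by omega, by omega, fun t ht hΔt => ?_, ⟨0, ?_⟩, fun e => ?_⟩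
    · rw [h4, mul_comm 2 d, pow_mul] at ht
      rw [hΔ, mul_comm 4 d, pow_mul] at hΔt
      simp only [eval_mul, eval_add, eval_pow, eval_C, eval_X, eval_one, mul_eq_zero,
        pow_eq_zero_iff four_ne_zero] at ht hΔt
      rcases hΔt with h | h
      · rw [h] at ht; norm_num at ht
      · exact absurd (show (1 : k) = 0 by linear_combination 16 * ht - (16 * t ^ d + 15) * h)
          (by norm_num)
    · rw [hΔ]; simp [zero_pow (show 4 * d ≠ 0 by omega)]
    · rw [e, natDegree_zero] at hΔd; omega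
  haveI := genW_isElliptic hg.nz
  have hgen : genW W = tateCurve (RatFunc.X ^ d) 0 := by
    ext <;> simp [genW, hW, tateCurve, WeierstrassCurve.map, RatFunc.algebraMap_X]
  haveI : (tateCurve (RatFunc.X ^ d : RatFunc k) 0).IsElliptic := hgen ▸ genW_isElliptic hg.nz
  set h0 := tate_origin (RatFunc.X ^ d : RatFunc k) 0
  obtain ⟨h2, e2⟩ := FA.Torsion.tate_two (h0 := h0)
  obtain ⟨h3, e3⟩ := FA.Torsion.tate_three (h0 := h0)
  obtain ⟨hn, en⟩ := FA.Torsion.tate_neg (h0 := h0)
  have hP : addOrderOf (Affine.Point.some 0 0 h0) = 2 ^ (1 + 1) := by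
    haveI := Fact.mk Nat.prime_two
    refine addOrderOf_eq_prime_pow ?_ ?_
    · rw [pow_one, e2]; exact Affine.Point.some_ne_zero h2
    · rw [show 2 ^ (1 + 1) = 3 + 1 from rfl, succ_nsmul, ← eq_neg_iff_add_eq_zero, e3, en,
        Affine.Point.some.injEq]
      exact ⟨rfl, sub_zero _⟩
  obtain ⟨φ, hφ⟩ := exists_hom_cyclic hP (by norm_num)
  refine occurs_of_additive hg (C₁ := 1) (by omega) (by omega) (by rw [one_smul, hgen])
    (one_dvd _) (by norm_num) hφ [(2, 2)] ?_ (by decide +kernel)
  intro q hq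
  obtain rfl : q = (2, 2) := List.mem_singleton.mp hq
  refine no_two_two ?_
  rw [← hgen, genW, WeierstrassCurve.map_Δ]
  exact not_isSquare_of_odd ⟨5 * m - 3, by omega⟩

/-- `y² = x (x - 1) (x - T^(2m-1))`. -/
theorem occurs_two_two {m : ℕ} (hm : 0 < m) : Occurs k 2 2 m := by
  set d := 2 * m - 1 with hd
  set W : WeierstrassCurve k[X] := ⟨0, -(1 + X ^ d), 0, X ^ d, 0⟩ with hW
  have h4 : W.c₄ = C 16 * X ^ (2 * d) - C 16 * X ^ d + C 16 := by
    simp [hW, c₄, b₂, b₄, map_ofNat]; ring
  have h6 : W.c₆ = C 64 * X ^ (3 * d) - C 96 * X ^ (2 * d) - C 96 * X ^ d + C 64 := by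
    simp [hW, c₆, b₂, b₄, b₆, map_ofNat]; ring
  have hΔ : W.Δ = C 16 * (X ^ (2 * d) * (X ^ d - 1) ^ 2) := by
    simp [hW, WeierstrassCurve.Δ, b₂, b₄, b₆, b₈, map_ofNat]; ring
  have h4d : W.c₄.natDegree = 2 * d := by
    refine le_antisymm (natDegree_le_of_coeff fun N hN => ?_)
      (le_natDegree_of_ne_zero (n := 2 * d) ?_) <;>
      simp only [h4, coeff_add, coeff_sub, coeff_C_mul, coeff_X_pow, coeff_C]
    · simp [show N ≠ d by omega, show N ≠ 2 * d by omega, show N ≠ 0 by omega]
    · simp [show 2 * d ≠ d by omega, show d ≠ 0 by omega]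
  have h6d : W.c₆.natDegree ≤ 3 * d := natDegree_le_of_coeff fun N hN => by
    simp [h6, coeff_X_pow, coeff_C, show N ≠ d by omega, show N ≠ 2 * d by omega,
      show N ≠ 3 * d by omega, show N ≠ 0 by omega]
  have hg : Good W m := by
    refine ⟨by omega, by omega, by omega, fun t ht hΔt => ?_, ⟨0, ?_⟩, fun e => ?_⟩
    · rw [h4, mul_comm 2 d, pow_mul] at ht
      rw [hΔ, mul_comm 2 d, pow_mul] at hΔt
      simp only [eval_mul, eval_add, eval_sub, eval_pow, eval_C, eval_X, eval_one, mul_eq_zero,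
        pow_eq_zero_iff two_ne_zero] at ht hΔt
      rcases hΔt with h | h | h
      · norm_num at h
      · rw [h] at ht; norm_num at ht
      · rw [sub_eq_zero.mp h] at ht; norm_num at ht
    · rw [hΔ]; simp [zero_pow (show 2 * d ≠ 0 by omega)]
    · rw [hΔ] at e
      rcases mul_eq_zero.mp e with h | h
      · rw [C_eq_zero] at h; norm_num at h
      · exact mul_ne_zero (pow_ne_zero _ X_ne_zero)
          (pow_ne_zero _ (by simpa using X_pow_sub_C_ne_zero (R := k) (show 0 < d by omega) (1 : k))) h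
  haveI := genW_isElliptic hg.nz
  set v : RatFunc k := ι (X ^ d) with hv
  have hgen : genW W = ⟨0, -(1 + v), 0, v, 0⟩ := by
    ext <;> simp [genW, hW, hv, WeierstrassCurve.map]
  have h0 : (genW W).toAffine.Nonsingular 0 0 := equation_of (by simp [hgen])
  have h1 : (genW W).toAffine.Nonsingular 1 0 := equation_of (by simp [hgen])
  haveI := Fact.mk Nat.prime_two
  have hP : addOrderOf (Affine.Point.some 0 0 h0) = 2 * 1 :=
    addOrderOf_eq_prime (two_nsmul_eq_zero (by simp [hgen])) (Affine.Point.some_ne_zero h0)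
  obtain ⟨φ, hφ⟩ := exists_hom_prime Nat.prime_two
    (T := Affine.Point.some 1 0 h1) (two_nsmul_eq_zero (by simp [hgen])) hP one_pos (fun i hi => by
      interval_cases i <;> simp)
  refine occurs_of_additive hg (C₁ := 1) (by omega) (by omega) (one_smul _ _) (dvd_refl 2) two_pos hφ [(1, 4)] ?_ (by decide +kernel)
  intro q hq
  obtain rfl : q = (1, 4) := List.mem_singleton.mp hq
  intro ψ hψ
  have hq0 : 2 • ψ (0, 1) ≠ 0 := fun e => by
    rw [← map_nsmul, ← map_zero ψ] at e
    exact absurd (hψ e) (by decide)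
  obtain ⟨x, y, h, hxy⟩ := point_ne_zero_cases hq0
  have h2 : 2 • Affine.Point.some x y h = 0 := by
    rw [← hxy, smul_smul, ← map_nsmul, show (2 * 2) • ((0, 1) : ZMod 1 × ZMod 4) = 0 by decide,
      map_zero]
  obtain ⟨hy, hr⟩ := root_of_two_nsmul h2
  have hy0 : y = 0 := by simpa [hgen] using hy
  subst hy0
  simp only [hgen, b₂, b₄, b₆] at hr
  have hroots : x * (x - 1) * (x - v) = 0 := by linear_combination hr / 4
  have hsq := isSquare_of_halved (by simp [hgen]) (by simp [hgen]) hxy
  simp only [hgen] at hsq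
  rcases mul_eq_zero.mp hroots with h | h
  rcases mul_eq_zero.mp h with h | h
  · refine not_isSquare_of_odd (k := k) (q := X ^ d) ⟨m - 1, by rw [natDegree_X_pow]; omega⟩ ?_
    subst h
    exact Eq.mp (congrArg IsSquare (by rw [hv]; ring)) hsq
  · refine not_isSquare_of_odd (k := k) (q := 1 - X ^ d) ⟨m - 1, ?_⟩ ?_
    · rw [natDegree_sub_eq_right_of_natDegree_lt] <;> rw [natDegree_X_pow]
      · omega
      · rw [natDegree_one]; omega
    rw [sub_eq_zero.mp h] at hsq
    exact Eq.mp (congrArg IsSquare (by simp only [map_sub, map_one, hv]; ring)) hsq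
  · refine not_isSquare_of_trailing (k := k) (q := X ^ d * (X ^ d - 1)) ⟨m - 1, ?_⟩ ?_
    · have hne : (X ^ d - 1 : k[X]).coeff 0 ≠ 0 := by simp [coeff_X_pow, coeff_one, (show 0 ≠ d by omega)]
      rw [natTrailingDegree_mul (pow_ne_zero _ X_ne_zero) (fun e => hne (by rw [e, coeff_zero])),
        natTrailingDegree_X_pow, Nat.eq_zero_of_le_zero (natTrailingDegree_le_of_ne_zero hne)]
      omega
    rw [sub_eq_zero.mp h] at hsq
    exact Eq.mp (congrArg IsSquare (by simp only [map_sub, map_one, map_mul, hv]; ring)) hsq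

end FA.CoxParry.Realise
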