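import Fermat.Agent.CoxParry.Realise.Families
import Fermat.Agent.CoxParry.Realise.Small

/-!
# `ℤ/3 × ℤ/3`, `ℤ/3 × ℤ/6`, `ℤ/2 × ℤ/4` and `ℤ/4 × ℤ/4`

The second point is written with a cube root of unity, or a square root of `-1`.
-/

set_option autoImplicit false
set_option linter.unusedSimpArgs false
set_option linter.unusedSectionVars false
set_option linter.style.haveILetI false

noncomputable section

open Polynomial WeierstrassCurve FA.SzpiroLine FA.LevinTorsion FA.NeronSpecialisation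
open FA.Thirteen (tateCurve)
open scoped Classical

namespace FA.CoxParry.Realise

variable {k : Type*} [Field k]

local notation "ι" => algebraMap k[X] (RatFunc k)

section Points

variable {K : Type*} [Field K] [DecidableEq K]

theorem two_mul_omega_ne [NeZero (3 : K)] {ω : K} (hω : ω ^ 2 + ω + 1 = 0) : 2 * ω + 1 ≠ 0 :=
  fun e => three_ne_zero (α := K) (by linear_combination 4 * hω - (2 * ω + 1) * e)

/-- The second point of order three of `y² + 3 a x y + (a³ - v³) y = x³`. -/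
theorem hesse_point [NeZero (3 : K)] {W : WeierstrassCurve K} [W.IsElliptic] {a v ω r s q : K}
    (hω : ω ^ 2 + ω + 1 = 0) (hv : v ≠ 0) (hp : a ^ 2 + a * v + v ^ 2 ≠ 0)
    (h1 : W.a₁ + 2 * s = 3 * a) (h2 : W.a₂ - s * W.a₁ + 3 * r - s ^ 2 = 0)
    (h3 : W.a₃ + r * W.a₁ + 2 * q = a ^ 3 - v ^ 3)
    (h4 : W.a₄ - s * W.a₃ + 2 * r * W.a₂ - (q + r * s) * W.a₁ + 3 * r ^ 2 - 2 * s * q = 0)
    (h6 : W.a₆ + r * W.a₄ + r ^ 2 * W.a₂ + r ^ 3 - q * W.a₃ - q ^ 2 - r * q * W.a₁ = 0) :
    ∃ h, 3 • (Affine.Point.some (W' := W.toAffine) (r - (a ^ 2 + a * v + v ^ 2))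
      (q - s * (a ^ 2 + a * v + v ^ 2) + (a ^ 2 + a * v + v ^ 2) * (a - ω * v)) h) = 0 := by
  set p := a ^ 2 + a * v + v ^ 2 with hpdef
  set x := r - p with hx
  set y := q - s * p + p * (a - ω * v) with hy
  have e3 : W.a₃ = a ^ 3 - v ^ 3 - r * W.a₁ - 2 * q := by linear_combination h3
  have e1 : W.a₁ = 3 * a - 2 * s := by linear_combination h1
  have e2 : W.a₂ = s * W.a₁ - 3 * r + s ^ 2 := by linear_combination h2
  have e4 : W.a₄ = s * W.a₃ - 2 * r * W.a₂ + (q + r * s) * W.a₁ - 3 * r ^ 2 + 2 * s * q := by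
    linear_combination h4
  have e6 : W.a₆ = -(r * W.a₄ + r ^ 2 * W.a₂ + r ^ 3 - q * W.a₃ - q ^ 2 - r * q * W.a₁) := by
    linear_combination h6
  have hns : W.toAffine.Nonsingular x y := equation_of (by
    rw [e6, e4, e3, e2, e1, hx, hy, hpdef]
    linear_combination (a ^ 2 + a * v + v ^ 2) ^ 2 * v ^ 2 * hω)
  refine ⟨hns, three_nsmul_eq_zero (ℓ := (ω - 1) * a + (2 * ω + 1) * v + s) ?_ ?_ ?_⟩
  · rw [e3, e1, hx, hy, show 2 * (q - s * p + p * (a - ω * v)) + (3 * a - 2 * s) * (r - p) +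
      (a ^ 3 - v ^ 3 - r * (3 * a - 2 * s) - 2 * q) = -(p * v * (2 * ω + 1)) by rw [hpdef]; ring]
    exact neg_ne_zero.mpr (mul_ne_zero (mul_ne_zero hp hv) (two_mul_omega_ne hω))
  · rw [e4, e3, e2, e1, hx, hy, hpdef]
    linear_combination (-2 * (a ^ 2 + a * v + v ^ 2) * v * (2 * v + a)) * hω
  · rw [e2, e1, hx, hpdef]
    linear_combination (2 * v + a) ^ 2 * hω

end Points

variable [CharZero k]

theorem good_of_hesse {m : ℕ} (hm : 0 < m) :
    Good (⟨C 3 * X ^ m, 0, X ^ (3 * m) - 1, 0, 0⟩ : WeierstrassCurve k[X]) m := by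
  refine good_of_top (V := ⟨3, 0, 1, 0, 0⟩) ?_ ?_ ?_ ?_ ?_ ?_ (fun t h4 hD => ?_) ⟨1, ?_⟩ ⟨0, ?_⟩
  · exact ⟨by rw [one_mul]; exact natDegree_C_mul_X_pow_le _ _, by simp⟩
  · exact ⟨by simp, by simp⟩
  · exact ⟨natDegree_le_of_coeff fun N hN => by
      simp [coeff_X_pow, coeff_one, show N ≠ 3 * m by omega, show N ≠ 0 by omega],
      by simp [coeff_X_pow, coeff_one, show m ≠ 0 by omega]⟩
  · exact ⟨by simp, by simp⟩
  · exact ⟨by simp, by simp⟩
  · simp [WeierstrassCurve.c₄, b₂, b₄]; norm_num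
  · simp [WeierstrassCurve.map, WeierstrassCurve.c₄, WeierstrassCurve.Δ, b₂, b₄, b₆, b₈] at h4 hD
    rw [mul_comm 3 m, pow_mul] at h4 hD
    have h1 : (t ^ m) ^ 3 = 1 := by
      have h : (27 : k) * ((t ^ m) ^ 3 - 1) ^ 3 = 0 := by linear_combination hD
      exact sub_eq_zero.mp (eq_zero_of_pow_eq_zero ((mul_eq_zero.mp h).resolve_left (by norm_num)))
    have h : (81 : k) * t ^ m = 0 := by linear_combination h4 - 9 * t ^ m * h1
    rw [(mul_eq_zero.mp h).resolve_left (by norm_num)] at h1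
    norm_num at h1
  · simp [WeierstrassCurve.map, WeierstrassCurve.Δ, b₂, b₄, b₆, b₈]
  · simp [WeierstrassCurve.map, WeierstrassCurve.Δ, b₂, b₄, b₆, b₈, show m ≠ 0 by omega]

theorem good_of_legendre {m : ℕ} (hm : 0 < m) :
    Good (⟨0, 1 + (X ^ m) ^ 2, 0, (X ^ m) ^ 2, 0⟩ : WeierstrassCurve k[X]) m := by
  refine good_of_top (V := ⟨0, 1, 0, 0, 0⟩) ?_ ?_ ?_ ?_ ?_ ?_ (fun t h4 hD => ?_) ⟨0, ?_⟩ ⟨2, ?_⟩
  · exact ⟨by simp, by simp⟩
  · exact ⟨natDegree_le_of_coeff fun N hN => by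
      simp [← pow_mul, coeff_X_pow, coeff_one, show N ≠ m * 2 by omega, show N ≠ 0 by omega],
      by simp [← pow_mul, coeff_X_pow, coeff_one, mul_comm m 2, show m ≠ 0 by omega]⟩
  · exact ⟨by simp, by simp⟩
  · exact ⟨natDegree_le_of_coeff fun N hN => by
      simp [← pow_mul, coeff_X_pow, show N ≠ m * 2 by omega],
      by simp [← pow_mul, coeff_X_pow, show 4 * m ≠ m * 2 by omega]⟩
  · exact ⟨by simp, by simp⟩
  · simp [WeierstrassCurve.c₄, b₂, b₄]
  · simp [WeierstrassCurve.map, WeierstrassCurve.c₄, WeierstrassCurve.Δ, b₂, b₄, b₆, b₈] at h4 hD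
    have h : (16 : k) * ((t ^ m) ^ 4 * ((t ^ m) ^ 2 - 1) ^ 2) = 0 := by linear_combination hD
    simp only [mul_eq_zero, pow_eq_zero_iff two_ne_zero, pow_eq_zero_iff four_ne_zero] at h
    rcases h with h | h | h
    · norm_num at h
    · rw [h] at h4; norm_num at h4
    · rw [sub_eq_zero.mp h] at h4; norm_num at h4
  · simp [WeierstrassCurve.map, WeierstrassCurve.Δ, b₂, b₄, b₆, b₈, show m ≠ 0 by omega]
  · simp [WeierstrassCurve.map, WeierstrassCurve.Δ, b₂, b₄, b₆, b₈]
    have h2 : (2 : k) ^ m ≠ 0 := pow_ne_zero _ two_ne_zero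
    have h3 : ((2 : k) ^ m) ^ 2 - 1 ≠ 0 := by
      rw [← pow_mul, sub_ne_zero]
      exact_mod_cast (Nat.one_lt_two_pow (show m * 2 ≠ 0 by omega)).ne'
    intro h
    exact mul_ne_zero (by norm_num : (16 : k) ≠ 0)
      (mul_ne_zero (pow_ne_zero 4 h2) (pow_ne_zero 2 h3)) (by linear_combination h)

/-- The Pythagorean family. -/
def modelFourFour (k : Type*) [Field k] : WeierstrassCurve k[X] :=
  ⟨0, (X ^ 2 - 1) ^ 2 + (X ^ 2 + 1) ^ 2, 0, ((X ^ 2 - 1) * (X ^ 2 + 1)) ^ 2, 0⟩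

theorem good_four_four : Good (modelFourFour k) 2 := by
  refine good_of_top (V := ⟨0, 2, 0, 1, 0⟩) ?_ ?_ ?_ ?_ ?_ ?_ (fun t h4 hD => ?_) ⟨1, ?_⟩ ⟨2, ?_⟩
  · exact ⟨by simp [modelFourFour], by simp [modelFourFour]⟩
  · simp only [modelFourFour]
    rw [show ((X : k[X]) ^ 2 - 1) ^ 2 + (X ^ 2 + 1) ^ 2 = C 2 * X ^ 4 + C 2 by
      simp only [map_ofNat]; ring]
    exact ⟨by compute_degree, by simp [coeff_C]⟩
  · exact ⟨by simp [modelFourFour], by simp [modelFourFour]⟩
  · simp only [modelFourFour]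
    rw [show (((X : k[X]) ^ 2 - 1) * (X ^ 2 + 1)) ^ 2 = X ^ 8 - C 2 * X ^ 4 + 1 by
      simp only [map_ofNat]; ring]
    exact ⟨by compute_degree, by simp [coeff_one, coeff_X_pow]⟩
  · exact ⟨by simp [modelFourFour], by simp [modelFourFour]⟩
  · simp [WeierstrassCurve.c₄, b₂, b₄]; norm_num
  · simp [modelFourFour, WeierstrassCurve.map, WeierstrassCurve.c₄, WeierstrassCurve.Δ, b₂, b₄,
      b₆, b₈] at h4 hD
    have h : (16 : k) * ((t ^ 2 - 1) ^ 4 * ((t ^ 2 + 1) ^ 4 * (4 * t ^ 2) ^ 2)) = 0 := by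
      linear_combination hD
    simp only [mul_eq_zero, pow_eq_zero_iff two_ne_zero, pow_eq_zero_iff four_ne_zero,
      OfNat.ofNat_ne_zero, false_or] at h
    rcases h with h | h | h
    · rw [sub_eq_zero.mp h] at h4; norm_num at h4
    · rw [eq_neg_of_add_eq_zero_left h] at h4; norm_num at h4
    · rw [h] at h4; norm_num at h4
  · simp [modelFourFour, WeierstrassCurve.map, WeierstrassCurve.Δ, b₂, b₄, b₆, b₈] <;> norm_num
  · simp [modelFourFour, WeierstrassCurve.map, WeierstrassCurve.Δ, b₂, b₄, b₆, b₈]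
    norm_num

variable [IsAlgClosed k]

theorem exists_omega : ∃ ω : RatFunc k, ω ^ 2 + ω + 1 = 0 := by
  obtain ⟨s, hs⟩ := IsAlgClosed.exists_pow_nat_eq (-3 : k) two_pos
  refine ⟨ι (C ((-1 + s) / 2)), ?_⟩
  have e : ((-1 + s) / 2) ^ 2 + (-1 + s) / 2 + 1 = 0 := by field_simp; linear_combination hs
  rw [← map_pow, ← map_one ι, ← map_add, ← map_add, ← map_pow, ← map_one (C : k →+* k[X]),
    ← map_add, ← map_add, e, map_zero, map_zero]

theorem exists_sqrt_neg_one : ∃ i : RatFunc k, i ^ 2 + 1 = 0 := by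
  obtain ⟨s, hs⟩ := IsAlgClosed.exists_pow_nat_eq (-1 : k) two_pos
  exact ⟨ι (C s), by rw [← map_pow, ← map_pow, hs, map_neg, map_one, map_neg, map_one,
    neg_add_cancel]⟩

theorem occurs_three_three {m : ℕ} (hm : 0 < m) (hm2 : m ≤ 2) : Occurs k 3 3 m := by
  obtain ⟨ω, hω⟩ := exists_omega (k := k)
  have hg := good_of_hesse (k := k) hm
  haveI := genW_isElliptic hg.nz
  set W : WeierstrassCurve k[X] := ⟨C 3 * X ^ m, 0, X ^ (3 * m) - 1, 0, 0⟩ with hW
  set a : RatFunc k := RatFunc.X ^ m with ha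
  have hgen : genW W = ⟨3 * a, 0, a ^ 3 - 1, 0, 0⟩ := by
    ext <;> simp [genW, hW, ha, WeierstrassCurve.map, RatFunc.algebraMap_X, ← pow_mul,
      mul_comm m 3, map_ofNat]
  have hp : a ^ 2 + a * 1 + 1 ^ 2 ≠ 0 := ne_of_eval ((X ^ m) ^ 2 + X ^ m + 1) 1 (by norm_num)
    (by simp [ha, RatFunc.algebraMap_X])
  obtain ⟨hR, eR⟩ := hesse_point (W := genW W) (a := a) (v := 1) (r := 0) (s := 0) (q := 0) hω
    one_ne_zero hp (by simp [hgen]) (by simp [hgen]) (by simp [hgen]) (by simp [hgen])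
    (by simp [hgen])
  have h0 : (genW W).toAffine.Nonsingular 0 0 := equation_of (by simp [hgen])
  have ha3 : a ^ 3 - 1 ≠ 0 := ne_of_eval ((X ^ m) ^ 3 - 1) 0 (by simp [show m ≠ 0 by omega])
    (by simp [ha, RatFunc.algebraMap_X])
  have hP : addOrderOf (Affine.Point.some 0 0 h0) = 3 * 1 :=
    addOrderOf_eq_prime (hp := ⟨Nat.prime_three⟩)
      (three_nsmul_origin (by simp [hgen]) (by simp [hgen]) (by rw [hgen]; exact ha3))
      (Affine.Point.some_ne_zero h0)
  obtain ⟨φ, hφ⟩ := exists_hom_prime Nat.prime_three eR hP one_pos (fun i hi => by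
    interval_cases i
    · rw [zero_nsmul]; exact Affine.Point.some_ne_zero hR
    · rw [one_nsmul, one_nsmul, Ne, Affine.Point.some.injEq]
      exact fun h => hp (by linear_combination -h.1)
    · have e2 : 2 • Affine.Point.some 0 0 h0 = -Affine.Point.some 0 0 h0 := by
        rw [eq_neg_iff_add_eq_zero, ← succ_nsmul]
        have := addOrderOf_nsmul_eq_zero (Affine.Point.some 0 0 h0)
        rw [hP] at this
        exact this
      rw [one_nsmul, e2, Affine.Point.neg_some, Ne, Affine.Point.some.injEq]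
      exact fun h => hp (by linear_combination -h.1))
  interval_cases m <;>
    exact occurs_of_level hg (C₁ := 1) (one_smul _ _) (dvd_refl 3) (by norm_num) hφ [] (by simp)
      (by decide +kernel)

theorem occurs_three_six : Occurs k 3 6 3 := by
  obtain ⟨ω, hω⟩ := exists_omega (k := k)
  set t : RatFunc k := RatFunc.X with ht
  set c := (t ^ 3 - 1) / 9 with hc
  set b := c + c ^ 2 with hb
  have hC := scale_model (b := b) (c := c) (D := 9) (W := modelThreeSix k) (by norm_num)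
    (by rw [hc]; field_simp; simp [modelThreeSix, ht, RatFunc.algebraMap_X, map_ofNat]; ring)
    (by rw [hb, hc]; field_simp; simp [modelThreeSix, ht, RatFunc.algebraMap_X, map_ofNat]; ring)
    (by rw [hb, hc]; field_simp; simp [modelThreeSix, ht, RatFunc.algebraMap_X, map_ofNat]; ring)
    rfl rfl
  haveI := isElliptic_of_model hC (good_three_six k).nz
  set a := (1 + 3 * c) / 3 with ha
  set v := t / 3 with hv
  have hp : a ^ 2 + a * v + v ^ 2 ≠ 0 := by
    have e : a ^ 2 + a * v + v ^ 2 = ((t ^ 3 + 2) ^ 2 + (t ^ 3 + 2) * (3 * t) + 9 * t ^ 2) / 81 := by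
      rw [ha, hv, hc]; field_simp; ring
    rw [e]
    refine div_ne_zero (ne_of_eval ((X ^ 3 + 2) ^ 2 + (X ^ 3 + 2) * (3 * X) + 9 * X ^ 2) 0
      (by norm_num) (by simp [ht, RatFunc.algebraMap_X, map_ofNat])) (by norm_num)
  have hv0 : v ≠ 0 := div_ne_zero RatFunc.X_ne_zero (by norm_num)
  obtain ⟨hR, eR⟩ := hesse_point (W := tateCurve b c) (a := a) (v := v) (r := b) (s := 2 * c)
    (q := b * c) hω hv0 hp
    (by simp only [tateCurve, ha]; field_simp; ring)
    (by simp only [tateCurve, hb]; ring)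
    (by simp only [tateCurve, hb, ha, hv, hc]; field_simp; ring)
    (by simp only [tateCurve, hb]; ring)
    (by simp only [tateCurve, hb]; ring)
  set h0 := tate_origin b c
  have h6 := order_six (h0 := h0) hb
  obtain ⟨h2, e2⟩ := FA.Torsion.tate_two (h0 := h0)
  obtain ⟨φ, hφ⟩ := exists_hom_prime Nat.prime_three eR (show addOrderOf _ = 3 * 2 from h6)
    two_pos (fun i hi => by
      interval_cases i
      · rw [zero_nsmul]; exact Affine.Point.some_ne_zero hR
      · rw [one_nsmul, e2, Ne, Affine.Point.some.injEq]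
        exact fun h => hp (by linear_combination -h.1)
      · have e4 : (2 : ℕ) • ((2 : ℕ) • Affine.Point.some 0 0 h0) =
            -((2 : ℕ) • Affine.Point.some 0 0 h0) := by
          rw [eq_neg_iff_add_eq_zero, ← mul_nsmul', ← add_nsmul]
          have := addOrderOf_nsmul_eq_zero (Affine.Point.some 0 0 h0)
          rw [h6] at this
          exact this
        rw [e4, e2, Affine.Point.neg_some, Ne, Affine.Point.some.injEq]
        exact fun h => hp (by linear_combination -h.1))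
  exact occurs_of_level (good_three_six k) hC (by norm_num) (by norm_num) hφ [] (by simp)
    (by decide +kernel)

/-- The points killed by two of a curve containing `ℤ/4 × ℤ/4` are halved. -/
theorem halved_of_four_four {E : WeierstrassCurve (RatFunc k)} [E.IsElliptic]
    {ψ : ZMod 4 × ZMod 4 →+ E.toAffine.Point} (hψ : Function.Injective ψ) {T : E.toAffine.Point}
    (hT : 2 • T = 0) : ∃ Q, 2 • Q = T := by
  obtain ⟨hf, hle⟩ := natCard_killed_le E two_pos
  let g : {w : ZMod 4 × ZMod 4 // 2 • w = 0} → {P : E.toAffine.Point // 2 • P = 0} :=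
    fun w => ⟨ψ w.1, by rw [← map_nsmul, w.2, map_zero]⟩
  have hg : Function.Injective g := fun u w h => Subtype.ext (hψ (congrArg Subtype.val h))
  have hcard : Nat.card {w : ZMod 4 × ZMod 4 // 2 • w = 0} = 4 := by
    rw [Nat.card_eq_fintype_card]; decide +kernel
  obtain ⟨⟨w, hw⟩, e⟩ := (hg.bijective_of_nat_card_le (hle.trans_eq hcard.symm)).2 ⟨T, hT⟩
  obtain ⟨u, rfl⟩ := (by decide +kernel : ∀ w : ZMod 4 × ZMod 4, 2 • w = 0 → ∃ u, 2 • u = w) w hw
  exact ⟨ψ u, by rw [← map_nsmul]; exact congrArg Subtype.val e⟩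

theorem occurs_two_four {m : ℕ} (hm : 0 < m) (hm2 : m ≤ 2) : Occurs k 2 4 m := by
  have hg := good_of_legendre (k := k) hm
  haveI := genW_isElliptic hg.nz
  set W : WeierstrassCurve k[X] := ⟨0, 1 + (X ^ m) ^ 2, 0, (X ^ m) ^ 2, 0⟩ with hW
  set v : RatFunc k := RatFunc.X ^ m with hv
  have hgen : genW W = ⟨0, 1 + v ^ 2, 0, v ^ 2, 0⟩ := by
    ext <;> simp [genW, hW, hv, WeierstrassCurve.map, RatFunc.algebraMap_X]
  have hv0 : v ≠ 0 := pow_ne_zero _ RatFunc.X_ne_zero
  have hv1 : 1 + v ≠ 0 := ne_of_eval (1 + X ^ m) 0 (by simp [show m ≠ 0 by omega])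
    (by simp [hv, RatFunc.algebraMap_X])
  have hQ : (genW W).toAffine.Nonsingular v (v * (1 + v)) := equation_of (by simp [hgen]; ring)
  have h0 : (genW W).toAffine.Nonsingular 0 0 := equation_of (by simp [hgen])
  have h1 : (genW W).toAffine.Nonsingular (-1) 0 := equation_of (by simp [hgen]; ring)
  obtain ⟨h2, e2⟩ := two_nsmul_eq_some (h := hQ) (ℓ := 1 + v) (x₃ := 0) (y₃ := 0)
    (by simp [hgen, hv0, hv1]) (by simp [hgen]; ring)
    (by simp [hgen, Affine.addX]; ring)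
    (by simp [hgen, Affine.addX, Affine.addY, Affine.negAddY, Affine.negY]; ring)
  have hz : 2 • Affine.Point.some (W' := (genW W).toAffine) 0 0 h2 = 0 :=
    two_nsmul_eq_zero (by simp [hgen])
  have hP : addOrderOf (Affine.Point.some _ _ hQ) = 2 * 2 := by
    haveI := Fact.mk Nat.prime_two
    refine (addOrderOf_eq_prime_pow (p := 2) (n := 1) ?_ ?_).trans (by norm_num)
    · rw [pow_one, e2]; exact Affine.Point.some_ne_zero h2
    · rw [show 2 ^ (1 + 1) = 2 * 2 from rfl, mul_nsmul, e2, hz]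
  obtain ⟨φ, hφ⟩ := exists_hom_prime Nat.prime_two (T := Affine.Point.some _ _ h1)
    (two_nsmul_eq_zero (by simp [hgen])) hP two_pos (fun i hi => by
      interval_cases i
      · rw [zero_nsmul]; exact Affine.Point.some_ne_zero h1
      rw [one_nsmul, e2, Ne, Affine.Point.some.injEq]
      exact fun h => one_ne_zero (α := RatFunc k) (by linear_combination -h.1))
  interval_cases m
  · exact occurs_of_level hg (C₁ := 1) (one_smul _ _) (by norm_num) (by norm_num) hφ [] (by simp)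
      (by decide +kernel)
  refine occurs_of_level hg (C₁ := 1) (one_smul _ _) (by norm_num) (by norm_num) hφ [(4, 4)] ?_
    (by decide +kernel)
  intro q hq
  obtain rfl : q = (4, 4) := List.mem_singleton.mp hq
  intro ψ hψ
  obtain ⟨Q, hQ'⟩ := halved_of_four_four hψ
    (show 2 • Affine.Point.some _ _ h1 = 0 from two_nsmul_eq_zero (by simp [hgen]))
  have hsq := isSquare_of_halved (by simp [hgen]) (by simp [hgen]) hQ'
  refine not_isSquare_of_simple_root (q := 1 - (X : k[X]) ^ 4) (t := 1) (by simp) (by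
    simp [derivative_pow]) ?_
  simp only [hgen] at hsq
  exact Eq.mp (congrArg IsSquare (by simp [hv, RatFunc.algebraMap_X]; ring)) hsq

theorem occurs_four_four : Occurs k 4 4 2 := by
  obtain ⟨i, hi⟩ := exists_sqrt_neg_one (k := k)
  have hg := good_four_four (k := k)
  haveI := genW_isElliptic hg.nz
  set t : RatFunc k := RatFunc.X with ht
  set u := t ^ 2 - 1 with hu
  set w := 2 * t with hw
  set v := t ^ 2 + 1 with hv
  have hgen : genW (modelFourFour k) = ⟨0, u ^ 2 + v ^ 2, 0, (u * v) ^ 2, 0⟩ := by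
    ext <;> simp [genW, modelFourFour, hu, hv, ht, WeierstrassCurve.map, RatFunc.algebraMap_X]
  have huv : v ^ 2 = u ^ 2 + w ^ 2 := by rw [hu, hv, hw]; ring
  have hu0 : u ≠ 0 := ne_of_eval (X ^ 2 - 1) 0 (by norm_num)
    (by simp [hu, ht, RatFunc.algebraMap_X])
  have hv0 : v ≠ 0 := ne_of_eval (X ^ 2 + 1) 0 (by norm_num)
    (by simp [hv, ht, RatFunc.algebraMap_X])
  have huv0 : u + v ≠ 0 := by
    rw [hu, hv, show t ^ 2 - 1 + (t ^ 2 + 1) = 2 * t ^ 2 by ring]
    exact mul_ne_zero two_ne_zero (pow_ne_zero _ RatFunc.X_ne_zero)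
  have hw0 : w ≠ 0 := mul_ne_zero two_ne_zero RatFunc.X_ne_zero
  have hiw : i * w - u ≠ 0 := fun e => by
    have h : u ^ 2 + w ^ 2 = 0 := by linear_combination w ^ 2 * hi - (i * w + u) * e
    rw [← huv] at h
    exact hv0 (eq_zero_of_pow_eq_zero h)
  have hA : (genW (modelFourFour k)).toAffine.Nonsingular (u * v) (u * v * (u + v)) :=
    equation_of (by simp [hgen]; ring)
  have hB : (genW (modelFourFour k)).toAffine.Nonsingular (-u ^ 2 + i * u * w)
      (u * w * (i * w - u)) := equation_of (by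
    simp [hgen, mul_pow, huv]
    linear_combination (-u ^ 3 * w ^ 2 * (i * w - u)) * hi)
  obtain ⟨h2, e2⟩ := two_nsmul_eq_some (h := hA) (ℓ := u + v) (x₃ := 0) (y₃ := 0)
    (by simp [hgen, hu0, hv0, huv0]) (by simp [hgen]; ring)
    (by simp [hgen, Affine.addX]; ring)
    (by simp [hgen, Affine.addX, Affine.addY, Affine.negAddY, Affine.negY]; ring)
  obtain ⟨h2', e2'⟩ := two_nsmul_eq_some (h := hB) (ℓ := i * u + w) (x₃ := -u ^ 2) (y₃ := 0)
    (by simp [hgen, hu0, hw0, hiw]) (by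
      simp [hgen, mul_pow, huv]
      linear_combination (-(u ^ 2 * w ^ 2)) * hi)
    (by simp [hgen, Affine.addX, huv]; linear_combination u ^ 2 * hi)
    (by simp [hgen, Affine.addX, Affine.addY, Affine.negAddY, Affine.negY, huv]
        linear_combination (-(i * u ^ 3)) * hi)
  have hA4 : 4 • Affine.Point.some _ _ hA = 0 := by
    rw [show 4 = 2 * 2 from rfl, mul_nsmul, e2]; exact two_nsmul_eq_zero (by simp [hgen])
  have hB4 : 4 • Affine.Point.some _ _ hB = 0 := by
    rw [show 4 = 2 * 2 from rfl, mul_nsmul, e2']; exact two_nsmul_eq_zero (by simp [hgen])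
  obtain ⟨φ, hφ⟩ := exists_hom_four hA4 hB4 (e2 ▸ Affine.Point.some_ne_zero h2)
    (e2' ▸ Affine.Point.some_ne_zero h2') (by
      rw [e2, e2', Ne, Affine.Point.some.injEq]
      exact fun h => pow_ne_zero 2 hu0 (by linear_combination h.1))
  exact occurs_of_level hg (C₁ := 1) (one_smul _ _) (dvd_refl 4) (by norm_num) hφ [] (by simp)
    (by decide +kernel)

end FA.CoxParry.Realise
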