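import Fermat.Agent.CoxParry.Realise.Five
import Fermat.Agent.CoxParry.Realise.Special

/-!
# Exactly nineteen torsion groups, nine at level one and thirteen at level two
-/

set_option autoImplicit false
set_option linter.unusedSectionVars false
set_option linter.style.haveILetI false

noncomputable section

open Polynomial WeierstrassCurve FA.SzpiroLine
open scoped Classical

namespace FA.CoxParry.Realise

variable {k : Type*} [Field k] [CharZero k] [IsAlgClosed k]

/-- Five groups at every positive level. -/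
theorem occurs_every_level {m : ℕ} (hm : 0 < m) {p : ℕ × ℕ}
    (hp : p ∈ [(1, 1), (1, 2), (1, 3), (1, 4), (2, 2)]) : Occurs k p.1 p.2 m := by
  simp only [List.mem_cons, List.not_mem_nil, or_false] at hp
  rcases hp with rfl | rfl | rfl | rfl | rfl
  exacts [occurs_one_one hm, occurs_one_two hm, occurs_one_three hm, occurs_one_four hm,
    occurs_two_two hm]

theorem occurs_level_one {p : ℕ × ℕ} (hp : p ∈ groupsUpTo 1) : Occurs k p.1 p.2 1 := by
  rw [show groupsUpTo 1 = [(1, 1), (1, 2), (1, 3), (1, 4), (1, 5), (1, 6), (2, 2), (2, 4), (3, 3)]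
    by decide +kernel] at hp
  simp only [List.mem_cons, List.not_mem_nil, or_false] at hp
  rcases hp with rfl | rfl | rfl | rfl | rfl | rfl | rfl | rfl | rfl
  exacts [occurs_one_one one_pos, occurs_one_two one_pos, occurs_one_three one_pos,
    occurs_one_four one_pos, occurs_one_five_one, occurs_one_six_one, occurs_two_two one_pos,
    occurs_two_four one_pos (by norm_num), occurs_three_three one_pos (by norm_num)]

theorem occurs_level_two {p : ℕ × ℕ} (hp : p ∈ groupsUpTo 2) : Occurs k p.1 p.2 2 := by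
  rw [show groupsUpTo 2 = [(1, 1), (1, 2), (1, 3), (1, 4), (1, 5), (1, 6), (1, 7), (1, 8), (2, 2),
    (2, 4), (2, 6), (3, 3), (4, 4)] by decide +kernel] at hp
  simp only [List.mem_cons, List.not_mem_nil, or_false] at hp
  rcases hp with rfl | rfl | rfl | rfl | rfl | rfl | rfl | rfl | rfl | rfl | rfl | rfl | rfl
  exacts [occurs_one_one two_pos, occurs_one_two two_pos, occurs_one_three two_pos,
    occurs_one_four two_pos, occurs_one_five_two, occurs_one_six_two, occurs_one_seven,
    occurs_one_eight, occurs_two_two two_pos, occurs_two_four two_pos le_rfl, occurs_two_six,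
    occurs_three_three two_pos le_rfl, occurs_four_four]

/-- The ten larger groups at their least level. -/
theorem occurs_least_level {q : ℕ × ℕ × ℕ} (hq : q ∈ levelList) : Occurs k q.1 q.2.1 q.2.2 := by
  simp only [levelList, List.mem_cons, List.not_mem_nil, or_false] at hq
  rcases hq with rfl | rfl | rfl | rfl | rfl | rfl | rfl | rfl | rfl | rfl
  exacts [occurs_one_seven, occurs_one_eight, occurs_one_nine, occurs_one_ten, occurs_one_twelve,
    occurs_two_six, occurs_two_eight, occurs_three_six, occurs_four_four, occurs_five_five]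

theorem occurs_nineteen {p : ℕ × ℕ} (hp : p ∈ nineteen) : ∃ m, Occurs k p.1 p.2 m := by
  have h : ∀ p ∈ nineteen, p ∈ groupsUpTo 1 ∨ ∃ q ∈ levelList, p = (q.1, q.2.1) := by
    decide +kernel
  rcases h p hp with h | ⟨q, hq, rfl⟩
  · exact ⟨1, occurs_level_one h⟩
  · exact ⟨q.2.2, occurs_least_level hq⟩

/-- **Exactly nineteen.** -/
theorem torsion_group_iff (G : Type*) [AddCommGroup G] :
    (∃ (E : WeierstrassCurve (RatFunc k)) (_ : E.IsElliptic), NotConst E ∧
      Nonempty (AddCommGroup.torsion E.toAffine.Point ≃+ G)) ↔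
    ∃ p ∈ nineteen, Nonempty (G ≃+ ZMod p.1 × ZMod p.2) := by
  constructor
  · rintro ⟨E, _, hE, ⟨e⟩⟩
    obtain ⟨p, hp, ⟨e'⟩⟩ := torsion_classification hE
    exact ⟨p, hp, ⟨e.symm.trans e'⟩⟩
  · rintro ⟨p, hp, ⟨e⟩⟩
    obtain ⟨m, E, hE, hn, -, ⟨e'⟩⟩ := occurs_nineteen (k := k) hp
    exact ⟨E, hE, hn, ⟨e'.trans e.symm⟩⟩

/-- **The groups at level one or two.** -/
theorem torsion_group_level_iff {m : ℕ} (hm : m = 1 ∨ m = 2) (G : Type*) [AddCommGroup G] :
    (∃ (E : WeierstrassCurve (RatFunc k)) (_ : E.IsElliptic), NotConst E ∧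
      (∃ (A B : k[X]) (C₀ : VariableChange (RatFunc k)), C₀ • E = shortEq A B ∧ Minimal A B m) ∧
      Nonempty (AddCommGroup.torsion E.toAffine.Point ≃+ G)) ↔
    ∃ p ∈ groupsUpTo m, Nonempty (G ≃+ ZMod p.1 × ZMod p.2) := by
  constructor
  · rintro ⟨E, _, hE, ⟨A, B, C₀, hC, hmin⟩, ⟨e⟩⟩
    obtain ⟨p, hp, ⟨e'⟩⟩ := torsion_of_level hE hC hmin
    exact ⟨p, hp, ⟨e.symm.trans e'⟩⟩
  · rintro ⟨p, hp, ⟨e⟩⟩
    obtain ⟨E, hE, hn, hmod, ⟨e'⟩⟩ : Occurs k p.1 p.2 m := by
      rcases hm with rfl | rfl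
      exacts [occurs_level_one hp, occurs_level_two hp]
    exact ⟨E, hE, hn, hmod, ⟨e'.trans e.symm⟩⟩

end FA.CoxParry.Realise
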