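import Fermat.Agent.CoxParry.Realise.Tools

/-!
# Kubert's parametrisations give the origin the orders `5`, `6`, `7`, `8`, `9`, `10`, `12`
-/

set_option autoImplicit false
set_option linter.unusedSectionVars false
set_option linter.style.haveILetI false

noncomputable section

open WeierstrassCurve
open FA.Thirteen (tateCurve add_eq_some)
open FA.Torsion (tate_neg tate_two tate_three tate_four)
open scoped Classical

namespace FA.CoxParry.Realise

variable {K : Type*} [Field K] [DecidableEq K] {b c : K} [(tateCurve b c).IsElliptic]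
  {h0 : (tateCurve b c).toAffine.Nonsingular 0 0}

theorem order_five (hb : b = c) : addOrderOf (Affine.Point.some 0 0 h0) = 5 := by
  obtain ⟨h2, e2⟩ := tate_two (h0 := h0)
  obtain ⟨h3, e3⟩ := tate_three (h0 := h0)
  refine addOrderOf_eq_prime (hp := ⟨by norm_num⟩) ?_ (Affine.Point.some_ne_zero h0)
  rw [show 5 = 3 + 2 from rfl, add_nsmul, ← eq_neg_iff_add_eq_zero, e3, e2,
    Affine.Point.neg_some, Affine.Point.some.injEq]
  exact ⟨hb.symm, by simp only [tateCurve, Affine.negY, hb]; ring⟩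

theorem order_six (hb : b = c + c ^ 2) : addOrderOf (Affine.Point.some 0 0 h0) = 6 := by
  obtain ⟨h2, e2⟩ := tate_two (h0 := h0)
  obtain ⟨h3, e3⟩ := tate_three (h0 := h0)
  refine addOrderOf_eq_of_nsmul_and_div_prime_nsmul (by norm_num) ?_ fun p hp hdvd => ?_
  · rw [show 6 = 3 * 2 from rfl, mul_nsmul, e3]
    exact two_nsmul_eq_zero (by simp only [tateCurve, hb]; ring)
  · have h6 : p ∈ ({2, 3} : Finset ℕ) := by
      have := Nat.le_of_dvd (by norm_num) hdvd
      interval_cases p <;> revert hp hdvd <;> decide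
    simp only [Finset.mem_insert, Finset.mem_singleton] at h6
    rcases h6 with rfl | rfl
    · exact e3 ▸ Affine.Point.some_ne_zero h3
    · exact e2 ▸ Affine.Point.some_ne_zero h2

theorem order_seven {d : K} (hb : b = c * d) (hc : c = d * (d - 1)) (hc0 : c ≠ 0) :
    addOrderOf (Affine.Point.some 0 0 h0) = 7 := by
  obtain ⟨h3, e3⟩ := tate_three (h0 := h0)
  obtain ⟨h4, e4⟩ := tate_four (h0 := h0) hc0
  have hbc : b / c = d := by rw [hb, mul_div_assoc, mul_div_cancel₀ _ hc0]
  refine addOrderOf_eq_prime (hp := ⟨by norm_num⟩) ?_ (Affine.Point.some_ne_zero h0)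
  rw [show 7 = 4 + 3 from rfl, add_nsmul, ← eq_neg_iff_add_eq_zero, e3, e4,
    Affine.Point.neg_some, Affine.Point.some.injEq]
  constructor
  · rw [hbc, hc]
  · rw [hbc]; simp only [tateCurve, Affine.negY, hb, hc]; ring

theorem order_eight {d : K} (hb : b = c * d) (hbd : b = (2 * d - 1) * (d - 1)) (hc0 : c ≠ 0) :
    addOrderOf (Affine.Point.some 0 0 h0) = 8 := by
  obtain ⟨h4, e4⟩ := tate_four (h0 := h0) hc0
  have hbc : b / c = d := by rw [hb, mul_div_assoc, mul_div_cancel₀ _ hc0]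
  simp only [hbc] at h4 e4
  refine addOrderOf_eq_of_nsmul_and_div_prime_nsmul (by norm_num) ?_ fun p hp hdvd => ?_
  · rw [show 8 = 4 * 2 from rfl, mul_nsmul, e4]
    exact two_nsmul_eq_zero (by
      simp only [tateCurve]
      linear_combination d * hbd - (d + 1) * hb)
  · obtain rfl : p = 2 := (Nat.prime_dvd_prime_iff_eq hp Nat.prime_two).mp
      (hp.dvd_of_dvd_pow (show p ∣ 2 ^ 3 from hdvd))
    exact e4 ▸ Affine.Point.some_ne_zero h4

theorem order_nine {d f : K} (hb : b = c * d) (hc : c = f * (d - 1)) (hd : d = f * (f - 1) + 1)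
    (hc0 : c ≠ 0) (hd1 : d - 1 ≠ 0) : addOrderOf (Affine.Point.some 0 0 h0) = 9 := by
  obtain ⟨h3, e3⟩ := tate_three (h0 := h0)
  obtain ⟨h4, e4⟩ := tate_four (h0 := h0) hc0
  obtain ⟨h5, e5⟩ := tate_five (h0 := h0) hb hc hc0 hd1
  have hbc : b / c = d := by rw [hb, mul_div_assoc, mul_div_cancel₀ _ hc0]
  refine addOrderOf_eq_of_nsmul_and_div_prime_nsmul (by norm_num) ?_ fun p hp hdvd => ?_
  · rw [show 9 = 4 + 5 from rfl, add_nsmul, ← eq_neg_iff_add_eq_zero, e4, e5,
      Affine.Point.neg_some, Affine.Point.some.injEq]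
    constructor
    · rw [hbc, hd]; ring
    · rw [hbc]; simp only [tateCurve, Affine.negY, hb, hc, hd]; ring
  · obtain rfl : p = 3 := (Nat.prime_dvd_prime_iff_eq hp Nat.prime_three).mp
      (hp.dvd_of_dvd_pow (show p ∣ 3 ^ 2 from hdvd))
    exact e3 ▸ Affine.Point.some_ne_zero h3

theorem order_ten {d f : K} (hb : b = c * d) (hc : c = f * (d - 1))
    (hd : d * (f - (f - 1) ^ 2) = f ^ 2) (hc0 : c ≠ 0) (hd1 : d - 1 ≠ 0) :
    addOrderOf (Affine.Point.some 0 0 h0) = 10 := by
  obtain ⟨h2, e2⟩ := tate_two (h0 := h0)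
  obtain ⟨h5, e5⟩ := tate_five (h0 := h0) hb hc hc0 hd1
  refine addOrderOf_eq_of_nsmul_and_div_prime_nsmul (by norm_num) ?_ fun p hp hdvd => ?_
  · rw [show 10 = 5 * 2 from rfl, mul_nsmul, e5]
    exact two_nsmul_eq_zero (by
      simp only [tateCurve, hb, hc]
      linear_combination (d * f) * hd)
  · have h10 : p ∈ ({2, 5} : Finset ℕ) := by
      have := Nat.le_of_dvd (by norm_num) hdvd
      interval_cases p <;> revert hp hdvd <;> decide
    simp only [Finset.mem_insert, Finset.mem_singleton] at h10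
    rcases h10 with rfl | rfl
    · exact e5 ▸ Affine.Point.some_ne_zero h5
    · exact e2 ▸ Affine.Point.some_ne_zero h2

theorem order_twelve {d f τ : K} (hb : b = c * d) (hc : c = f * (d - 1))
    (hτ : τ * (1 - f) = d - f) (hc0 : c ≠ 0) (hd1 : d - 1 ≠ 0) (hf1 : f - 1 ≠ 0)
    (hf0 : f ≠ 0)
    (h6 : ∀ x y : K, x = f ^ 2 * τ ^ 2 - (1 - c) * (f * τ) + b - d * f * (f - 1) →
      y = -((-(f * τ)) * (x - d * f * (f - 1)) + d * f ^ 2 * (d - f)) - (1 - c) * x + b →
      2 * y + (1 - c) * x + -b = 0) :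
    addOrderOf (Affine.Point.some 0 0 h0) = 12 := by
  obtain ⟨h4, e4⟩ := tate_four (h0 := h0) hc0
  obtain ⟨h5, e5⟩ := tate_five (h0 := h0) hb hc hc0 hd1
  have hd0 : d ≠ 0 := fun e => FA.Torsion.tate_b_ne_zero b c (by rw [hb, e, mul_zero])
  obtain ⟨h6', e6⟩ := add_eq_some (W := tateCurve b c) (h₁ := h5) (h₂ := h0) (ℓ := -(f * τ))
    (x₃ := (tateCurve b c).toAffine.addX (d * f * (f - 1)) 0 (-(f * τ)))
    (y₃ := (tateCurve b c).toAffine.addY (d * f * (f - 1)) 0 (d * f ^ 2 * (d - f)) (-(f * τ)))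
    (mul_ne_zero (mul_ne_zero hd0 hf0) hf1) (by linear_combination (d * f ^ 2) * hτ) rfl rfl
  have e6' : 6 • Affine.Point.some 0 0 h0 = _ := (succ_nsmul _ 5).trans ((congrArg (· + _) e5).trans e6)
  refine addOrderOf_eq_of_nsmul_and_div_prime_nsmul (by norm_num) ?_ fun p hp hdvd => ?_
  · rw [show 12 = 6 * 2 from rfl, mul_nsmul, e6']
    refine two_nsmul_eq_zero ?_
    simp only [tateCurve, Affine.addX, Affine.addY, Affine.negAddY, Affine.negY]
    have := h6 _ _ rfl rfl
    linear_combination this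
  · have h12 : p ∈ ({2, 3} : Finset ℕ) := by
      have := Nat.le_of_dvd (by norm_num) hdvd
      interval_cases p <;> revert hp hdvd <;> decide
    simp only [Finset.mem_insert, Finset.mem_singleton] at h12
    rcases h12 with rfl | rfl
    · exact e6' ▸ Affine.Point.some_ne_zero h6'
    · exact e4 ▸ Affine.Point.some_ne_zero h4

end FA.CoxParry.Realise
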