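import Fermat.Agent.CoxParry.Realise.Basic

/-!
# Realising the torsion groups: points of given order and their exclusion

Tangent and chord tests for small orders, the multiples of the origin of Tate's normal form, and
the exclusions: a model additive at infinity has no point of order at least five, full two-torsion
makes the discriminant a square, a halved point of order two gives a square.
-/

set_option autoImplicit false
set_option linter.unusedSectionVars false
set_option linter.style.haveILetI false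

noncomputable section

open Polynomial WeierstrassCurve FA.SzpiroLine FA.LevinTorsion FA.NeronSpecialisation
open FA.Thirteen (tateCurve add_eq_some)
open FA.Torsion (cyclicHom cyclicHom_apply)
open scoped Classical

namespace FA.CoxParry.Realise

section Field

variable {K : Type*} [Field K] [DecidableEq K] {W : WeierstrassCurve K}

/-- Doubling by the tangent of slope `ℓ`. -/
theorem two_nsmul_eq_some {x y ℓ x₃ y₃ : K} {h : W.toAffine.Nonsingular x y}
    (hy : 2 * y + W.a₁ * x + W.a₃ ≠ 0)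
    (hl : ℓ * (2 * y + W.a₁ * x + W.a₃) = 3 * x ^ 2 + 2 * W.a₂ * x + W.a₄ - W.a₁ * y)
    (h3 : W.toAffine.addX x x ℓ = x₃) (h4 : W.toAffine.addY x x y ℓ = y₃) :
    ∃ h₃, 2 • Affine.Point.some x y h = (Affine.Point.some x₃ y₃ h₃ : W.toAffine.Point) := by
  have hne : y ≠ W.toAffine.negY x y := fun e => hy (by
    simp only [Affine.negY] at e; linear_combination e)
  have e : W.toAffine.slope x x y y = ℓ := by
    rw [Affine.slope_of_Y_ne rfl hne, div_eq_iff (sub_ne_zero.mpr hne)]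
    simp only [Affine.negY]; linear_combination -hl
  subst h3 h4
  rw [← e, two_nsmul]
  exact ⟨_, Affine.Point.add_self_of_Y_ne hne⟩

/-- A point of order two. -/
theorem two_nsmul_eq_zero {x y : K} {h : W.toAffine.Nonsingular x y}
    (hy : 2 * y + W.a₁ * x + W.a₃ = 0) : 2 • Affine.Point.some x y h = 0 := by
  rw [two_nsmul]
  exact Affine.Point.add_self_of_Y_eq (by simp only [Affine.negY]; linear_combination hy)

theorem equation_of {x y : K} [W.IsElliptic]
    (h : y ^ 2 + W.a₁ * x * y + W.a₃ * y = x ^ 3 + W.a₂ * x ^ 2 + W.a₄ * x + W.a₆) :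
    W.toAffine.Nonsingular x y :=
  Affine.equation_iff_nonsingular.mp ((Affine.equation_iff _ _).mpr h)

/-- A flex. -/
theorem three_nsmul_eq_zero {x y ℓ : K} {h : W.toAffine.Nonsingular x y}
    (hy : 2 * y + W.a₁ * x + W.a₃ ≠ 0)
    (hl : ℓ * (2 * y + W.a₁ * x + W.a₃) = 3 * x ^ 2 + 2 * W.a₂ * x + W.a₄ - W.a₁ * y)
    (h3 : ℓ ^ 2 + W.a₁ * ℓ - W.a₂ - 3 * x = 0) : 3 • Affine.Point.some x y h = 0 := by
  have ex : W.toAffine.addX x x ℓ = x := by simp only [Affine.addX]; linear_combination h3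
  have ey : W.toAffine.addY x x y ℓ = W.toAffine.negY x y := by
    simp only [Affine.addY, Affine.negAddY, ex, sub_self, mul_zero, zero_add]
  obtain ⟨h₂, e⟩ := two_nsmul_eq_some (h := h) hy hl ex ey
  rw [succ_nsmul, e, ← eq_neg_iff_add_eq_zero, Affine.Point.neg_some]

/-- A flex with horizontal tangent at the origin. -/
theorem three_nsmul_origin {h : W.toAffine.Nonsingular 0 0} (h2 : W.a₂ = 0) (h4 : W.a₄ = 0)
    (h3 : W.a₃ ≠ 0) : 3 • Affine.Point.some 0 0 h = 0 :=
  three_nsmul_eq_zero (ℓ := 0) (by simpa using h3) (by simp [h4]) (by simp [h2])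

/-- The abscissa of a point killed by three. -/
theorem root_of_three_nsmul {x y : K} {h : W.toAffine.Nonsingular x y}
    (h3 : 3 • Affine.Point.some x y h = 0) :
    3 * x ^ 4 + W.b₂ * x ^ 3 + 3 * W.b₄ * x ^ 2 + 3 * W.b₆ * x + W.b₈ = 0 := by
  have hy : y ≠ W.toAffine.negY x y := fun e => by
    rw [succ_nsmul, two_nsmul, Affine.Point.add_self_of_Y_eq e, zero_add] at h3
    exact Affine.Point.some_ne_zero h h3
  have e2 := Affine.Point.add_self_of_Y_ne (h₁ := h) hy
  rw [succ_nsmul, two_nsmul, e2, ← eq_neg_iff_add_eq_zero, Affine.Point.neg_some,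
    Affine.Point.some.injEq] at h3
  have hx := h3.1
  have hne : y - W.toAffine.negY x y ≠ 0 := sub_ne_zero.mpr hy
  set ℓ := W.toAffine.slope x x y y with hℓ
  have hl : ℓ * (y - W.toAffine.negY x y) = 3 * x ^ 2 + 2 * W.a₂ * x + W.a₄ - W.a₁ * y := by
    rw [hℓ, Affine.slope_of_Y_ne rfl hy, div_mul_cancel₀ _ hne]
  simp only [Affine.addX, Affine.negY] at hx hl
  have he := (Affine.equation_iff x y).mp h.1
  simp only [b₂, b₄, b₆, b₈]
  linear_combination -(2 * y + W.a₁ * x + W.a₃) ^ 2 * hx +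
    (ℓ * (2 * y + W.a₁ * x + W.a₃) + (3 * x ^ 2 + 2 * W.a₂ * x + W.a₄ - W.a₁ * y) +
      W.a₁ * (2 * y + W.a₁ * x + W.a₃)) * hl - (4 * W.a₂ + W.a₁ ^ 2 + 12 * x) * he

/-- A halved point of order two `(e, 0)` on `y² = f x` makes `f' e` a square. -/
theorem isSquare_of_halved [NeZero (2 : K)] (h₁ : W.a₁ = 0) (h₃ : W.a₃ = 0) {e : K}
    {h0 : W.toAffine.Nonsingular e 0} {Q : W.toAffine.Point} (hQ : 2 • Q = .some e 0 h0) :
    IsSquare (3 * e ^ 2 + 2 * W.a₂ * e + W.a₄) := by
  rcases Q with _ | ⟨x, y, h⟩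
  · exact absurd hQ.symm (by rw [← Affine.Point.zero_def, nsmul_zero]; exact
      Affine.Point.some_ne_zero h0)
  by_cases hy : y = 0
  · rw [two_nsmul_eq_zero (by simp [hy, h₁, h₃])] at hQ
    exact absurd hQ.symm (Affine.Point.some_ne_zero h0)
  have hd : y - W.toAffine.negY x y = 2 * y := by simp only [Affine.negY, h₁, h₃]; ring
  have hne : y ≠ W.toAffine.negY x y := fun e => mul_ne_zero two_ne_zero hy (by
    rw [← hd, ← e, sub_self])
  rw [two_nsmul, Affine.Point.add_self_of_Y_ne hne, Affine.Point.some.injEq] at hQ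
  have hx := hQ.1
  set ℓ := W.toAffine.slope x x y y with hℓ
  have hl : ℓ * (2 * y) = 3 * x ^ 2 + 2 * W.a₂ * x + W.a₄ := by
    rw [hℓ, Affine.slope_of_Y_ne rfl hne, hd, div_mul_cancel₀ _ (mul_ne_zero two_ne_zero hy)]
    simp only [h₁]
    ring
  simp only [Affine.addX, h₁] at hx
  have he := (Affine.equation_iff x y).mp h.1
  have he0 := (Affine.equation_iff e 0).mp h0.1
  simp only [h₁, h₃] at he he0
  refine ⟨x - e, ?_⟩
  have hsq : ((x - e) * (x - e) - (3 * e ^ 2 + 2 * W.a₂ * e + W.a₄)) ^ 2 = 0 := by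
    linear_combination (4 * y ^ 2) * hx - (2 * y * ℓ + (3 * x ^ 2 + 2 * W.a₂ * x + W.a₄)) * hl +
      4 * (W.a₂ + 2 * x + e) * he - 4 * (W.a₂ + 2 * x + e) * he0
  exact (sub_eq_zero.mp (eq_zero_of_pow_eq_zero hsq)).symm

variable {b c d f : K} [(tateCurve b c).IsElliptic]
  {h0 : (tateCurve b c).toAffine.Nonsingular 0 0}

theorem tate_origin (b c : K) [(tateCurve b c).IsElliptic] :
    (tateCurve b c).toAffine.Nonsingular 0 0 :=
  equation_of (by simp [tateCurve])

/-- `5 P` on Tate's normal form with `b = c d`, `c = f (d - 1)`. -/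
theorem tate_five (hb : b = c * d) (hc : c = f * (d - 1)) (hc0 : c ≠ 0) (hd1 : d - 1 ≠ 0) :
    ∃ h, 5 • Affine.Point.some 0 0 h0 =
      Affine.Point.some (W' := (tateCurve b c).toAffine) (d * f * (f - 1)) (d * f ^ 2 * (d - f)) h := by
  obtain ⟨h4, e4⟩ := FA.Torsion.tate_four (b := b) (c := c) (h0 := h0) hc0
  have hbc : b / c = d := by rw [hb]; field_simp
  simp only [hbc] at h4 e4
  have hd0 : d ≠ 0 := fun e => FA.Torsion.tate_b_ne_zero b c (by rw [hb, e, mul_zero])
  obtain ⟨h5, e5⟩ := add_eq_some (W := tateCurve b c) (h₁ := h4) (h₂ := h0)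
    (ℓ := d * (f - 1)) (x₃ := d * f * (f - 1)) (y₃ := d * f ^ 2 * (d - f))
    (mul_ne_zero hd0 hd1) (by rw [hc]; ring)
    (by simp [tateCurve, Affine.addX, hb, hc]; ring)
    (by simp [tateCurve, Affine.addY, Affine.negAddY, Affine.negY, Affine.addX, hb, hc]; ring)
  exact ⟨h5, by rw [succ_nsmul, e4, e5]⟩

end Field

section Groups

variable {G : Type*} [AddCommGroup G] {a b : ℕ} {T P : G}

/-- Two points give a homomorphism. -/
theorem exists_hom (hT : a • T = 0) (hP : b • P = 0) (ha : 0 < a) (hb : 0 < b)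
    (h : ∀ i < a, ∀ j < b, i • T + j • P = 0 → i = 0 ∧ j = 0) :
    ∃ φ : ZMod a × ZMod b →+ G, Function.Injective φ := by
  haveI : NeZero a := ⟨ha.ne'⟩
  haveI : NeZero b := ⟨hb.ne'⟩
  refine ⟨(cyclicHom T hT).coprod (cyclicHom P hP), (injective_iff_map_eq_zero _).mpr fun x hx => ?_⟩
  rw [AddMonoidHom.coprod_apply, cyclicHom_apply, cyclicHom_apply] at hx
  obtain ⟨h1, h2⟩ := h _ (ZMod.val_lt _) _ (ZMod.val_lt _) hx
  exact Prod.ext ((ZMod.val_eq_zero _).mp h1) ((ZMod.val_eq_zero _).mp h2)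

theorem exists_hom_cyclic (hP : addOrderOf P = b) (hb : 0 < b) :
    ∃ φ : ZMod 1 × ZMod b →+ G, Function.Injective φ :=
  exists_hom (T := 0) (nsmul_zero 1) (hP ▸ addOrderOf_nsmul_eq_zero P) one_pos hb
    fun i hi j hj h => by
      rw [nsmul_zero, zero_add, ← addOrderOf_dvd_iff_nsmul_eq_zero, hP] at h
      exact ⟨by omega, Nat.eq_zero_of_dvd_of_lt h hj⟩

/-- An independent point of prime order. -/
theorem exists_hom_prime (ha : a.Prime) (hT : a • T = 0) (hP : addOrderOf P = a * b) (hb : 0 < b)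
    (h : ∀ i < a, T ≠ i • (b • P)) :
    ∃ φ : ZMod a × ZMod (a * b) →+ G, Function.Injective φ := by
  refine exists_hom hT (hP ▸ addOrderOf_nsmul_eq_zero P) ha.pos (Nat.mul_pos ha.pos hb)
    fun i hi j hj hij => ?_
  rcases Nat.eq_zero_or_pos i with rfl | hi0
  · rw [zero_nsmul, zero_add, ← addOrderOf_dvd_iff_nsmul_eq_zero, hP] at hij
    exact ⟨rfl, Nat.eq_zero_of_dvd_of_lt hij hj⟩
  exfalso
  obtain ⟨i', hi'⟩ := Nat.exists_mul_mod_eq_one_of_coprime
    ((Nat.coprime_of_lt_prime hi0.ne' hi ha).symm) ha.one_lt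
  have hai : a • (j • P) = 0 := by
    have h' := congrArg (fun x => a • x) hij
    simp only [nsmul_add, nsmul_zero] at h'
    rwa [← mul_nsmul, mul_nsmul', hT, nsmul_zero, zero_add] at h'
  rw [← mul_nsmul', ← addOrderOf_dvd_iff_nsmul_eq_zero, hP] at hai
  obtain ⟨l, hl⟩ : b ∣ j := Nat.dvd_of_mul_dvd_mul_left ha.pos hai
  have e : T = -((i' * l) • (b • P)) := by
    have h' := congrArg (fun x => i' • x) hij
    simp only [nsmul_add, nsmul_zero, ← mul_nsmul'] at h'
    rw [← Nat.mod_add_div (i' * i) a, mul_comm i' i, hi'.2, add_nsmul, one_nsmul, mul_nsmul, hT,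
      nsmul_zero, add_zero, hl, ← mul_assoc, mul_comm (i' * b) l, ← mul_assoc, mul_nsmul'] at h'
    rw [eq_neg_iff_add_eq_zero, mul_comm i' l]
    exact h'
  obtain ⟨q, hq⟩ : ∃ q, -((i' * l) • (b • P)) = q • (b • P) := ⟨(a - 1) * (i' * l), by
    rw [neg_eq_iff_add_eq_zero, ← add_nsmul, ← one_add_mul, Nat.add_sub_cancel' ha.one_le,
      ← mul_nsmul', mul_comm a, mul_assoc, mul_nsmul', ← hP, addOrderOf_nsmul_eq_zero, nsmul_zero]⟩
  refine h (q % a) (Nat.mod_lt _ ha.pos) ?_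
  rw [e, hq]
  nth_rewrite 1 [← Nat.mod_add_div q a]
  rw [add_nsmul, ← mul_nsmul' _ (a * (q / a)), mul_comm a, mul_assoc, mul_nsmul', ← hP,
    addOrderOf_nsmul_eq_zero, nsmul_zero, add_zero]

/-- Two independent points of order four. -/
theorem exists_hom_four (hT : 4 • T = 0) (hP : 4 • P = 0) (h2T : 2 • T ≠ 0) (h2P : 2 • P ≠ 0)
    (hne : 2 • T ≠ 2 • P) : ∃ φ : ZMod 4 × ZMod 4 →+ G, Function.Injective φ := by
  refine exists_hom hT hP (by norm_num) (by norm_num) fun i hi j hj h => ?_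
  have hodd : ∀ {Q : G} (n : ℕ), 4 • Q = 0 → 2 • (n • Q) = if 2 ∣ n then 0 else 2 • Q := by
    intro Q n hQ
    rw [← mul_nsmul']
    split_ifs with h2
    · obtain ⟨l, rfl⟩ := h2
      rw [show 2 * (2 * l) = 4 * l by ring, mul_nsmul, hQ, nsmul_zero]
    · obtain ⟨l, rfl⟩ : ∃ l, n = 2 * l + 1 := ⟨n / 2, by omega⟩
      rw [show 2 * (2 * l + 1) = 4 * l + 2 by ring, add_nsmul, mul_nsmul, hQ, nsmul_zero, zero_add]
  have h' := congrArg (fun x => 2 • x) h
  simp only [nsmul_add, nsmul_zero, hodd i hT, hodd j hP] at h'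
  have hPneg : -((2 : ℕ) • P) = (2 : ℕ) • P :=
    neg_eq_iff_add_eq_zero.mpr (by rw [← add_nsmul]; exact hP)
  split_ifs at h' with h1 h3 h3
  · obtain ⟨i', rfl⟩ := h1
    obtain ⟨j', rfl⟩ := h3
    have hi' : i' < 2 := by omega
    have hj' : j' < 2 := by omega
    interval_cases i' <;> interval_cases j' <;>
      simp only [mul_zero, mul_one, zero_nsmul, zero_add, add_zero] at h
    · exact ⟨rfl, rfl⟩
    · exact absurd h h2P
    · exact absurd h h2T
    · exact absurd (by rw [← hPneg]; exact eq_neg_of_add_eq_zero_left h) hne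
  · exact absurd (by rwa [zero_add] at h') h2P
  · exact absurd (by rwa [add_zero] at h') h2T
  · exact absurd (by rw [← hPneg]; exact eq_neg_of_add_eq_zero_left h') hne

end Groups

section RatFunc

variable {k : Type*} [Field k]

/-- A root of a monic cubic over `k[T]` is a polynomial. -/
theorem exists_polynomial_root {x : RatFunc k} {p : k[X][X]} (hp : p.Monic)
    (hx : p.eval₂ (algebraMap k[X] (RatFunc k)) x = 0) :
    ∃ u : k[X], algebraMap k[X] (RatFunc k) u = x :=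
  IsIntegrallyClosed.isIntegral_iff.mp ⟨p, hp, hx⟩

theorem not_isSquare_of_odd {q : k[X]} (h : Odd q.natDegree) :
    ¬IsSquare (algebraMap k[X] (RatFunc k) q) := by
  rintro ⟨r, hr⟩
  obtain ⟨u, rfl⟩ := exists_polynomial_root (p := Polynomial.X ^ 2 - Polynomial.C q) (x := r)
    (monic_X_pow_sub_C q two_ne_zero) (by simp [eval₂_sub, hr, pow_two])
  rw [← map_mul] at hr
  rw [RatFunc.algebraMap_injective k hr] at h
  rcases eq_or_ne u 0 with rfl | hu
  · simp at h
  rw [natDegree_mul hu hu] at h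
  exact Nat.not_odd_iff_even.mpr ⟨_, rfl⟩ h

theorem not_isSquare_of_trailing {q : k[X]} (h : Odd q.natTrailingDegree) :
    ¬IsSquare (algebraMap k[X] (RatFunc k) q) := by
  rintro ⟨r, hr⟩
  obtain ⟨u, rfl⟩ := exists_polynomial_root (p := Polynomial.X ^ 2 - Polynomial.C q) (x := r)
    (monic_X_pow_sub_C q two_ne_zero) (by simp [eval₂_sub, hr, pow_two])
  rw [← map_mul] at hr
  rw [RatFunc.algebraMap_injective k hr] at h
  rcases eq_or_ne u 0 with rfl | hu
  · simp at h
  rw [natTrailingDegree_mul hu hu] at h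
  exact Nat.not_odd_iff_even.mpr ⟨_, rfl⟩ h

theorem not_isSquare_of_simple_root {q : k[X]} {t : k} (h : q.eval t = 0)
    (h' : (derivative q).eval t ≠ 0) : ¬IsSquare (algebraMap k[X] (RatFunc k) q) := by
  rintro ⟨r, hr⟩
  obtain ⟨u, rfl⟩ := exists_polynomial_root (p := Polynomial.X ^ 2 - Polynomial.C q) (x := r)
    (monic_X_pow_sub_C q two_ne_zero) (by simp [eval₂_sub, hr, pow_two])
  rw [← map_mul] at hr
  have hq := RatFunc.algebraMap_injective k hr
  rw [hq, eval_mul, mul_self_eq_zero] at h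
  rw [hq, derivative_mul, eval_add, eval_mul, eval_mul, h] at h'
  simp at h'

variable [CharZero k]

/-- Full two-torsion makes the discriminant a square. -/
theorem no_two_two {E : WeierstrassCurve (RatFunc k)} [E.IsElliptic] (h : ¬IsSquare E.Δ)
    (φ : ZMod 2 × ZMod 2 →+ E.toAffine.Point) : ¬Function.Injective φ := by
  intro hφ
  have key : ∀ z : ZMod 2 × ZMod 2, z ≠ 0 → ∃ x y h, φ z = .some x y h ∧
      4 * x ^ 3 + E.b₂ * x ^ 2 + 2 * E.b₄ * x + E.b₆ = 0 := by
    intro z hz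
    have h2 : 2 • φ z = 0 := by
      rw [← map_nsmul, show 2 • z = 0 by revert z; decide, map_zero]
    rcases hP : φ z with _ | ⟨x, y, h⟩
    · exact absurd (hφ (hP.trans (map_zero φ).symm)) hz
    · rw [hP] at h2
      exact ⟨x, y, h, rfl, (FA.Torsion.TwoTen.root_of_two_nsmul h2).2⟩
  obtain ⟨x, y, hxy, e, r⟩ := key (1, 0) (by decide)
  obtain ⟨x', y', hxy', e', r'⟩ := key (0, 1) (by decide)
  refine h (FA.Torsion.TwoTen.isSquare_Δ_of_two_roots (fun hx => ?_) r r')
  subst hx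
  rcases FA.Thirteen.eq_or_eq_neg_of_X_eq (h₁ := hxy) (h₂ := hxy') with he | he
  · exact absurd (hφ ((e.trans he).trans e'.symm)) (by decide)
  · rw [← e, ← e', ← map_neg] at he
    exact absurd (hφ he) (by decide)

/-- A model additive at infinity has no point of order five or more. -/
theorem no_large {m : ℕ} [IsAlgClosed k] {W : WeierstrassCurve k[X]} (hg : Good W m)
    (hA : W.c₄.natDegree < 4 * m) (hB : W.c₆.natDegree < 6 * m)
    {E : WeierstrassCurve (RatFunc k)} [E.IsElliptic] {C₁ : VariableChange (RatFunc k)}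
    (hC : C₁ • E = genW W) {P : E.toAffine.Point} (hP : IsOfFinAddOrder P) : addOrderOf P < 5 := by
  by_contra h5
  obtain ⟨-, hm, hrel, C₀, hC₀, hmin⟩ := short_of_good hg hC
  haveI : (shortEq W.c₄ W.c₆).IsElliptic := by rw [← hC₀]; infer_instance
  have hD : W.c₄ ^ 3 - W.c₆ ^ 2 ≠ 0 := by
    rw [hrel]; exact mul_ne_zero (by norm_num) hg.nz
  set Q := (FA.Frob.vcEquiv C₀ hC₀).symm P
  have hord : addOrderOf Q = addOrderOf P := AddEquiv.addOrderOf_eq _ P
  obtain ⟨-, h2, -, -⟩ := semistable_bound hmin hm hD (one_dvd (addOrderOf P))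
    hP.addOrderOf_pos (r := (0, 1)) (r' := (0, 1))
    (fun hh => Nat.not_dvd_of_pos_of_lt (by norm_num) (show _ < _ by simp; omega) hh.2)
    (fun hh => Nat.not_dvd_of_pos_of_lt (by norm_num) (show _ < _ by simp; omega) hh.2)
    (fun hh => Nat.not_dvd_of_pos_of_lt (by norm_num) (show _ < _ by simp; omega) hh.2)
    (fun hh => Nat.not_dvd_of_pos_of_lt (by norm_num) (show _ < _ by simp; omega) hh.2)
    (certLocal_nil _ hP.addOrderOf_pos) (P := 0) (Q := Q) (by simp)
    (hord ▸ addOrderOf_nsmul_eq_zero Q) fun i j hi hj h => by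
      rw [nsmul_zero, zero_add, ← addOrderOf_dvd_iff_nsmul_eq_zero, hord] at h
      exact ⟨by omega, Nat.eq_zero_of_dvd_of_lt h hj⟩
  refine absurd (h2 ?_) hA.ne
  have : (W.c₄ ^ 3 - W.c₆ ^ 2).natDegree ≤ max (3 * W.c₄.natDegree) (2 * W.c₆.natDegree) :=
    (natDegree_sub_le _ _).trans (by rw [natDegree_pow, natDegree_pow])
  omega

theorem no_large_cyclic {E : WeierstrassCurve (RatFunc k)} [E.IsElliptic]
    (h : ∀ P : E.toAffine.Point, IsOfFinAddOrder P → addOrderOf P < 5) {n : ℕ} (hn : 5 ≤ n)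
    (φ : ZMod 1 × ZMod n →+ E.toAffine.Point) : ¬Function.Injective φ := by
  intro hφ
  haveI : NeZero n := ⟨by omega⟩
  have := h _ (φ.isOfFinAddOrder (isOfFinAddOrder_of_finite (0, 1)))
  rw [addOrderOf_injective φ hφ, Prod.addOrderOf_mk, addOrderOf_zero, Nat.lcm_one_left,
    ZMod.addOrderOf_one] at this
  omega

theorem no_point {E : WeierstrassCurve (RatFunc k)} [E.IsElliptic] {n : ℕ} (hn : 1 < n)
    (h : ∀ P : E.toAffine.Point, n • P = 0 → P = 0) (φ : ZMod 1 × ZMod n →+ E.toAffine.Point) :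
    ¬Function.Injective φ := by
  intro hφ
  haveI : Fact (1 < n) := ⟨hn⟩
  have h1 := hφ ((h (φ (0, 1)) (by rw [← map_nsmul, ← map_zero φ]; congr 1; ext <;> simp)).trans
    (map_zero φ).symm)
  simp at h1

variable [IsAlgClosed k] {E : WeierstrassCurve (RatFunc k)} [E.IsElliptic] {m a b : ℕ}
  {W : WeierstrassCurve k[X]} {C₁ : VariableChange (RatFunc k)}

/-- An embedded group without larger groups at its level. -/
theorem occurs_of_level (hg : Good W m) (hC : C₁ • E = genW W) (hab : a ∣ b) (hb : 0 < b)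
    {φ : ZMod a × ZMod b →+ E.toAffine.Point} (hφ : Function.Injective φ)
    (bad : List (ℕ × ℕ))
    (hbad : ∀ q ∈ bad, ∀ ψ : ZMod q.1 × ZMod q.2 →+ E.toAffine.Point, ¬Function.Injective ψ)
    (hchk : ∀ p ∈ groupsUpTo m, p.1 ∣ p.2 ∧ 0 < p.2 ∧ (a ∣ p.1 → b ∣ p.2 →
      p = (a, b) ∨ ∃ q ∈ bad, q.1 ∣ p.1 ∧ q.2 ∣ p.2)) : Occurs k a b m := by
  obtain ⟨hE, -, -, C₀, hC₀, hmin⟩ := short_of_good hg hC
  exact ⟨E, inferInstance, hE, ⟨_, _, C₀, hC₀, hmin⟩,
    exact_of_excluded (torsion_of_level hE hC₀ hmin) hab hb φ hφ bad hbad hchk⟩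

/-- An embedded group on a model additive at infinity. -/
theorem occurs_of_additive (hg : Good W m) (hA : W.c₄.natDegree < 4 * m)
    (hB : W.c₆.natDegree < 6 * m) (hC : C₁ • E = genW W) (hab : a ∣ b) (hb : 0 < b)
    {φ : ZMod a × ZMod b →+ E.toAffine.Point} (hφ : Function.Injective φ)
    (bad : List (ℕ × ℕ))
    (hbad : ∀ q ∈ bad, ∀ ψ : ZMod q.1 × ZMod q.2 →+ E.toAffine.Point, ¬Function.Injective ψ)
    (hchk : ∀ p ∈ nineteen, p.1 ∣ p.2 ∧ 0 < p.2 ∧ (a ∣ p.1 → b ∣ p.2 → p = (a, b) ∨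
      ∃ q ∈ bad ++ [(1, 5), (1, 6), (1, 7), (1, 8), (1, 9), (1, 10), (1, 12)],
        q.1 ∣ p.1 ∧ q.2 ∣ p.2)) : Occurs k a b m := by
  obtain ⟨hE, -, -, C₀, hC₀, hmin⟩ := short_of_good hg hC
  refine ⟨E, inferInstance, hE, ⟨_, _, C₀, hC₀, hmin⟩,
    exact_of_excluded (torsion_classification hE) hab hb φ hφ _ (fun q hq => ?_) hchk⟩
  rcases List.mem_append.mp hq with hq | hq
  · exact hbad q hq
  · obtain ⟨q1, q2⟩ := q
    obtain ⟨rfl, h5⟩ : q1 = 1 ∧ 5 ≤ q2 := by
      simp only [List.mem_cons, Prod.mk.injEq, List.not_mem_nil, or_false] at hq; omega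
    exact no_large_cyclic (fun P hP => no_large hg hA hB hC hP) h5

end RatFunc

end FA.CoxParry.Realise
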